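import Mathlib
import Fermat.Prelude.Def_ModularCurve_IgusaScheme

set_option autoImplicit false

open AlgebraicGeometry CategoryTheory CategoryTheory.Limits ModularCurve ModularCurve.IgusaScheme
open scoped TensorProduct

noncomputable section

namespace Fermat.Agent.S28

universe u

/-- A space covered by two irreducible open subsets with nonempty intersection is irreducible. -/
theorem irreducibleSpace_of_two_opens {X : Type*} [TopologicalSpace X] {A B : Set X}
    (hA : IsOpen A) (hAi : IsPreirreducible A) (hBi : IsPreirreducible B)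
    (hcov : ∀ x, x ∈ A ∨ x ∈ B) (hne : (A ∩ B).Nonempty) : IrreducibleSpace X := by
  have key : ∀ u : Set X, IsOpen u → u.Nonempty → (A ∩ u).Nonempty := by
    rintro u hu ⟨x, hx⟩
    rcases hcov x with h | h
    · exact ⟨x, h, hx⟩
    · obtain ⟨y, hyB, hyu, hyA⟩ := hBi u A hu hA ⟨x, h, hx⟩ (by rwa [Set.inter_comm])
      exact ⟨y, hyA, hyu⟩
  have : PreirreducibleSpace X := ⟨by
    intro u v hu hv hu' hv'
    rw [Set.univ_inter] at hu' hv' ⊢
    obtain ⟨y, -, hy⟩ := hAi u v hu hv (key u hu hu') (key v hv hv')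
    exact ⟨y, hy⟩⟩
  exact { toNonempty := ⟨hne.some⟩ }

/-- A scheme covered by two integral open subschemes with nonempty intersection is integral. -/
theorem isIntegral_of_two_charts {P U V : Scheme.{u}} (a : U ⟶ P) (b : V ⟶ P)
    [IsOpenImmersion a] [IsOpenImmersion b] [IsIntegral U] [IsIntegral V]
    (hcov : ∀ x : P, x ∈ Set.range a ∨ x ∈ Set.range b)
    (hne : (Set.range a ∩ Set.range b).Nonempty) : IsIntegral P := by
  have : IrreducibleSpace P := by
    refine irreducibleSpace_of_two_opens a.isOpenEmbedding.isOpen_range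
      ?_ ?_ hcov hne
    · rw [← Set.image_univ]
      exact (IrreducibleSpace.isIrreducible_univ U).isPreirreducible.image a
        a.continuous.continuousOn
    · rw [← Set.image_univ]
      exact (IrreducibleSpace.isIrreducible_univ V).isPreirreducible.image b
        b.continuous.continuousOn
  have : IsReduced P := by
    apply (config := { allowSynthFailures := true }) isReduced_of_isReduced_stalk
    intro x
    rcases hcov x with ⟨y, rfl⟩ | ⟨y, rfl⟩
    · exact isReduced_of_injective (a.stalkMap y).hom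
        (ConcreteCategory.bijective_of_isIso (a.stalkMap y)).injective
    · exact isReduced_of_injective (b.stalkMap y).hom
        (ConcreteCategory.bijective_of_isIso (b.stalkMap y)).injective
  exact isIntegral_of_irreducibleSpace_of_isReduced P

section Igusa

variable (N : ℕ) [NeZero N] (ℓ : ℕ) [Fact ℓ.Prime]
variable (K : Type) [Field K] [Algebra ↥(GaloisRep.ratLocalizedAt ℓ) K]

/-- The base change of a chart `Spec A ⟶ X ⟶ Spec R` is `Spec (A ⊗ K)`. -/
def chartPullbackIso {R A : Type} [CommRing R] [CommRing A] [Algebra R A] [Algebra R K]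
    {X : Scheme.{0}} (f : X ⟶ Spec (CommRingCat.of R)) (ι : Spec (CommRingCat.of A) ⟶ X)
    (h : ι ≫ f = Spec.map (CommRingCat.ofHom (algebraMap R A))) :
    pullback ι (pullback.fst f (Spec.map (CommRingCat.ofHom (algebraMap R K)))) ≅
      Spec (CommRingCat.of (A ⊗[R] K)) :=
  pullbackRightPullbackFstIso f (Spec.map (CommRingCat.ofHom (algebraMap R K))) ι ≪≫
    pullback.congrHom h rfl ≪≫ pullbackSpecIso R A K

theorem isIntegral_pullback_igusaTo_of_isDomain
    (hFin : IsDomain (↥(chartAlgFin N ℓ) ⊗[↥(GaloisRep.ratLocalizedAt ℓ)] K))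
    (hInf : IsDomain (↥(chartAlgInf N ℓ) ⊗[↥(GaloisRep.ratLocalizedAt ℓ)] K))
    (hMid : Nontrivial (↥(chartAlgMid N ℓ) ⊗[↥(GaloisRep.ratLocalizedAt ℓ)] K)) :
    IsIntegral ↑(pullback (igusaTo N ℓ)
      (Spec.map (CommRingCat.ofHom (algebraMap ↥(GaloisRep.ratLocalizedAt ℓ) K)))) := by
  set g := Spec.map (CommRingCat.ofHom (algebraMap ↥(GaloisRep.ratLocalizedAt ℓ) K)) with hg
  set p := pullback.fst (igusaTo N ℓ) g with hp
  have iU : IsIntegral (pullback (ιFin N ℓ) p) :=
    IsIntegral.of_isIso (chartPullbackIso K (igusaTo N ℓ) (ιFin N ℓ) (ιFin_igusaTo N ℓ)).inv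
  have iV : IsIntegral (pullback (ιInf N ℓ) p) :=
    IsIntegral.of_isIso (chartPullbackIso K (igusaTo N ℓ) (ιInf N ℓ) (ιInf_igusaTo N ℓ)).inv
  refine isIntegral_of_two_charts (pullback.snd (ιFin N ℓ) p) (pullback.snd (ιInf N ℓ) p) ?_ ?_
  · intro x
    rw [Scheme.Pullback.range_snd, Scheme.Pullback.range_snd]
    exact mem_range_ιFin_or_mem_range_ιInf N ℓ (p x)
  · rw [Scheme.Pullback.range_snd, Scheme.Pullback.range_snd]
    have hmid : (fFin N ℓ ≫ ιFin N ℓ) ≫ igusaTo N ℓ =
        Spec.map (CommRingCat.ofHom (algebraMap ↥(GaloisRep.ratLocalizedAt ℓ)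
          ↥(chartAlgMid N ℓ))) := by
      rw [Category.assoc, ιFin_igusaTo, ← Spec.map_comp, ← CommRingCat.ofHom_comp]
      congr 2
    have e := chartPullbackIso K (igusaTo N ℓ) (fFin N ℓ ≫ ιFin N ℓ) hmid
    obtain ⟨z₀⟩ : Nonempty (Spec (CommRingCat.of
        (↥(chartAlgMid N ℓ) ⊗[↥(GaloisRep.ratLocalizedAt ℓ)] K))) :=
      inferInstanceAs (Nonempty (PrimeSpectrum _))
    obtain ⟨z, -⟩ : ∃ z, z = e.inv z₀ := ⟨_, rfl⟩
    obtain ⟨w, hw⟩ : ∃ w, w = pullback.fst (fFin N ℓ ≫ ιFin N ℓ) p z := ⟨_, rfl⟩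
    have hcond : p (pullback.snd (fFin N ℓ ≫ ιFin N ℓ) p z) = (fFin N ℓ ≫ ιFin N ℓ) w := by
      rw [hw, ← Scheme.Hom.comp_apply, ← Scheme.Hom.comp_apply, pullback.condition]
    refine ⟨pullback.snd (fFin N ℓ ≫ ιFin N ℓ) p z, ?_, ?_⟩
    · rw [Set.mem_preimage, hcond, Scheme.Hom.comp_apply]
      exact ⟨_, rfl⟩
    · rw [Set.mem_preimage, hcond, glue_condition, Scheme.Hom.comp_apply]
      exact ⟨_, rfl⟩

end Igusa

/-- Same statement under the name used in the S28 skeleton (lemma_board 62). -/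
theorem isIntegral_pullback_of_charts
    (N : ℕ) [NeZero N] (ℓ : ℕ) [Fact ℓ.Prime]
    (K : Type) [Field K] [Algebra ↥(GaloisRep.ratLocalizedAt ℓ) K]
    (hFin : IsDomain (TensorProduct ↥(GaloisRep.ratLocalizedAt ℓ) (chartAlgFin N ℓ) K))
    (hInf : IsDomain (TensorProduct ↥(GaloisRep.ratLocalizedAt ℓ) (chartAlgInf N ℓ) K))
    (hMid : Nontrivial (TensorProduct ↥(GaloisRep.ratLocalizedAt ℓ) (chartAlgMid N ℓ) K)) :
    IsIntegral ↑(pullback (igusaTo N ℓ)
      (Spec.map (CommRingCat.ofHom (algebraMap ↥(GaloisRep.ratLocalizedAt ℓ) K)))) :=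
  isIntegral_pullback_igusaTo_of_isDomain N ℓ K hFin hInf hMid

end Fermat.Agent.S28
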