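import Mathlib
import Fermat.Prelude.Def_ModularCurve_LaurentCoeff
import Fermat.Prelude.Def_GaloisRep_Flat

/-!
# S28 (M8): tensoring with a field `K` of characteristic `ℓ`

If `A` is a `ℤ_(ℓ)`-algebra with a ring hom `φ : A → 𝔽_ℓ((q))` whose kernel is `ℓ A`, then
`K ⊗ A` embeds into `K((q))`, hence is a domain.
-/

set_option autoImplicit false

namespace Fermat.Agent.S28

open TensorProduct ModularCurve

section RatLoc

variable (ℓ : ℕ)

/-- Denominators are units of `ℤ_(ℓ)`. -/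
theorem isUnit_den_ratLocalizedAt (r : ↥(GaloisRep.ratLocalizedAt ℓ)) :
    IsUnit (((r : ℚ).den : ℕ) : ↥(GaloisRep.ratLocalizedAt ℓ)) := by
  have hpos : 0 < (r : ℚ).den := (r : ℚ).den_pos
  have hmem : (((r : ℚ).den : ℚ))⁻¹ ∈ GaloisRep.ratLocalizedAt ℓ := by
    show ((((r : ℚ).den : ℚ))⁻¹).den.Coprime ℓ
    rw [Rat.inv_natCast_den_of_pos hpos]
    exact r.2
  refine IsUnit.of_mul_eq_one ⟨_, hmem⟩ (Subtype.ext ?_)
  have h0 : (((r : ℚ).den : ℚ)) ≠ 0 := by exact_mod_cast hpos.ne'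
  simp [h0]

theorem den_mul_eq_num_ratLocalizedAt (r : ↥(GaloisRep.ratLocalizedAt ℓ)) :
    (((r : ℚ).den : ℕ) : ↥(GaloisRep.ratLocalizedAt ℓ)) * r
      = (((r : ℚ).num : ℤ) : ↥(GaloisRep.ratLocalizedAt ℓ)) := by
  refine Subtype.ext ?_
  simp

/-- Ring homs out of `ℤ_(ℓ)` are unique. -/
theorem ringHom_ratLocalizedAt_ext {T : Type*} [CommRing T]
    (f g : ↥(GaloisRep.ratLocalizedAt ℓ) →+* T) : f = g := by
  ext r
  have hu := (isUnit_den_ratLocalizedAt ℓ r).map f
  have h1 : f (((r : ℚ).den : ℕ) : ↥(GaloisRep.ratLocalizedAt ℓ)) * f r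
      = f (((r : ℚ).den : ℕ) : ↥(GaloisRep.ratLocalizedAt ℓ)) * g r := by
    rw [← map_mul, den_mul_eq_num_ratLocalizedAt, map_intCast, map_natCast,
      ← map_natCast g, ← map_mul, den_mul_eq_num_ratLocalizedAt, map_intCast]
  exact hu.mul_left_cancel h1

end RatLoc

section Main

variable (ℓ : ℕ) [Fact ℓ.Prime] (K : Type) [Field K] [CharP K ℓ]
  [Algebra ↥(GaloisRep.ratLocalizedAt ℓ) K]
  (A : Type) [CommRing A] [Algebra ↥(GaloisRep.ratLocalizedAt ℓ) A]
  (φ : A →+* LaurentSeries (ZMod ℓ))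

/-- The composite `A → 𝔽_ℓ((q)) → K((q))` as a `ℤ_(ℓ)`-algebra hom. -/
noncomputable def toLaurentK : A →ₐ[↥(GaloisRep.ratLocalizedAt ℓ)] LaurentSeries K :=
  { (coeffMap (ZMod.castHom (dvd_refl ℓ) K)).comp φ with
    commutes' := fun r =>
      congrFun (congrArg DFunLike.coe (ringHom_ratLocalizedAt_ext ℓ
        (((coeffMap (ZMod.castHom (dvd_refl ℓ) K)).comp φ).comp (algebraMap _ A))
        (algebraMap _ (LaurentSeries K)))) r }

@[simp] theorem toLaurentK_apply (a : A) :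
    toLaurentK ℓ K A φ a = coeffMap (ZMod.castHom (dvd_refl ℓ) K) (φ a) := rfl

/-- The constants `K → K((q))` as a `ℤ_(ℓ)`-algebra hom. -/
noncomputable def constLaurentK : K →ₐ[↥(GaloisRep.ratLocalizedAt ℓ)] LaurentSeries K :=
  { algebraMap K (LaurentSeries K) with
    commutes' := fun r =>
      congrFun (congrArg DFunLike.coe (ringHom_ratLocalizedAt_ext ℓ
        ((algebraMap K (LaurentSeries K)).comp (algebraMap _ K))
        (algebraMap _ (LaurentSeries K)))) r }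

omit [Fact ℓ.Prime] [CharP K ℓ] in
@[simp] theorem constLaurentK_apply (k : K) :
    constLaurentK ℓ K k = algebraMap K (LaurentSeries K) k := rfl

/-- The comparison map `K ⊗ A → K((q))`. -/
noncomputable def tensorToLaurentK :
    K ⊗[↥(GaloisRep.ratLocalizedAt ℓ)] A →ₐ[↥(GaloisRep.ratLocalizedAt ℓ)] LaurentSeries K :=
  Algebra.TensorProduct.productMap (constLaurentK ℓ K) (toLaurentK ℓ K A φ)

theorem tensorToLaurentK_tmul (k : K) (a : A) :
    tensorToLaurentK ℓ K A φ (k ⊗ₜ a)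
      = algebraMap K (LaurentSeries K) k * coeffMap (ZMod.castHom (dvd_refl ℓ) K) (φ a) := by
  simp [tensorToLaurentK]

omit [Fact ℓ.Prime] [CharP K ℓ] in
/-- Every tensor is a finite sum `∑ eᵢ ⊗ bᵢ` as soon as the `eᵢ` span `K` over `ℕ`. -/
theorem exists_finsupp_sum_tmul {ι₀ : Type*} (e : ι₀ → K)
    (hspan : ∀ k : K, ∃ c : ι₀ →₀ ℕ, k = c.sum (fun i n => n • e i))
    (t : K ⊗[↥(GaloisRep.ratLocalizedAt ℓ)] A) :
    ∃ b : ι₀ →₀ A, t = b.sum (fun i a => e i ⊗ₜ[↥(GaloisRep.ratLocalizedAt ℓ)] a) := by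
  induction t using TensorProduct.induction_on with
  | zero => exact ⟨0, by simp⟩
  | tmul k a =>
    obtain ⟨c, hc⟩ := hspan k
    refine ⟨c.mapRange (fun n => n • a) (zero_smul _ _), ?_⟩
    rw [Finsupp.sum_mapRange_index (fun i => TensorProduct.tmul_zero _ _), hc, Finsupp.sum,
      Finsupp.sum, TensorProduct.sum_tmul]
    refine Finset.sum_congr rfl fun i _ => ?_
    rw [TensorProduct.smul_tmul]
  | add x y hx hy =>
    obtain ⟨b, rfl⟩ := hx
    obtain ⟨b', rfl⟩ := hy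
    refine ⟨b + b', ?_⟩
    rw [Finsupp.sum_add_index' (fun i => TensorProduct.tmul_zero _ _)
      (fun i a a' => TensorProduct.tmul_add _ _ _)]

theorem tensorToLaurentK_injective (hφ : ∀ x, φ x = 0 → ∃ y, x = (ℓ : A) * y) :
    Function.Injective (tensorToLaurentK ℓ K A φ) := by
  classical
  let _ : Algebra (ZMod ℓ) K := ZMod.algebra K ℓ
  have hsmul : ∀ (c : ZMod ℓ) (k : K), c • k = ZMod.castHom (dvd_refl ℓ) K c * k := by
    intro c k
    rw [Algebra.smul_def]
    rfl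
  let 𝔅 := Module.Basis.ofVectorSpace (ZMod ℓ) K
  have hspan : ∀ k : K, ∃ c : Module.Basis.ofVectorSpaceIndex (ZMod ℓ) K →₀ ℕ,
      k = c.sum (fun i n => n • 𝔅 i) := by
    intro k
    refine ⟨(𝔅.repr k).mapRange ZMod.val (ZMod.val_zero), ?_⟩
    rw [Finsupp.sum_mapRange_index (h := fun i n => n • 𝔅 i) (fun i => zero_smul _ _)]
    conv_lhs => rw [← 𝔅.linearCombination_repr k, Finsupp.linearCombination_apply]
    refine Finsupp.sum_congr fun i _ => ?_
    rw [← Nat.cast_smul_eq_nsmul (ZMod ℓ), ZMod.natCast_zmod_val]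
  rw [injective_iff_map_eq_zero]
  intro t ht
  obtain ⟨b, rfl⟩ := exists_finsupp_sum_tmul ℓ K A 𝔅 hspan t
  have hb : ∀ i, φ (b i) = 0 := by
    intro i
    ext n
    have hn := congrArg (fun s : LaurentSeries K => s.coeff n) ht
    simp only [Finsupp.sum, map_sum, tensorToLaurentK_tmul, HahnSeries.coeff_sum,
      algebraMap_laurentSeries_eq_single, HahnSeries.coeff_single_mul, sub_zero, coeffMap_coeff,
      HahnSeries.coeff_zero] at hn
    have hn' : Finsupp.linearCombination (ZMod ℓ) 𝔅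
        (b.mapRange (fun a => (φ a).coeff n) (by simp)) = 0 := by
      rw [Finsupp.linearCombination_apply,
        Finsupp.sum_mapRange_index (h := fun i c => c • 𝔅 i) (fun i => zero_smul _ _), Finsupp.sum,
        ← hn]
      refine Finset.sum_congr rfl fun i _ => ?_
      rw [hsmul, mul_comm]
    have h0 := (linearIndependent_iff.mp 𝔅.linearIndependent) _ hn'
    have := DFunLike.congr_fun h0 i
    simpa using this
  rw [Finsupp.sum]
  refine Finset.sum_eq_zero fun i _ => ?_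
  obtain ⟨y, hy⟩ := hφ _ (hb i)
  rw [hy, ← nsmul_eq_mul, ← TensorProduct.smul_tmul, nsmul_eq_mul, CharP.cast_eq_zero, zero_mul,
    TensorProduct.zero_tmul]

/-- **(M8)** If the kernel of `φ : A → 𝔽_ℓ((q))` is `ℓ A` then `K ⊗ A` is a domain. -/
theorem isDomain_tensorProduct_of_ker_le (hφ : ∀ x, φ x = 0 → ∃ y, x = (ℓ : A) * y) :
    IsDomain (K ⊗[↥(GaloisRep.ratLocalizedAt ℓ)] A) :=
  (tensorToLaurentK_injective ℓ K A φ hφ).isDomain (tensorToLaurentK ℓ K A φ)

end Main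

end Fermat.Agent.S28
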