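import Fermat.Agent.S28.Defs

/-!
# S28 work package M0: the ring `ℤ_(ℓ) = GaloisRep.ratLocalizedAt ℓ`
-/

set_option autoImplicit false
noncomputable section

namespace Fermat.Agent.S28

/-- `ℤ_(ℓ)` as a type. -/
abbrev Zl (ℓ : ℕ) : Type := ↥(GaloisRep.ratLocalizedAt ℓ)

variable (ℓ : ℕ)

/-! ### helper lemmas -/

theorem zl_mem_iff (q : ℚ) : q ∈ GaloisRep.ratLocalizedAt ℓ ↔ q.den.Coprime ℓ := Iff.rfl

theorem zl_inv_natCast_mem {d : ℕ} (hd : d.Coprime ℓ) :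
    ((d : ℚ))⁻¹ ∈ GaloisRep.ratLocalizedAt ℓ := by
  rw [zl_mem_iff, Rat.inv_natCast_den]
  split_ifs with h
  · exact Nat.coprime_one_left _
  · exact hd

/-- the inverse of a natural number prime to `ℓ`, as an element of `ℤ_(ℓ)`. -/
def zlInv {d : ℕ} (hd : d.Coprime ℓ) : Zl ℓ := ⟨((d : ℚ))⁻¹, zl_inv_natCast_mem ℓ hd⟩

theorem zl_natCast_mul_inv {d : ℕ} (hd : d.Coprime ℓ) (h0 : d ≠ 0) :
    (d : Zl ℓ) * zlInv ℓ hd = 1 := by
  apply Subtype.ext
  have : (d : ℚ) ≠ 0 := by exact_mod_cast h0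
  simp [zlInv, this]

theorem zl_inv_mul_natCast {d : ℕ} (hd : d.Coprime ℓ) (h0 : d ≠ 0) :
    zlInv ℓ hd * (d : Zl ℓ) = 1 := by
  rw [mul_comm, zl_natCast_mul_inv ℓ hd h0]

theorem zl_eq_num_mul_inv (x : Zl ℓ) :
    x = ((x : ℚ).num : Zl ℓ) * zlInv ℓ (d := (x : ℚ).den) x.2 := by
  apply Subtype.ext
  simp only [zlInv, Subring.coe_mul, Subring.coe_intCast]
  rw [← div_eq_mul_inv, Rat.num_div_den]

theorem zl_mul_den (x : Zl ℓ) : x * (((x : ℚ).den : ℕ) : Zl ℓ) = ((x : ℚ).num : Zl ℓ) := by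
  apply Subtype.ext
  simp only [Subring.coe_mul, Subring.coe_intCast, Subring.coe_natCast]
  exact Rat.mul_den_eq_num _

/-- Any two ring homs out of `ℤ_(ℓ)` agree. -/
theorem ratLocalizedAt_ringHom_ext {S : Type*} [Semiring S] (f g : Zl ℓ →+* S) : f = g := by
  have hZ : f.comp (Int.castRingHom (Zl ℓ)) = g.comp (Int.castRingHom (Zl ℓ)) :=
    RingHom.ext_int _ _
  have hint : ∀ n : ℤ, f (n : Zl ℓ) = g (n : Zl ℓ) := fun n => by
    simpa using RingHom.congr_fun hZ n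
  have hnat : ∀ n : ℕ, f (n : Zl ℓ) = g (n : Zl ℓ) := fun n => by
    simp
  ext x
  have hd := x.2
  have h0 : (x : ℚ).den ≠ 0 := (x : ℚ).den_nz
  set d := (x : ℚ).den with hdd
  have hinv : f (zlInv ℓ (d := d) hd) = g (zlInv ℓ (d := d) hd) := by
    calc f (zlInv ℓ hd) = f (zlInv ℓ hd) * (g (d : Zl ℓ) * g (zlInv ℓ hd)) := by
          rw [← map_mul, zl_natCast_mul_inv ℓ hd h0, map_one, mul_one]
      _ = (f (zlInv ℓ hd) * f (d : Zl ℓ)) * g (zlInv ℓ hd) := by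
          rw [← hnat, mul_assoc]
      _ = g (zlInv ℓ hd) := by
          rw [← map_mul, zl_inv_mul_natCast ℓ hd h0, map_one, one_mul]
  rw [zl_eq_num_mul_inv ℓ x, map_mul, map_mul, hint, hinv]

variable [Fact ℓ.Prime]

theorem zl_coprime_iff (n : ℕ) : n.Coprime ℓ ↔ ¬ ℓ ∣ n := by
  rw [Nat.coprime_comm]
  exact Nat.Prime.coprime_iff_not_dvd Fact.out

theorem zl_divInt_mem (a b : ℤ) (hb : ¬ (ℓ : ℤ) ∣ b) :
    (a : ℚ) / (b : ℚ) ∈ GaloisRep.ratLocalizedAt ℓ := by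
  rw [zl_mem_iff, zl_coprime_iff]
  intro h
  apply hb
  have h1 : (((a : ℚ) / (b : ℚ)).den : ℤ) ∣ b := by
    rw [← Rat.divInt_eq_div]
    exact Rat.den_dvd a b
  exact (Int.natCast_dvd_natCast.2 h).trans h1

theorem isDVRIn_ratLocalizedAt : IsDVRIn (GaloisRep.ratLocalizedAt ℓ) (ℓ : ℚ) := by
  have hp : ℓ.Prime := Fact.out
  refine ⟨natCast_mem _ ℓ, ?_, ?_⟩
  · intro x hx
    rw [zl_mem_iff, zl_coprime_iff, not_not] at hx
    obtain ⟨k, hk⟩ := hx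
    have hnum : ¬ (ℓ : ℤ) ∣ x.num := by
      intro h
      have h1 : ℓ ∣ x.num.natAbs := Int.natCast_dvd.1 h
      have h2 : ℓ ∣ Nat.gcd x.num.natAbs x.den := Nat.dvd_gcd h1 ⟨k, hk⟩
      rw [x.reduced] at h2
      exact hp.one_lt.ne' (Nat.dvd_one.1 h2)
    refine ⟨((k : ℤ) : ℚ) / (x.num : ℚ), zl_divInt_mem ℓ _ _ hnum, ?_⟩
    conv_lhs => rw [← Rat.num_div_den x]
    rw [inv_div, hk]
    push_cast
    ring
  · intro x hx
    have hdvd : ∀ n : ℕ, ((ℓ : ℤ) ^ n) ∣ x.num := by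
      intro n
      obtain ⟨y, hy, hxy⟩ := hx n
      have h1 : (x.num : ℚ) * (y.den : ℚ) = (ℓ : ℚ) ^ n * (y.num : ℚ) * (x.den : ℚ) := by
        have hxd : (x.den : ℚ) ≠ 0 := by exact_mod_cast x.den_nz
        have hyd : (y.den : ℚ) ≠ 0 := by exact_mod_cast y.den_nz
        have e1 : x = (x.num : ℚ) / (x.den : ℚ) := (Rat.num_div_den x).symm
        have e2 : y = (y.num : ℚ) / (y.den : ℚ) := (Rat.num_div_den y).symm
        rw [e1, e2] at hxy
        field_simp at hxy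
        linarith
      have h2 : x.num * (y.den : ℤ) = (ℓ : ℤ) ^ n * y.num * (x.den : ℤ) := by
        exact_mod_cast h1
      have h3 : ((ℓ : ℤ) ^ n) ∣ x.num * (y.den : ℤ) := ⟨y.num * x.den, by rw [h2]; ring⟩
      have h4 : IsCoprime ((ℓ : ℤ) ^ n) (y.den : ℤ) := by
        apply IsCoprime.pow_left
        rw [Nat.isCoprime_iff_coprime]
        exact Nat.Coprime.symm hy
      exact h4.dvd_of_dvd_mul_right h3
    have hz : x.num = 0 := by
      apply Int.eq_zero_of_abs_lt_dvd (hdvd x.num.natAbs)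
      have : x.num.natAbs < ℓ ^ x.num.natAbs := Nat.lt_pow_self hp.one_lt
      rw [Int.abs_eq_natAbs]
      exact_mod_cast this
    exact Rat.zero_of_num_zero hz

theorem zl_span_isPrime : (Ideal.span {(ℓ : ℤ)}).IsPrime := by
  have hp : ℓ.Prime := Fact.out
  rw [Ideal.span_singleton_prime (by exact_mod_cast hp.ne_zero)]
  exact Nat.prime_iff_prime_int.1 hp

theorem zl_isUnit_intCast {n : ℤ} (hn : ¬ (ℓ : ℤ) ∣ n) : IsUnit (n : Zl ℓ) := by
  have h0 : (n : ℚ) ≠ 0 := by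
    intro h
    apply hn
    have : n = 0 := by exact_mod_cast h
    rw [this]; exact dvd_zero _
  refine IsUnit.of_mul_eq_one ⟨(1 : ℚ) / (n : ℚ), ?_⟩ ?_
  · have := zl_divInt_mem ℓ 1 n hn
    simpa using this
  · apply Subtype.ext
    simp [h0]

theorem zl_isLocalization :
    @IsLocalization.AtPrime ℤ _ (Zl ℓ) _ _ (Ideal.span {(ℓ : ℤ)}) (zl_span_isPrime ℓ) := by
  have := zl_span_isPrime ℓ
  rw [IsLocalization.AtPrime, isLocalization_iff]
  refine ⟨?_, ?_, ?_⟩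
  · rintro ⟨m, hm⟩
    have hm' : ¬ (ℓ : ℤ) ∣ m := by
      intro h
      exact hm (Ideal.mem_span_singleton.2 h)
    simpa using zl_isUnit_intCast ℓ hm'
  · intro z
    refine ⟨((z : ℚ).num, ⟨((z : ℚ).den : ℤ), ?_⟩), ?_⟩
    · intro h
      have h1 : (ℓ : ℤ) ∣ ((z : ℚ).den : ℤ) := Ideal.mem_span_singleton.1 h
      have h2 : ℓ ∣ (z : ℚ).den := Int.natCast_dvd_natCast.1 h1
      exact (zl_coprime_iff ℓ _).1 z.2 h2
    · simpa using zl_mul_den ℓ z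
  · intro x y hxy
    refine ⟨1, ?_⟩
    have : ((x : Zl ℓ) : ℚ) = ((y : Zl ℓ) : ℚ) := by
      have := congrArg (Subtype.val) hxy
      simpa using this
    have hxy' : x = y := by exact_mod_cast this
    rw [hxy']

instance instIsDVRZl : IsDiscreteValuationRing (Zl ℓ) := by
  have hp : ℓ.Prime := Fact.out
  have := zl_span_isPrime ℓ
  have := zl_isLocalization ℓ
  refine IsLocalization.AtPrime.isDiscreteValuationRing_of_dedekind_domain ℤ
    (P := Ideal.span {(ℓ : ℤ)}) ?_ (Zl ℓ)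
  rw [Ne, Ideal.span_singleton_eq_bot]
  exact_mod_cast hp.ne_zero

instance instIsFractionRingZl : IsFractionRing (Zl ℓ) ℚ := by
  have := zl_span_isPrime ℓ
  have := zl_isLocalization ℓ
  exact IsFractionRing.isFractionRing_of_isDomain_of_isLocalization
    (Ideal.span {(ℓ : ℤ)}).primeCompl (Zl ℓ) ℚ

/-- existence of the residue map. -/
theorem exists_resZ : ∃ f : Zl ℓ →+* ZMod ℓ, Function.Surjective f ∧
    ∀ x, f x = 0 ↔ ∃ y, x = (ℓ : Zl ℓ) * y := by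
  have hp : ℓ.Prime := Fact.out
  have := zl_span_isPrime ℓ
  have := zl_isLocalization ℓ
  have hg : ∀ y : (Ideal.span {(ℓ : ℤ)}).primeCompl,
      IsUnit (Int.castRingHom (ZMod ℓ) y) := by
    rintro ⟨m, hm⟩
    have hm' : ¬ (ℓ : ℤ) ∣ m := by
      intro h
      exact hm (Ideal.mem_span_singleton.2 h)
    rw [isUnit_iff_ne_zero]
    simpa [ZMod.intCast_zmod_eq_zero_iff_dvd] using hm'
  refine ⟨IsLocalization.lift (S := Zl ℓ) hg, ?_, ?_⟩
  · intro z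
    obtain ⟨n, rfl⟩ := ZMod.intCast_surjective z
    exact ⟨(n : Zl ℓ), by simp⟩
  · intro x
    set f : Zl ℓ →+* ZMod ℓ := IsLocalization.lift (S := Zl ℓ) hg
    have h1 : f x * (((x : ℚ).den : ℕ) : ZMod ℓ) = ((x : ℚ).num : ZMod ℓ) := by
      have := congrArg f (zl_mul_den ℓ x)
      simpa using this
    have hden : (((x : ℚ).den : ℕ) : ZMod ℓ) ≠ 0 := by
      rw [Ne, ZMod.natCast_eq_zero_iff]
      exact (zl_coprime_iff ℓ _).1 x.2
    constructor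
    · intro hx
      rw [hx, zero_mul] at h1
      have h2 : (ℓ : ℤ) ∣ (x : ℚ).num := (ZMod.intCast_zmod_eq_zero_iff_dvd _ _).1 h1.symm
      obtain ⟨k, hk⟩ := h2
      refine ⟨(k : Zl ℓ) * zlInv ℓ (d := (x : ℚ).den) x.2, ?_⟩
      conv_lhs => rw [zl_eq_num_mul_inv ℓ x, hk]
      push_cast
      ring
    · rintro ⟨y, rfl⟩
      rw [map_mul, map_natCast, ZMod.natCast_self, zero_mul]

/-- the residue map `ℤ_(ℓ) → 𝔽_ℓ`. -/
def resZ : Zl ℓ →+* ZMod ℓ := (exists_resZ ℓ).choose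

theorem resZ_surjective : Function.Surjective (resZ ℓ) := (exists_resZ ℓ).choose_spec.1

theorem resZ_eq_zero_iff (x : Zl ℓ) : resZ ℓ x = 0 ↔ ∃ y, x = (ℓ : Zl ℓ) * y :=
  (exists_resZ ℓ).choose_spec.2 x

/-- a natural number prime to `ℓ` is a unit of `ℤ_(ℓ)`. -/
theorem isUnit_natCast_Zl {n : ℕ} (hn : ¬ ℓ ∣ n) : IsUnit (n : Zl ℓ) := by
  have h : ¬ (ℓ : ℤ) ∣ (n : ℤ) := fun h => hn (Int.natCast_dvd_natCast.1 h)
  simpa using zl_isUnit_intCast ℓ h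

/-- Bezout step: if `ℓ ∤ m` and `m = ℓ * y` in `E` with `y ∈ S` then `ℓ⁻¹ ∈ S`. -/
theorem zl_inv_mem_of_eq {E : Type*} [Field E] [CharZero E] (S : Subring E)
    {m : ℤ} (hm : ¬ (ℓ : ℤ) ∣ m) {y : E} (hy : y ∈ S) (h : (m : E) = (ℓ : E) * y) :
    ((ℓ : E))⁻¹ ∈ S := by
  have hp : ℓ.Prime := Fact.out
  have hcop : IsCoprime m (ℓ : ℤ) := by
    rw [isCoprime_comm]
    exact (Nat.prime_iff_prime_int.1 hp).coprime_iff_not_dvd.2 hm
  obtain ⟨a, b, hab⟩ := hcop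
  have hℓ0 : (ℓ : E) ≠ 0 := by exact_mod_cast hp.ne_zero
  have h1 : (a : E) * (m : E) + (b : E) * (ℓ : E) = 1 := by exact_mod_cast congrArg (Int.cast : ℤ → E) hab
  have h2 : ((ℓ : E))⁻¹ = (a : E) * y + (b : E) := by
    rw [h] at h1
    field_simp
    linear_combination -h1
  rw [h2]
  exact S.add_mem (S.mul_mem (intCast_mem S a) hy) (intCast_mem S b)

/-- Let `S` be a DVR (elementary sense) of a char 0 field `E` with uniformiser `ℓ`.
Then `S ∩ ℚ = ℤ_(ℓ)`. -/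
theorem ratCast_mem_iff {E : Type*} [Field E] [CharZero E] (S : Subring E)
    (hS : IsDVRIn S (ℓ : E)) (hℓ : ((ℓ : E))⁻¹ ∉ S) (c : ℚ) :
    (c : E) ∈ S ↔ c ∈ GaloisRep.ratLocalizedAt ℓ := by
  have hp : ℓ.Prime := Fact.out
  have hcE : (c : E) = (c.num : E) * ((c.den : E))⁻¹ := by
    rw [← div_eq_mul_inv]
    exact Rat.cast_def c
  have hden0 : (c.den : E) ≠ 0 := by exact_mod_cast c.den_nz
  constructor
  · intro hc
    rw [zl_mem_iff, zl_coprime_iff]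
    rintro ⟨k, hk⟩
    apply hℓ
    have hnum : ¬ (ℓ : ℤ) ∣ c.num := by
      intro h
      have h1 : ℓ ∣ c.num.natAbs := Int.natCast_dvd.1 h
      have h2 : ℓ ∣ Nat.gcd c.num.natAbs c.den := Nat.dvd_gcd h1 ⟨k, hk⟩
      rw [c.reduced] at h2
      exact hp.one_lt.ne' (Nat.dvd_one.1 h2)
    refine zl_inv_mem_of_eq ℓ S hnum (y := (c : E) * (k : E))
      (S.mul_mem hc (natCast_mem S k)) ?_
    have h3 : (c.den : E) = (ℓ : E) * (k : E) := by exact_mod_cast congrArg (Nat.cast : ℕ → E) hk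
    have h4 : (c.num : E) = (c : E) * (c.den : E) := by
      rw [hcE, mul_assoc, inv_mul_cancel₀ hden0, mul_one]
    rw [h4, h3]
    ring
  · intro hc
    rw [zl_mem_iff, zl_coprime_iff] at hc
    rw [hcE]
    refine S.mul_mem (intCast_mem S _) ?_
    by_contra hinv
    obtain ⟨y, hy, hxy⟩ := hS.inv_mem _ hinv
    rw [inv_inv] at hxy
    apply hℓ
    refine zl_inv_mem_of_eq ℓ S (m := (c.den : ℤ)) ?_ hy ?_
    · intro h
      exact hc (Int.natCast_dvd_natCast.1 h)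
    · simpa using hxy

end Fermat.Agent.S28
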