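import Fermat.Agent.S28.AI
import Fermat.Agent.S28.Zl
import Fermat.Agent.S28.TensorK
import Fermat.Agent.S28.Glue

/-!
# S28: the "charts layer"

* every element of the function field is a fraction of Laurent series with `ℤ_(ℓ)`-coefficients;
* elements of the charts have `ℤ_(ℓ)`-integral `q`-expansions;
* the reduction map `chartRed : chartAlg N ℓ S →+* 𝔽_ℓ((q))`.
-/

set_option autoImplicit false
noncomputable section

namespace Fermat.Agent.S28

open ModularCurve ModularCurve.IgusaScheme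

variable (ℓ : ℕ)

/-- Laurent series over `ℚ` with coefficients in `ℤ_(ℓ)`. -/
abbrev cZl : Subring (LaurentSeries ℚ) := coeffSubring (Γ := ℤ) (GaloisRep.ratLocalizedAt ℓ)

theorem charts_mem_cZl_iff (x : LaurentSeries ℚ) :
    x ∈ cZl ℓ ↔ ∀ n : ℤ, x.coeff n ∈ GaloisRep.ratLocalizedAt ℓ :=
  mem_coeffSubring_iff _ x

/-- `q^k * P(q)` with `P ∈ ℤ⟦q⟧` has `ℤ_(ℓ)`-coefficients. -/
theorem charts_single_mul_mem (k : ℤ) (P : PowerSeries ℤ) :
    HahnSeries.single k (1 : ℚ) * HahnSeries.ofPowerSeries ℤ ℚ (P.map (Int.castRingHom ℚ)) ∈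
      cZl ℓ := by
  rw [charts_mem_cZl_iff]
  intro n
  rw [HahnSeries.coeff_single_mul, one_mul]
  rcases le_or_gt 0 (n - k) with h | h
  · obtain ⟨m, hm⟩ := Int.eq_ofNat_of_zero_le h
    rw [hm, HahnSeries.ofPowerSeries_apply_coeff, PowerSeries.coeff_map]
    exact intCast_mem _ _
  · rw [ofPowerSeries_coeff_of_neg _ h]
    exact zero_mem _

theorem charts_jq_mem : jq ∈ cZl ℓ := charts_single_mul_mem ℓ (-1) jNum

theorem charts_jq_inv_mem : jq⁻¹ ∈ cZl ℓ := by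
  have h1 : jNum * jNum.invOfUnit 1 = 1 :=
    PowerSeries.mul_invOfUnit _ _ (by rw [constantCoeff_jNum]; rfl)
  have h2 : jq * (HahnSeries.single (1 : ℤ) (1 : ℚ) *
      HahnSeries.ofPowerSeries ℤ ℚ ((jNum.invOfUnit 1).map (Int.castRingHom ℚ))) = 1 := by
    rw [jq, jNumQ, mul_mul_mul_comm, ← map_mul, ← map_mul, h1, HahnSeries.single_mul_single]
    simp
  rw [← eq_inv_of_mul_eq_one_right h2]
  exact charts_single_mul_mem ℓ 1 _

theorem charts_qExpand_mem (d : ℕ) [NeZero d] {x : LaurentSeries ℚ} (hx : x ∈ cZl ℓ) :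
    qExpand ℚ d x ∈ cZl ℓ := by
  rw [charts_mem_cZl_iff] at hx ⊢
  intro n
  by_cases h : (d : ℤ) ∣ n
  · obtain ⟨m, rfl⟩ := h
    rw [qExpand_coeff_mul]
    exact hx m
  · rw [qExpand_coeff_of_not_dvd d x h]
    exact zero_mem _

/-- (C1) every element of the function field is a fraction of series with `ℤ_(ℓ)`-coefficients. -/
theorem charts_exists_frac (N : ℕ) {x : LaurentSeries ℚ} (hx : x ∈ modularFunctionFieldFull N) :
    ∃ b ∈ cZl ℓ, b ≠ 0 ∧ b * x ∈ cZl ℓ := by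
  unfold modularFunctionFieldFull at hx
  induction hx using IntermediateField.adjoin_induction with
  | mem x hx =>
    obtain ⟨d, hd, -, rfl⟩ := hx
    exact ⟨1, one_mem _, one_ne_zero, by rw [one_mul]; exact charts_qExpand_mem ℓ d (charts_jq_mem ℓ)⟩
  | algebraMap c =>
    have hden : (c.den : LaurentSeries ℚ) ≠ 0 := by
      rw [← map_natCast (algebraMap ℚ (LaurentSeries ℚ))]
      exact (map_ne_zero _).mpr (Nat.cast_ne_zero.mpr c.den_ne_zero)
    refine ⟨(c.den : LaurentSeries ℚ), natCast_mem _ _, hden, ?_⟩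
    have : (c.den : LaurentSeries ℚ) * algebraMap ℚ (LaurentSeries ℚ) c = (c.num : LaurentSeries ℚ) := by
      rw [← map_natCast (algebraMap ℚ (LaurentSeries ℚ)), ← map_mul, Rat.den_mul_eq_num, map_intCast]
    rw [this]
    exact intCast_mem _ _
  | add x y _ _ hx hy =>
    obtain ⟨b, hb, hb0, hbx⟩ := hx
    obtain ⟨c, hc, hc0, hcy⟩ := hy
    refine ⟨b * c, mul_mem hb hc, mul_ne_zero hb0 hc0, ?_⟩
    have : b * c * (x + y) = c * (b * x) + b * (c * y) := by ring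
    rw [this]
    exact add_mem (mul_mem hc hbx) (mul_mem hb hcy)
  | inv x _ hx =>
    obtain ⟨b, hb, hb0, hbx⟩ := hx
    by_cases hx0 : x = 0
    · exact ⟨1, one_mem _, one_ne_zero, by rw [hx0, inv_zero, mul_zero]; exact zero_mem _⟩
    · refine ⟨b * x, hbx, mul_ne_zero hb0 hx0, ?_⟩
      rw [mul_assoc, mul_inv_cancel₀ hx0, mul_one]
      exact hb
  | mul x y _ _ hx hy =>
    obtain ⟨b, hb, hb0, hbx⟩ := hx
    obtain ⟨c, hc, hc0, hcy⟩ := hy
    refine ⟨b * c, mul_mem hb hc, mul_ne_zero hb0 hc0, ?_⟩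
    have : b * c * (x * y) = (b * x) * (c * y) := by ring
    rw [this]
    exact mul_mem hbx hcy

section Charts

variable [Fact ℓ.Prime] (N : ℕ) [NeZero N]

/-- the inclusion of the function field into Laurent series, as a ring hom. -/
def chartsIncl : ↥(modularFunctionFieldFull N) →+* LaurentSeries ℚ :=
  (modularFunctionFieldFull N).toSubfield.subtype

omit [NeZero N] in
@[simp] theorem chartsIncl_apply (x : ↥(modularFunctionFieldFull N)) :
    chartsIncl N x = (x : LaurentSeries ℚ) := rfl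

omit [Fact ℓ.Prime] [NeZero N] in
theorem charts_algebraMap_coe (a : Zl ℓ) :
    ((algebraMap (Zl ℓ) ↥(modularFunctionFieldFull N) a : ↥(modularFunctionFieldFull N)) :
      LaurentSeries ℚ) = HahnSeries.single 0 (a : ℚ) := by
  have h := DFunLike.congr_fun (RingHom.ext_rat
    ((chartsIncl N).comp (algebraMap ℚ ↥(modularFunctionFieldFull N))) HahnSeries.C) (a : ℚ)
  exact h

omit [Fact ℓ.Prime] [NeZero N] in
theorem charts_algebraMap_mem (a : Zl ℓ) :
    ((algebraMap (Zl ℓ) ↥(modularFunctionFieldFull N) a : ↥(modularFunctionFieldFull N)) :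
      LaurentSeries ℚ) ∈ cZl ℓ := by
  rw [charts_algebraMap_coe, charts_mem_cZl_iff]
  intro n
  by_cases h : n = 0
  · subst h; rw [HahnSeries.coeff_single_same]; exact a.2
  · rw [HahnSeries.coeff_single_of_ne h]; exact zero_mem _

variable {N} in
theorem charts_adjoin_mem {S : Set ↥(modularFunctionFieldFull N)}
    (hS : S ⊆ {jFull N, (jFull N)⁻¹}) {y : ↥(modularFunctionFieldFull N)}
    (hy : y ∈ Algebra.adjoin (Zl ℓ) S) : (y : LaurentSeries ℚ) ∈ cZl ℓ := by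
  induction hy using Algebra.adjoin_induction with
  | mem y hy =>
    rcases hS hy with rfl | rfl
    · exact charts_jq_mem ℓ
    · rw [IntermediateField.coe_inv]; exact charts_jq_inv_mem ℓ
  | algebraMap a => exact charts_algebraMap_mem ℓ N a
  | add y z _ _ hy hz => rw [IntermediateField.coe_add]; exact add_mem hy hz
  | mul y z _ _ hy hz => rw [IntermediateField.coe_mul]; exact mul_mem hy hz

variable {N} in
/-- the base ring of a chart, mapped to series with `ℤ_(ℓ)`-coefficients. -/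
def chartsBaseHom {S : Set ↥(modularFunctionFieldFull N)} (hS : S ⊆ {jFull N, (jFull N)⁻¹}) :
    ↥(Algebra.adjoin (Zl ℓ) S) →+* ↥(cZl ℓ) where
  toFun y := ⟨((y : ↥(modularFunctionFieldFull N)) : LaurentSeries ℚ), charts_adjoin_mem ℓ hS y.2⟩
  map_one' := rfl
  map_mul' _ _ := rfl
  map_zero' := rfl
  map_add' _ _ := rfl


variable {N} in
theorem chart_isIntegral {S : Set ↥(modularFunctionFieldFull N)}
    (hS : S ⊆ {jFull N, (jFull N)⁻¹}) {x : ↥(modularFunctionFieldFull N)}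
    (hx : x ∈ chartAlg N ℓ S) : IsIntegral ↥(cZl ℓ) (x : LaurentSeries ℚ) := by
  obtain ⟨p, hmonic, hroot⟩ := (mem_chartAlg_iff N ℓ).mp hx
  refine ⟨p.map (chartsBaseHom ℓ hS), hmonic.map _, ?_⟩
  have hcomp : (algebraMap ↥(cZl ℓ) (LaurentSeries ℚ)).comp (chartsBaseHom ℓ hS) =
      (chartsIncl N).comp (algebraMap ↥(Algebra.adjoin (Zl ℓ) S) ↥(modularFunctionFieldFull N)) :=
    RingHom.ext fun _ => rfl
  rw [Polynomial.eval₂_map, hcomp]
  have h2 := Polynomial.hom_eval₂ p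
    (algebraMap ↥(Algebra.adjoin (Zl ℓ) S) ↥(modularFunctionFieldFull N)) (chartsIncl N) x
  rw [hroot, map_zero] at h2
  exact h2.symm

variable {N} in
/-- (C2) elements of the charts have `ℤ_(ℓ)`-integral `q`-expansions. -/
theorem chart_coe_mem {S : Set ↥(modularFunctionFieldFull N)}
    (hS : S ⊆ {jFull N, (jFull N)⁻¹}) {x : ↥(modularFunctionFieldFull N)}
    (hx : x ∈ chartAlg N ℓ S) : (x : LaurentSeries ℚ) ∈ cZl ℓ := by
  obtain ⟨b, hb, hb0, hbx⟩ := charts_exists_frac ℓ N x.2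
  exact mem_coeffSubring_of_isIntegral (Γ := ℤ) (E := ℚ) (GaloisRep.ratLocalizedAt ℓ) (ℓ : ℚ)
    (isDVRIn_ratLocalizedAt ℓ) (x : LaurentSeries ℚ) b (chart_isIntegral ℓ hS hx) hb0 hb hbx

variable {N} in
theorem chart_coeff_mem {S : Set ↥(modularFunctionFieldFull N)}
    (hS : S ⊆ {jFull N, (jFull N)⁻¹}) {x : ↥(modularFunctionFieldFull N)}
    (hx : x ∈ chartAlg N ℓ S) (n : ℤ) :
    (x : LaurentSeries ℚ).coeff n ∈ GaloisRep.ratLocalizedAt ℓ :=
  (charts_mem_cZl_iff ℓ _).mp (chart_coe_mem ℓ hS hx) n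

/-! ### (C3) the reduction map -/

variable {N} in
/-- a chart, mapped to series with `ℤ_(ℓ)`-coefficients. -/
def chartToC {S : Set ↥(modularFunctionFieldFull N)} (hS : S ⊆ {jFull N, (jFull N)⁻¹}) :
    ↥(chartAlg N ℓ S) →+* ↥(cZl ℓ) where
  toFun y := ⟨((y : ↥(modularFunctionFieldFull N)) : LaurentSeries ℚ), chart_coe_mem ℓ hS y.2⟩
  map_one' := rfl
  map_mul' _ _ := rfl
  map_zero' := rfl
  map_add' _ _ := rfl

/-- reduction mod `ℓ` of series with `ℤ_(ℓ)`-coefficients. -/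
def cZlRed : ↥(cZl ℓ) →+* LaurentSeries (ZMod ℓ) :=
  redH (Γ := ℤ) (GaloisRep.ratLocalizedAt ℓ) (resZ ℓ)

omit [Fact ℓ.Prime] in
theorem charts_coeffEquiv_symm_coeff (x : ↥(cZl ℓ)) (n : ℤ) :
    ((((coeffEquiv (Γ := ℤ) (GaloisRep.ratLocalizedAt ℓ)).symm x).coeff n : Zl ℓ) : ℚ) =
      (x : LaurentSeries ℚ).coeff n := by
  obtain ⟨y, rfl⟩ := (coeffEquiv (Γ := ℤ) (GaloisRep.ratLocalizedAt ℓ)).surjective x
  rw [RingEquiv.symm_apply_apply]
  rfl

theorem cZlRed_coeff (x : ↥(cZl ℓ)) (n : ℤ) :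
    (cZlRed ℓ x).coeff n =
      resZ ℓ ⟨(x : LaurentSeries ℚ).coeff n, (charts_mem_cZl_iff ℓ _).mp x.2 n⟩ := by
  have : (cZlRed ℓ x).coeff n =
      resZ ℓ (((coeffEquiv (Γ := ℤ) (GaloisRep.ratLocalizedAt ℓ)).symm x).coeff n) := rfl
  rw [this]
  congr 1
  exact Subtype.ext (charts_coeffEquiv_symm_coeff ℓ x n)

theorem cZlRed_eq_zero_iff (x : ↥(cZl ℓ)) :
    cZlRed ℓ x = 0 ↔
      ∀ n : ℤ, ∃ c ∈ GaloisRep.ratLocalizedAt ℓ, (x : LaurentSeries ℚ).coeff n = (ℓ : ℚ) * c := by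
  constructor
  · intro h n
    have h1 : (cZlRed ℓ x).coeff n = 0 := by rw [h]; rfl
    rw [cZlRed_coeff, resZ_eq_zero_iff] at h1
    obtain ⟨y, hy⟩ := h1
    refine ⟨y, y.2, ?_⟩
    have := congrArg Subtype.val hy
    simpa using this
  · intro h
    ext n
    rw [cZlRed_coeff, HahnSeries.coeff_zero, resZ_eq_zero_iff]
    obtain ⟨c, hc, hn⟩ := h n
    exact ⟨⟨c, hc⟩, Subtype.ext (by simpa using hn)⟩

variable {N} in
/-- (C3) `q`-expansion mod `ℓ` on a chart. -/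
def chartRed {S : Set ↥(modularFunctionFieldFull N)} (hS : S ⊆ {jFull N, (jFull N)⁻¹}) :
    ↥(chartAlg N ℓ S) →+* LaurentSeries (ZMod ℓ) :=
  (cZlRed ℓ).comp (chartToC ℓ hS)

variable {N} in
theorem chartRed_eq_zero_iff {S : Set ↥(modularFunctionFieldFull N)}
    (hS : S ⊆ {jFull N, (jFull N)⁻¹}) (x : ↥(chartAlg N ℓ S)) :
    chartRed ℓ hS x = 0 ↔ ∀ n : ℤ, ∃ c ∈ GaloisRep.ratLocalizedAt ℓ,
      ((x : ↥(modularFunctionFieldFull N)) : LaurentSeries ℚ).coeff n = (ℓ : ℚ) * c :=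
  cZlRed_eq_zero_iff ℓ (chartToC ℓ hS x)

/-! ### (C4) wiring -/

/-- the hypothesis to be delivered by the core of the proof, for the chart `S`. -/
def ChartKer (S : Set ↥(modularFunctionFieldFull N)) : Prop :=
  ∀ x : ↥(modularFunctionFieldFull N), x ∈ chartAlg N ℓ S →
    (∀ n : ℤ, ∃ c ∈ GaloisRep.ratLocalizedAt ℓ, (x : LaurentSeries ℚ).coeff n = (ℓ : ℚ) * c) →
    ∃ y ∈ chartAlg N ℓ S, x = (ℓ : ↥(modularFunctionFieldFull N)) * y

variable {N} in
theorem chartRed_ker {S : Set ↥(modularFunctionFieldFull N)}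
    (hS : S ⊆ {jFull N, (jFull N)⁻¹}) (hker : ChartKer ℓ N S) (x : ↥(chartAlg N ℓ S))
    (hx : chartRed ℓ hS x = 0) : ∃ y, x = (ℓ : ↥(chartAlg N ℓ S)) * y := by
  obtain ⟨y, hy, hxy⟩ := hker x x.2 ((chartRed_eq_zero_iff ℓ hS x).mp hx)
  exact ⟨⟨y, hy⟩, Subtype.ext (by simpa using hxy)⟩

section Tensor

open TensorProduct

variable (K : Type) [Field K] [CharP K ℓ] [Algebra ↥(GaloisRep.ratLocalizedAt ℓ) K]

variable {N} in
theorem chart_tensor_isDomain {S : Set ↥(modularFunctionFieldFull N)}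
    (hS : S ⊆ {jFull N, (jFull N)⁻¹}) (hker : ChartKer ℓ N S) :
    IsDomain (↥(chartAlg N ℓ S) ⊗[↥(GaloisRep.ratLocalizedAt ℓ)] K) := by
  have h := isDomain_tensorProduct_of_ker_le ℓ K ↥(chartAlg N ℓ S) (chartRed ℓ hS)
    (chartRed_ker ℓ hS hker)
  exact (Algebra.TensorProduct.comm ↥(GaloisRep.ratLocalizedAt ℓ) ↥(chartAlg N ℓ S) K).toMulEquiv.isDomain _

variable {N} in
theorem chart_tensor_nontrivial {S : Set ↥(modularFunctionFieldFull N)}
    (hS : S ⊆ {jFull N, (jFull N)⁻¹}) :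
    Nontrivial (↥(chartAlg N ℓ S) ⊗[↥(GaloisRep.ratLocalizedAt ℓ)] K) :=
  RingHom.domain_nontrivial ((tensorToLaurentK ℓ K ↥(chartAlg N ℓ S) (chartRed ℓ hS)).toRingHom.comp
    (Algebra.TensorProduct.comm ↥(GaloisRep.ratLocalizedAt ℓ) ↥(chartAlg N ℓ S) K).toRingEquiv.toRingHom)

/-- (C4) the frozen statement S28 from the two kernel statements. -/
theorem isIntegral_pullback_of_chartKer
    (hFin : ChartKer ℓ N {jFull N}) (hInf : ChartKer ℓ N {(jFull N)⁻¹}) :
    AlgebraicGeometry.IsIntegral ↑(CategoryTheory.Limits.pullback (igusaTo N ℓ)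
      (AlgebraicGeometry.Spec.map
        (CommRingCat.ofHom (algebraMap ↥(GaloisRep.ratLocalizedAt ℓ) K)))) :=
  isIntegral_pullback_of_charts N ℓ K
    (chart_tensor_isDomain ℓ K (by intro x hx; exact Or.inl hx) hFin)
    (chart_tensor_isDomain ℓ K (by intro x hx; exact Or.inr hx) hInf)
    (chart_tensor_nontrivial ℓ K (le_refl _))

end Tensor

end Charts

end Fermat.Agent.S28
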