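import Fermat.Agent.S28.Final

/-!
# S28: the `q`-expansion principle for the charts of the Igusa scheme
-/

set_option autoImplicit false
noncomputable section

namespace Fermat.Agent.S28

open ModularCurve ModularCurve.IgusaScheme Polynomial

variable (N : ℕ) [NeZero N] (ℓ : ℕ) [Fact ℓ.Prime]

theorem full_le_Fp : modularFunctionFieldFull N ≤ Fp N := by
  rw [modularFunctionFieldFull, IntermediateField.adjoin_le_iff]
  rintro x ⟨d, hne, hd, rfl⟩
  have := hne
  have := jd_mem N d hd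
  rwa [jd, qE_eq] at this

/-- `F → F'`. -/
def incF : ↥(modularFunctionFieldFull N) →+* ↥(Fp N) where
  toFun x := ⟨x.1, full_le_Fp N x.2⟩
  map_one' := rfl
  map_mul' _ _ := rfl
  map_zero' := rfl
  map_add' _ _ := rfl

@[simp] theorem coe_incF (x : ↥(modularFunctionFieldFull N)) : ((incF N x : Fp N) : LQ) = x := by
  obtain ⟨x, hx⟩ := x
  rfl

theorem incF_injective : Function.Injective (incF N) := (incF N).injective

theorem incF_jFull : incF N (jFull N) = jF N := rfl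

theorem iT_incF (s : ↥(modularFunctionFieldFull N)) :
    iT N ℓ (incF N s) =
      (incF N).comp (Polynomial.aeval (R := ↥(GaloisRep.ratLocalizedAt ℓ)) s).toRingHom := by
  refine Polynomial.ringHom_ext (fun a => ?_) ?_
  · simp only [iT, coe_eval₂RingHom, eval₂_C, RingHom.coe_comp, Function.comp_apply,
      AlgHom.toRingHom_eq_coe, RingHom.coe_coe, aeval_C]
    have h : (incF N).comp (algebraMap ℚ ↥(modularFunctionFieldFull N)) = algebraMap ℚ ↥(Fp N) :=
      RingHom.ext_rat _ _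
    rw [← h]
    rfl
  · simp [iT]

/-- membership in a chart in terms of `RingHom.IsIntegralElem`. -/
theorem mem_chartAlg_singleton_iff (s x : ↥(modularFunctionFieldFull N)) :
    x ∈ chartAlg N ℓ {s} ↔ (iT N ℓ (incF N s)).IsIntegralElem (incF N x) := by
  rw [mem_chartAlg_iff, iT_incF]
  set A₀ := Algebra.adjoin ↥(GaloisRep.ratLocalizedAt ℓ) ({s} : Set ↥(modularFunctionFieldFull N))
    with hA₀
  let φ : Polynomial ↥(GaloisRep.ratLocalizedAt ℓ) →ₐ[↥(GaloisRep.ratLocalizedAt ℓ)] A₀ :=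
    (Polynomial.aeval (R := ↥(GaloisRep.ratLocalizedAt ℓ)) s).codRestrict A₀ (fun r => by
      rw [hA₀, Algebra.adjoin_singleton_eq_range_aeval]; exact ⟨r, rfl⟩)
  have hφ : (algebraMap A₀ ↥(modularFunctionFieldFull N)).comp φ.toRingHom =
      (Polynomial.aeval (R := ↥(GaloisRep.ratLocalizedAt ℓ)) s).toRingHom := by
    ext <;> rfl
  have hsurj : Function.Surjective φ := by
    rintro ⟨c, hc⟩
    have hc' := hc
    rw [hA₀, Algebra.adjoin_singleton_eq_range_aeval] at hc'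
    obtain ⟨r, hr⟩ := hc'
    exact ⟨r, Subtype.ext hr⟩
  constructor
  · rintro ⟨p, hp, hpx⟩
    have hl : p ∈ Polynomial.lifts φ.toRingHom :=
      (Polynomial.lifts_iff_coeff_lifts p).mpr fun n => hsurj (p.coeff n)
    obtain ⟨q, hq, -, hqm⟩ := Polynomial.lifts_and_natDegree_eq_and_monic hl hp
    refine ⟨q, hqm, ?_⟩
    rw [← Polynomial.hom_eval₂, ← hφ, ← Polynomial.eval₂_map, hq, hpx, map_zero]
  · rintro ⟨q, hqm, hq⟩
    refine ⟨q.map φ.toRingHom, hqm.map _, ?_⟩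
    rw [← Polynomial.hom_eval₂] at hq
    have hq' := (map_eq_zero_iff _ (incF_injective N)).mp hq
    rw [Polynomial.eval₂_map, hφ, hq']

theorem exists_of_core (s x : ↥(modularFunctionFieldFull N))
    (h : ∃ g : Fp N, (iT N ℓ (incF N s)).IsIntegralElem g ∧ incF N x = (ℓ : Fp N) * g) :
    ∃ y ∈ chartAlg N ℓ {s}, x = (ℓ : ↥(modularFunctionFieldFull N)) * y := by
  obtain ⟨g, hg, hxg⟩ := h
  have hℓ0 : (ℓ : ↥(modularFunctionFieldFull N)) ≠ 0 := by
    exact_mod_cast (Fact.out : ℓ.Prime).ne_zero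
  have hℓ0' : (ℓ : Fp N) ≠ 0 := by
    exact_mod_cast (Fact.out : ℓ.Prime).ne_zero
  refine ⟨x / ℓ, ?_, by field_simp⟩
  rw [mem_chartAlg_singleton_iff]
  have : incF N (x / ℓ) = g := by
    rw [map_div₀, map_natCast, hxg]
    field_simp
  rwa [this]

/-- **KerFin.** -/
theorem kerFin (hℓN : ¬ ℓ ∣ N) (x : ↥(modularFunctionFieldFull N)) (hx : x ∈ chartAlgFin N ℓ)
    (hc : ∀ n, ∃ c ∈ GaloisRep.ratLocalizedAt ℓ, (x : LaurentSeries ℚ).coeff n = (ℓ : ℚ) * c) :
    ∃ y ∈ chartAlgFin N ℓ, x = (ℓ : ↥(modularFunctionFieldFull N)) * y := by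
  refine exists_of_core N ℓ (jFull N) x ?_
  exact core_fin N ℓ (NeZero.ne N) hℓN (incF N x) ((mem_chartAlg_singleton_iff N ℓ _ _).mp hx) hc

/-- **KerInf.** -/
theorem kerInf (hℓN : ¬ ℓ ∣ N) (x : ↥(modularFunctionFieldFull N)) (hx : x ∈ chartAlgInf N ℓ)
    (hc : ∀ n, ∃ c ∈ GaloisRep.ratLocalizedAt ℓ, (x : LaurentSeries ℚ).coeff n = (ℓ : ℚ) * c) :
    ∃ y ∈ chartAlgInf N ℓ, x = (ℓ : ↥(modularFunctionFieldFull N)) * y := by
  refine exists_of_core N ℓ (jFull N)⁻¹ x ?_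
  have hmid : x ∈ chartAlg N ℓ (insert (jFull N)⁻¹ {jFull N}) := by
    rw [show insert (jFull N)⁻¹ ({jFull N} : Set ↥(modularFunctionFieldFull N)) =
      {jFull N, (jFull N)⁻¹} from Set.pair_comm _ _]
    exact chartAlg_mono N ℓ (sInf_subset N) hx
  obtain ⟨n, hn⟩ := exists_pow_mul_mem_chartAlg (Set.mem_singleton _) (jFull_ne_zero N) hmid
  have h1 := (mem_chartAlg_singleton_iff N ℓ _ _).mp hx
  have h2 := (mem_chartAlg_singleton_iff N ℓ _ _).mp hn
  rw [map_inv₀, incF_jFull] at h1 ⊢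
  rw [map_mul, map_pow, incF_jFull] at h2
  exact core_inf N ℓ (NeZero.ne N) hℓN (incF N x) h1 n h2 hc

end Fermat.Agent.S28
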