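import Mathlib

/-!
# S28 work package: the combinatorics of cusp widths
-/

set_option autoImplicit false
noncomputable section

namespace Fermat.Agent.S28

/-- valuation of `p * x`. -/
private theorem comb_val_mul_self (p : ℕ) [Fact p.Prime] {x : ℚ} (hx : x ≠ 0) :
    padicValRat p ((p : ℚ) * x) = padicValRat p x + 1 := by
  have hp : (p : ℚ) ≠ 0 := Nat.cast_ne_zero.mpr (Fact.out : p.Prime).ne_zero
  rw [padicValRat.mul hp hx, padicValRat.self (Fact.out : p.Prime).one_lt, add_comm]

private theorem comb_val_div_self (p : ℕ) [Fact p.Prime] {x : ℚ} (hx : x ≠ 0) :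
    padicValRat p (x / (p : ℚ)) = padicValRat p x - 1 := by
  have hp : (p : ℚ) ≠ 0 := Nat.cast_ne_zero.mpr (Fact.out : p.Prime).ne_zero
  rw [padicValRat.div hx hp, padicValRat.self (Fact.out : p.Prime).one_lt]

private theorem comb_val_other (q p : ℕ) [Fact q.Prime] (hp : p.Prime) (hpq : p ≠ q) :
    padicValRat q (p : ℚ) = 0 := by
  have : Fact p.Prime := ⟨hp⟩
  rw [padicValRat.of_nat, padicValNat_primes (Ne.symm hpq)]
  rfl

private theorem comb_val_mul_other (q p : ℕ) [Fact q.Prime] (hp : p.Prime) (hpq : p ≠ q) {x : ℚ}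
    (hx : x ≠ 0) : padicValRat q ((p : ℚ) * x) = padicValRat q x := by
  have hp0 : (p : ℚ) ≠ 0 := Nat.cast_ne_zero.mpr hp.ne_zero
  rw [padicValRat.mul hp0 hx, comb_val_other q p hp hpq, zero_add]

private theorem comb_val_div_other (q p : ℕ) [Fact q.Prime] (hp : p.Prime) (hpq : p ≠ q) {x : ℚ}
    (hx : x ≠ 0) : padicValRat q (x / (p : ℚ)) = padicValRat q x := by
  have hp0 : (p : ℚ) ≠ 0 := Nat.cast_ne_zero.mpr hp.ne_zero
  rw [padicValRat.div hx hp0, comb_val_other q p hp hpq, sub_zero]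

section

variable {N : ℕ} {r : ℕ → ℚ}

/-- the `q`-adic valuation of `r (a * m)` does not depend on the prime-to-`q` factor `m`. -/
private theorem comb_val_indep (hpos : ∀ d, d ∣ N → 0 < r d)
    (hstep : ∀ p d : ℕ, p.Prime → p * d ∣ N → r (p * d) = p * r d ∨ r (p * d) = r d / p)
    (q : ℕ) [Fact q.Prime] (m : ℕ) : ∀ a : ℕ,
    ¬ q ∣ m → a * m ∣ N → padicValRat q (r (a * m)) = padicValRat q (r a) := by
  induction m using Nat.recOnMul with
  | zero => intro a h; exact absurd (dvd_zero q) h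
  | one => intro a _ _; rw [mul_one]
  | prime p hp =>
    intro a hq hdvd
    have hpq : p ≠ q := fun h => hq (h ▸ dvd_rfl)
    have hdvd' : p * a ∣ N := by rwa [mul_comm] at hdvd
    have ha : r a ≠ 0 := (hpos a (Dvd.dvd.trans (Dvd.intro_left p rfl) hdvd')).ne'
    rw [mul_comm a p]
    rcases hstep p a hp hdvd' with h | h
    · rw [h, comb_val_mul_other q p hp hpq ha]
    · rw [h, comb_val_div_other q p hp hpq ha]
  | mul m n ihm ihn =>
    intro a hq hdvd
    have hqm : ¬ q ∣ m := fun h => hq (Dvd.dvd.mul_right h n)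
    have hqn : ¬ q ∣ n := fun h => hq (Dvd.dvd.mul_left h m)
    have hdvd' : a * m * n ∣ N := by rwa [mul_assoc]
    rw [← mul_assoc, ihn (a * m) hqn hdvd', ihm a hqm (Dvd.dvd.trans (Dvd.intro n rfl) hdvd')]

/-- an "up" step is detected by the valuation. -/
private theorem comb_up_iff (hpos : ∀ d, d ∣ N → 0 < r d)
    (hstep : ∀ p d : ℕ, p.Prime → p * d ∣ N → r (p * d) = p * r d ∨ r (p * d) = r d / p)
    (q : ℕ) [Fact q.Prime] (d : ℕ) (hd : q * d ∣ N) :
    r (q * d) = q * r d ↔ padicValRat q (r (q * d)) = padicValRat q (r d) + 1 := by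
  have hd0 : r d ≠ 0 := (hpos d (Dvd.dvd.trans (Dvd.intro_left q rfl) hd)).ne'
  constructor
  · intro h; rw [h, comb_val_mul_self q hd0]
  · intro h
    rcases hstep q d Fact.out hd with h' | h'
    · exact h'
    · rw [h', comb_val_div_self q hd0] at h
      omega

/-- path independence: whether the `q`-step at `a * m` goes up only depends on `a` if `q ∤ m`. -/
private theorem comb_up_indep (hpos : ∀ d, d ∣ N → 0 < r d)
    (hstep : ∀ p d : ℕ, p.Prime → p * d ∣ N → r (p * d) = p * r d ∨ r (p * d) = r d / p)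
    (q : ℕ) [Fact q.Prime] (a m : ℕ) (hm : ¬ q ∣ m) (hd : q * (a * m) ∣ N) :
    r (q * (a * m)) = q * r (a * m) ↔ r (q * a) = q * r a := by
  have h1 : q * a * m ∣ N := by rwa [mul_assoc]
  have h2 : q * a ∣ N := Dvd.dvd.trans (Dvd.intro m rfl) h1
  have h3 : a * m ∣ N := Dvd.dvd.trans (Dvd.intro_left q rfl) hd
  rw [comb_up_iff hpos hstep q _ hd, comb_up_iff hpos hstep q _ h2, ← mul_assoc,
    comb_val_indep hpos hstep q m (q * a) hm h1, comb_val_indep hpos hstep q m a hm h3]

/-- the pairing argument: if the last `q`-step goes down, the alternating sum vanishes. -/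
private theorem comb_sum_eq_zero (hN : N ≠ 0) (hpos : ∀ d, d ∣ N → 0 < r d)
    (hstep : ∀ p d : ℕ, p.Prime → p * d ∣ N → r (p * d) = p * r d ∨ r (p * d) = r d / p)
    (q : ℕ) (hq : q ∈ N.primeFactors) (hdown : ¬ r (q * (N / q)) = q * r (N / q)) :
    ∑ T ∈ N.primeFactors.powerset,
        (-1 : ℚ) ^ T.card * (∏ p ∈ N.primeFactors \ T, (p : ℚ)) * r (N / ∏ p ∈ T, p) = 0 := by
  classical
  have hqp : q.Prime := Nat.prime_of_mem_primeFactors hq
  have : Fact q.Prime := ⟨hqp⟩
  have hqN : q ∣ N := Nat.dvd_of_mem_primeFactors hq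
  have hq0 : (q : ℚ) ≠ 0 := Nat.cast_ne_zero.mpr hqp.ne_zero
  obtain ⟨k, M, hM, hNM⟩ := Nat.exists_eq_pow_mul_and_not_dvd hN q hqp.ne_one
  obtain ⟨k, rfl⟩ : ∃ k', k = k' + 1 := by
    rcases k with _ | k
    · exfalso; apply hM; rw [hNM, pow_zero, one_mul] at hqN; exact hqN
    · exact ⟨k, rfl⟩
  have hNq : N / q = q ^ k * M := by
    rw [hNM, pow_succ, mul_assoc, mul_comm q M, ← mul_assoc]
    exact Nat.mul_div_cancel _ hqp.pos
  -- the step at `q ^ k` goes down
  have hdown' : ¬ r (q * q ^ k) = q * r (q ^ k) := by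
    intro h
    apply hdown
    rw [hNq]
    refine (comb_up_indep hpos hstep q (q ^ k) M hM ?_).mpr h
    rw [hNM, pow_succ]
    exact dvd_of_eq (by ring)
  have hins : N.primeFactors = insert q (N.primeFactors.erase q) := (Finset.insert_erase hq).symm
  have hnot : q ∉ N.primeFactors.erase q := Finset.notMem_erase q _
  conv_lhs => rw [hins]
  rw [Finset.sum_powerset_insert hnot, ← Finset.sum_add_distrib]
  refine Finset.sum_eq_zero fun t ht => ?_
  rw [Finset.mem_powerset] at ht
  have hqt : q ∉ t := fun h => hnot (ht h)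
  have htN : t ⊆ N.primeFactors := ht.trans (Finset.erase_subset _ _)
  rw [← hins]
  -- the product over `t` divides `M`
  have hPN : ∏ p ∈ t, p ∣ N :=
    Finset.prod_primes_dvd N (fun a ha => (Nat.prime_of_mem_primeFactors (htN ha)).prime)
      (fun a ha => Nat.dvd_of_mem_primeFactors (htN ha))
  have hcop : Nat.Coprime (∏ p ∈ t, p) (q ^ (k + 1)) := by
    refine Nat.Coprime.pow_right _ (Nat.Coprime.prod_left fun a ha => ?_)
    exact (Nat.coprime_primes (Nat.prime_of_mem_primeFactors (htN ha)) hqp).mpr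
      (fun h => hqt (h ▸ ha))
  obtain ⟨m, hm⟩ : ∏ p ∈ t, p ∣ M := by
    rw [hNM] at hPN
    exact hcop.dvd_of_dvd_mul_left hPN
  have hP0 : 0 < ∏ p ∈ t, p := Nat.pos_of_ne_zero fun h => by
    rw [h, zero_mul] at hm; rw [hm, mul_zero] at hNM; exact hN hNM
  have hqm : ¬ q ∣ m := fun h => hM (hm ▸ Dvd.dvd.mul_left h _)
  have e1 : N / ∏ p ∈ t, p = q * (q ^ k * m) := by
    rw [hNM, hm, pow_succ,
      show q ^ k * q * ((∏ p ∈ t, p) * m) = (∏ p ∈ t, p) * (q * (q ^ k * m)) by ring]
    exact Nat.mul_div_cancel_left _ hP0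
  have e2 : N / ∏ p ∈ insert q t, p = q ^ k * m := by
    rw [Finset.prod_insert hqt, hNM, hm, pow_succ,
      show q ^ k * q * ((∏ p ∈ t, p) * m) = (q * ∏ p ∈ t, p) * (q ^ k * m) by ring]
    exact Nat.mul_div_cancel_left _ (Nat.mul_pos hqp.pos hP0)
  have hdvd : q * (q ^ k * m) ∣ N := e1 ▸ Nat.div_dvd_of_dvd hPN
  have hstep' : r (q * (q ^ k * m)) = r (q ^ k * m) / q := by
    rcases hstep q _ hqp hdvd with h | h
    · exact absurd ((comb_up_indep hpos hstep q (q ^ k) m hqm hdvd).mp h) hdown'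
    · exact h
  have e3 : N.primeFactors \ t = insert q (N.primeFactors \ insert q t) := by
    ext x
    simp only [Finset.mem_sdiff, Finset.mem_insert, not_or]
    constructor
    · rintro ⟨h1, h2⟩
      by_cases hx : x = q
      · exact Or.inl hx
      · exact Or.inr ⟨h1, hx, h2⟩
    · rintro (rfl | ⟨h1, _, h2⟩)
      · exact ⟨hq, hqt⟩
      · exact ⟨h1, h2⟩
  have e4 : q ∉ N.primeFactors \ insert q t := by simp
  rw [e1, e2, hstep', e3, Finset.prod_insert e4, Finset.card_insert_of_notMem hqt, pow_succ]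
  field_simp
  ring

/-- if the last `q`-step goes up, then (by `hnb`) every `q`-step goes up. -/
private theorem comb_all_up (hN : N ≠ 0) (hpos : ∀ d, d ∣ N → 0 < r d)
    (hstep : ∀ p d : ℕ, p.Prime → p * d ∣ N → r (p * d) = p * r d ∨ r (p * d) = r d / p)
    (hnb : ∀ p d : ℕ, p.Prime → p * (p * d) ∣ N → r (p * d) = r d / p →
      r (p * (p * d)) = r (p * d) / p)
    (q : ℕ) (hqp : q.Prime) (hup : r (q * (N / q)) = q * r (N / q))
    (d : ℕ) (hd : q * d ∣ N) : r (q * d) = q * r d := by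
  have : Fact q.Prime := ⟨hqp⟩
  have hqN : q ∣ N := Dvd.dvd.trans (Dvd.intro d rfl) hd
  have hq0 : (0 : ℚ) < q := Nat.cast_pos.mpr hqp.pos
  have hq1 : (1 : ℚ) < q := Nat.one_lt_cast.mpr hqp.one_lt
  obtain ⟨k, M, hM, hNM⟩ := Nat.exists_eq_pow_mul_and_not_dvd hN q hqp.ne_one
  obtain ⟨k, rfl⟩ : ∃ k', k = k' + 1 := by
    rcases k with _ | k
    · exfalso; apply hM; rw [hNM, pow_zero, one_mul] at hqN; exact hqN
    · exact ⟨k, rfl⟩
  have hNq : N / q = q ^ k * M := by
    rw [hNM, pow_succ, mul_assoc, mul_comm q M, ← mul_assoc]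
    exact Nat.mul_div_cancel _ hqp.pos
  have hpowdvd : ∀ i, i ≤ k + 1 → q ^ i ∣ N := fun i hi =>
    (pow_dvd_pow q hi).trans (hNM ▸ Dvd.intro M rfl)
  -- the step at `q ^ k` goes up
  have htop : r (q * q ^ k) = q * r (q ^ k) := by
    rw [hNq] at hup
    refine (comb_up_indep hpos hstep q (q ^ k) M hM ?_).mp hup
    rw [hNM, pow_succ]
    exact dvd_of_eq (by ring)
  -- a down step propagates upwards
  have hprop : ∀ j i, i + j = k → ¬ r (q * q ^ i) = q * r (q ^ i) →
      ¬ r (q * q ^ k) = q * r (q ^ k) := by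
    intro j
    induction j with
    | zero => intro i hi h; rw [add_zero] at hi; rwa [hi] at h
    | succ j ih =>
      intro i hi h
      refine ih (i + 1) (by omega) ?_
      have h1 : q * q ^ i ∣ N := by rw [← pow_succ']; exact hpowdvd _ (by omega)
      have h2 : q * (q * q ^ i) ∣ N := by
        rw [← pow_succ', ← pow_succ']; exact hpowdvd _ (by omega)
      have hdn : r (q * q ^ i) = r (q ^ i) / q := (hstep q _ hqp h1).resolve_left h
      have hdn2 := hnb q _ hqp h2 hdn
      rw [pow_succ', hdn2]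
      have hx : 0 < r (q * q ^ i) := hpos _ h1
      intro hcon
      rw [div_eq_iff hq0.ne'] at hcon
      have h4 : (1 : ℚ) < q * q := by nlinarith
      nlinarith
  have hd0 : d ≠ 0 := fun h => by rw [h, mul_zero] at hd; exact hN (Nat.eq_zero_of_zero_dvd hd)
  obtain ⟨i, m, hm, hdm⟩ := Nat.exists_eq_pow_mul_and_not_dvd hd0 q hqp.ne_one
  have hik : i ≤ k := by
    have h1 : q ^ (i + 1) ∣ q ^ (k + 1) * M := by
      rw [← hNM]
      refine Dvd.dvd.trans ?_ hd
      rw [hdm, pow_succ']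
      exact Dvd.intro m (by ring)
    have h2 : q ^ (i + 1) ∣ q ^ (k + 1) :=
      (Nat.Coprime.pow_left _ ((Nat.Prime.coprime_iff_not_dvd hqp).mpr hM)).dvd_of_dvd_mul_right h1
    have := (Nat.pow_dvd_pow_iff_le_right hqp.one_lt).mp h2
    omega
  rw [hdm] at hd ⊢
  refine (comb_up_indep hpos hstep q (q ^ i) m hm hd).mpr ?_
  by_contra hcon
  exact hprop (k - i) i (by omega) hcon htop

end

/-- PROOF SKETCH.  `v_p (r (p d)) = v_p (r d) ± 1` and `v_{p'} (r (p d)) = v_{p'} (r d)` for `p' ≠ p`.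
Hence (path independence) `ε_p := r (N/p) / r N ∈ {p, 1/p}` satisfies
`r (N / ∏_{p ∈ T} p) = r N * ∏_{p ∈ T} ε_p`, and the sum equals `r N * ∏_{p ∣ N} (p - ε_p)`
(`Finset.prod_sub` / `Finset.prod_add`).  If some `ε_p = p` the sum vanishes.  Otherwise every "last
`p`-step" is a multiplication by `p`; by `hnb` (a division step can only be followed by division
steps) all `p`-steps are multiplications, so `r d = d`. -/
theorem comb_main (N : ℕ) (hN : N ≠ 0) (r : ℕ → ℚ) (hpos : ∀ d, d ∣ N → 0 < r d) (h1 : r 1 = 1)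
    (hstep : ∀ p d : ℕ, p.Prime → p * d ∣ N → r (p * d) = p * r d ∨ r (p * d) = r d / p)
    (hnb : ∀ p d : ℕ, p.Prime → p * (p * d) ∣ N → r (p * d) = r d / p →
      r (p * (p * d)) = r (p * d) / p) :
    (∀ d, d ∣ N → r d = d) ∨
      ∑ T ∈ N.primeFactors.powerset,
        (-1 : ℚ) ^ T.card * (∏ p ∈ N.primeFactors \ T, (p : ℚ)) * r (N / ∏ p ∈ T, p) = 0 := by
  by_cases hall : ∀ q ∈ N.primeFactors, r (q * (N / q)) = q * r (N / q)
  · left
    intro d
    induction d using Nat.recOnMul with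
    | zero => intro h; exact absurd (Nat.eq_zero_of_zero_dvd h) hN
    | one => intro _; rw [h1, Nat.cast_one]
    | prime p hp =>
      intro hd
      have hmem : p ∈ N.primeFactors := Nat.mem_primeFactors.mpr ⟨hp, hd, hN⟩
      have := comb_all_up hN hpos hstep hnb p hp (hall p hmem) 1 (by rwa [mul_one])
      rw [mul_one, h1, mul_one] at this
      exact this
    | mul a b iha ihb =>
      intro hd
      -- peel the prime factors of `a` one at a time
      have key : ∀ a : ℕ, ∀ b : ℕ, a * b ∣ N → r (a * b) = a * r b := by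
        intro a
        induction a using Nat.recOnMul with
        | zero =>
          intro b hb
          rw [zero_mul] at hb
          exact absurd (Nat.eq_zero_of_zero_dvd hb) hN
        | one => intro b _; rw [one_mul, Nat.cast_one, one_mul]
        | prime p hp =>
          intro b hb
          have hmem : p ∈ N.primeFactors :=
            Nat.mem_primeFactors.mpr ⟨hp, Dvd.dvd.trans (Dvd.intro b rfl) hb, hN⟩
          exact comb_all_up hN hpos hstep hnb p hp (hall p hmem) b hb
        | mul x y ihx ihy =>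
          intro b hb
          have hb' : x * (y * b) ∣ N := by rwa [← mul_assoc]
          rw [mul_assoc, ihx _ hb', ihy _ (Dvd.dvd.trans (Dvd.intro_left x rfl) hb')]
          push_cast
          ring
      rw [key a b hd, ihb (Dvd.dvd.trans (Dvd.intro_left a rfl) hd)]
      push_cast
      ring
  · right
    push Not at hall
    obtain ⟨q, hq, hdown⟩ := hall
    exact comb_sum_eq_zero hN hpos hstep q hq hdown

theorem comb_weight (N : ℕ) :
    ∑ T ∈ N.primeFactors.powerset, (-1 : ℚ) ^ T.card * (∏ p ∈ N.primeFactors \ T, (p : ℚ)) =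
      ∏ p ∈ N.primeFactors, ((p : ℚ) - 1) := by
  have h := Finset.prod_add (fun _ : ℕ => (-1 : ℚ)) (fun p : ℕ => (p : ℚ)) N.primeFactors
  simp only [Finset.prod_const] at h
  rw [← h]
  exact Finset.prod_congr rfl fun p _ => by ring

end Fermat.Agent.S28
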