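import Mathlib

/-!
# S28 work package: Newton identities
-/

set_option autoImplicit false
noncomputable section

namespace Fermat.Agent.S28

open Polynomial

/-- If all power sums of a finite family lie in a `ℚ`-subalgebra, so do the elementary symmetric
functions. -/
theorem newton_esymm_mem_of_psum_mem {B : Type*} [CommRing B] [Algebra ℚ B]
    (S : Subalgebra ℚ B) {ι : Type*} (s : Finset ι) (r : ι → B)
    (h : ∀ n : ℕ, 0 < n → ∑ i ∈ s, r i ^ n ∈ S) (k : ℕ) :
    (s.val.map r).esymm k ∈ S := by
  classical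
  have hmap : (Finset.univ : Finset s).val.map (fun i : s => r i) = s.val.map r := by
    rw [Finset.univ_eq_attach, Finset.attach_val]
    exact Multiset.attach_map_val' s.val r
  induction k using Nat.strong_induction_on with
  | _ k ih =>
    rcases Nat.eq_zero_or_pos k with rfl | hk
    · simp [Multiset.esymm, Multiset.powersetCard_zero_left]
    · have newton := congrArg (MvPolynomial.aeval (fun i : s => r i))
        (MvPolynomial.mul_esymm_eq_sum s ℚ k)
      simp only [map_mul, map_natCast, map_pow, map_neg, map_one, map_sum,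
        MvPolynomial.aeval_esymm_eq_multiset_esymm, hmap, MvPolynomial.psum,
        MvPolynomial.aeval_X] at newton
      have hrhs : (-1 : B) ^ (k + 1) * ∑ x ∈ Finset.HasAntidiagonal.antidiagonal k with x.1 < k,
          (-1 : B) ^ x.1 * (s.val.map r).esymm x.1 * ∑ i : s, r i ^ x.2 ∈ S := by
        refine S.mul_mem (S.pow_mem (S.neg_mem S.one_mem) _) (S.sum_mem ?_)
        intro x hx
        rw [Finset.mem_filter, Finset.HasAntidiagonal.mem_antidiagonal] at hx
        refine S.mul_mem (S.mul_mem (S.pow_mem (S.neg_mem S.one_mem) _) (ih x.1 hx.2)) ?_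
        rw [Finset.sum_coe_sort s (fun i => r i ^ x.2)]
        exact h x.2 (by omega)
      rw [← newton] at hrhs
      have hk0 : (k : ℚ) ≠ 0 := by exact_mod_cast hk.ne'
      have := S.smul_mem hrhs ((k : ℚ)⁻¹)
      rwa [← nsmul_eq_mul, ← Nat.cast_smul_eq_nsmul ℚ k, smul_smul,
        inv_mul_cancel₀ hk0, one_smul] at this

/-- If all power sums of a finite family lie in a `ℚ`-subalgebra, so do the coefficients of
`∏ (X - r i)`.  (Newton: `MvPolynomial.mul_esymm_eq_sum`, `Multiset.prod_X_sub_C_coeff`, ...) -/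
theorem coeff_prod_X_sub_C_mem_of_psum_mem {B : Type*} [CommRing B] [Algebra ℚ B]
    (S : Subalgebra ℚ B) {ι : Type*} (s : Finset ι) (r : ι → B)
    (h : ∀ n : ℕ, 0 < n → ∑ i ∈ s, r i ^ n ∈ S) (k : ℕ) :
    (∏ i ∈ s, (X - C (r i))).coeff k ∈ S := by
  classical
  have hprod : ∏ i ∈ s, (X - C (r i)) = ((s.val.map r).map (fun t => X - C t)).prod := by
    rw [Multiset.map_map]; rfl
  rw [hprod]
  by_cases hk : k ≤ Multiset.card (s.val.map r)
  · rw [Multiset.prod_X_sub_C_coeff _ hk]
    exact S.mul_mem (S.pow_mem (S.neg_mem S.one_mem) _) (newton_esymm_mem_of_psum_mem S s r h _)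
  · rw [coeff_eq_zero_of_natDegree_lt]
    · exact S.zero_mem
    · refine lt_of_le_of_lt (natDegree_multiset_prod_le _) ?_
      rw [Multiset.map_map]
      refine lt_of_le_of_lt (Multiset.sum_le_card_nsmul _ 1 ?_) ?_
      · intro x hx
        rw [Multiset.mem_map] at hx
        obtain ⟨a, -, rfl⟩ := hx
        exact natDegree_X_sub_C_le a
      · simpa using hk

end Fermat.Agent.S28
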