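import Fermat.Agent.S28.Analytic
import Fermat.Agent.S28.Newton

/-!
# S28 work package A4: the factorised modular equation of prime level `p`
-/

set_option autoImplicit false
noncomputable section

namespace Fermat.Agent.S28

open ModularCurve Polynomial

variable (E : Type*) [Field E] [CharZero E]

/-- `ℚ[Y] → E((T))`, `Y ↦ j(T^p)`. -/
def evalJp (p : ℕ) : Polynomial ℚ →+* LaurentSeries E :=
  Polynomial.eval₂RingHom (HahnSeries.C.comp (Rat.castHom E)) (qE E p (jqModC E))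

/-- the conjugate "at `∞`" of `g(q^p)/Δ(q)`, `q = T^p`, `g = a E₄³ + c Δ`. -/
def rootInf (p a c : ℕ) : LaurentSeries E := qE E (p * p) (gqC E a c) / qE E p (DqC E)

/-- the other conjugates `p^{-12} g(ζ^b T)/Δ(T^p)`. -/
def rootFin (p a c : ℕ) (ζ : Eˣ) (b : ℕ) : LaurentSeries E :=
  ((p : LaurentSeries E)⁻¹) ^ 12 * twist (ζ ^ b) (gqC E a c) / qE E p (DqC E)

/-! ### helper lemmas (prefix `me_`) -/

/-- `ℚ⟦q⟧ → E((T))`. -/
def me_iota : PowerSeries ℚ →+* LaurentSeries E :=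
  (HahnSeries.ofPowerSeries ℤ E).comp (PowerSeries.map (Rat.castHom E))

theorem me_iota_coeff_nat (F : PowerSeries ℚ) (m : ℕ) :
    (me_iota E F).coeff (m : ℤ) = ((PowerSeries.coeff m F : ℚ) : E) := by
  simp only [me_iota, RingHom.comp_apply]
  rw [HahnSeries.ofPowerSeries_apply_coeff, PowerSeries.coeff_map]
  rfl

theorem me_iota_coeff_neg (F : PowerSeries ℚ) {k : ℤ} (hk : k < 0) :
    (me_iota E F).coeff k = 0 :=
  ofPowerSeries_coeff_of_neg _ hk

theorem me_map_map (F : PowerSeries ℤ) :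
    PowerSeries.map (Rat.castHom E) (PowerSeries.map (Int.castRingHom ℚ) F) =
      PowerSeries.map (Int.castRingHom E) F := by
  ext n
  simp

theorem me_iota_E4Q : me_iota E (E4Q ^ 3) = E4cC E := by
  simp only [me_iota, RingHom.comp_apply, E4Q, E4cC]
  rw [← map_pow (PowerSeries.map (Int.castRingHom ℚ)), me_map_map]

theorem me_iota_DQ : me_iota E DQ = DqC E := by
  simp only [me_iota, RingHom.comp_apply, DQ, DqC]
  rw [me_map_map, map_mul, map_mul, PowerSeries.map_X, HahnSeries.ofPowerSeries_X]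

theorem me_iota_C (r : ℚ) : me_iota E (PowerSeries.C r) = HahnSeries.C (r : E) := by
  simp only [me_iota, RingHom.comp_apply, PowerSeries.map_C, HahnSeries.ofPowerSeries_C]
  rfl

/-- the rational power series `a E₄³ + c Δ`. -/
def me_gQ (a c : ℕ) : PowerSeries ℚ := (a : PowerSeries ℚ) * E4Q ^ 3 + (c : PowerSeries ℚ) * DQ

theorem me_iota_gQ (a c : ℕ) : me_iota E (me_gQ a c) = gqC E a c := by
  simp only [me_gQ, gqC, map_add, map_mul, map_natCast, me_iota_E4Q, me_iota_DQ]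

theorem me_j_mul_D : jqModC E * DqC E = E4cC E := by
  simp only [jqModC, DqC, E4cC, jNum]
  have h1 : (HahnSeries.single (-1 : ℤ) (1 : E)) * HahnSeries.single (1 : ℤ) 1 = 1 := by
    rw [HahnSeries.single_mul_single]; simp
  have h2 : HahnSeries.ofPowerSeries ℤ E
        ((eisenstein4 ^ 3 * dedekindEtaUnitInv).map (Int.castRingHom E)) *
      HahnSeries.ofPowerSeries ℤ E (dedekindEtaUnit.map (Int.castRingHom E)) =
      HahnSeries.ofPowerSeries ℤ E ((eisenstein4 ^ 3).map (Int.castRingHom E)) := by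
    rw [← map_mul, ← map_mul, mul_assoc, mul_comm dedekindEtaUnitInv, dedekindEtaUnit_mul_inv,
      mul_one]
  calc _ = (HahnSeries.single (-1 : ℤ) (1 : E) * HahnSeries.single (1 : ℤ) 1) *
        (HahnSeries.ofPowerSeries ℤ E
          ((eisenstein4 ^ 3 * dedekindEtaUnitInv).map (Int.castRingHom E)) *
        HahnSeries.ofPowerSeries ℤ E (dedekindEtaUnit.map (Int.castRingHom E))) := by ring
    _ = _ := by rw [h1, h2, one_mul]

theorem me_D_ne_zero : DqC E ≠ 0 := by
  intro h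
  have := congrArg (fun x => HahnSeries.coeff x (1 : ℤ)) h
  simp only [DqC, HahnSeries.coeff_single_mul, sub_self, one_mul, HahnSeries.coeff_zero] at this
  have h0 : (HahnSeries.ofPowerSeries ℤ E (dedekindEtaUnit.map (Int.castRingHom E))).coeff
      ((0 : ℕ) : ℤ) = 1 := by
    rw [HahnSeries.ofPowerSeries_apply_coeff, PowerSeries.coeff_map,
      PowerSeries.coeff_zero_eq_constantCoeff, constantCoeff_dedekindEtaUnit]
    simp
  rw [Nat.cast_zero] at h0
  rw [h0] at this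
  exact one_ne_zero this

theorem me_qE_C (d : ℕ) (r : E) : qE E d (HahnSeries.C r) = HahnSeries.C r := by
  unfold qE
  split_ifs with h
  · rfl
  · exact @qExpand_C E _ d ⟨h⟩ r

theorem me_qE_coeff {d : ℕ} (hd : d ≠ 0) (x : LaurentSeries E) (k : ℤ) :
    (qE E d x).coeff k = if (d : ℤ) ∣ k then x.coeff (k / d) else 0 := by
  have : NeZero d := ⟨hd⟩
  rw [qE_eq]
  split_ifs with h
  · obtain ⟨m, rfl⟩ := h
    rw [qExpand_coeff_mul, Int.mul_ediv_cancel_left _ (by exact_mod_cast hd)]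
  · exact qExpand_coeff_of_not_dvd d x h

theorem me_qE_qE {d : ℕ} (hd : d ≠ 0) (x : LaurentSeries E) :
    qE E d (qE E d x) = qE E (d * d) x := by
  have : NeZero d := ⟨hd⟩
  have : NeZero (d * d) := ⟨Nat.mul_ne_zero hd hd⟩
  rw [qE_eq, qE_eq, qExpand_qExpand]

theorem me_qE_injective {d : ℕ} : Function.Injective (qE E d) := by
  unfold qE
  split_ifs with h
  · exact fun _ _ h => h
  · exact @qExpand_injective E _ d ⟨h⟩

/-- `ℚ[Y] → E((T))`, `Y ↦ j(T)`. -/
def me_evJ : Polynomial ℚ →+* LaurentSeries E :=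
  Polynomial.eval₂RingHom (HahnSeries.C.comp (Rat.castHom E)) (jqModC E)

theorem me_evalJp_eq (p : ℕ) : evalJp E p = (qE E p).comp (me_evJ E) := by
  refine Polynomial.ringHom_ext (fun r => ?_) ?_
  · simp only [evalJp, me_evJ, RingHom.comp_apply, Polynomial.coe_eval₂RingHom,
      Polynomial.eval₂_C, me_qE_C]
  · simp only [evalJp, me_evJ, RingHom.comp_apply, Polynomial.coe_eval₂RingHom,
      Polynomial.eval₂_X]

theorem me_M12 (n : ℕ) (F : PowerSeries ℚ) (hF : F ∈ M12 n) :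
    ∃ Q : Polynomial ℚ, me_iota E F = me_evJ E Q * DqC E ^ n := by
  unfold M12 at hF
  induction hF using Submodule.span_induction with
  | mem x hx =>
    obtain ⟨i, rfl⟩ := hx
    refine ⟨X ^ (i : ℕ), ?_⟩
    have hi : (i : ℕ) ≤ n := Nat.lt_succ_iff.1 i.2
    simp only [map_mul, map_pow]
    rw [pow_mul, ← map_pow, me_iota_E4Q, me_iota_DQ, ← me_j_mul_D]
    have : me_evJ E X = jqModC E := by
      simp only [me_evJ, Polynomial.coe_eval₂RingHom, Polynomial.eval₂_X]
    rw [this, mul_pow, mul_assoc, ← pow_add, Nat.add_sub_cancel' hi]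
  | zero => exact ⟨0, by simp⟩
  | add x y _ _ hx hy =>
    obtain ⟨Q₁, h₁⟩ := hx
    obtain ⟨Q₂, h₂⟩ := hy
    exact ⟨Q₁ + Q₂, by rw [map_add, map_add, h₁, h₂, add_mul]⟩
  | smul r x _ hx =>
    obtain ⟨Q, h⟩ := hx
    refine ⟨C r * Q, ?_⟩
    rw [PowerSeries.smul_eq_C_mul, map_mul, map_mul, me_iota_C, h, mul_assoc]
    congr 1
    simp only [me_evJ, Polynomial.coe_eval₂RingHom, Polynomial.eval₂_C, RingHom.comp_apply]
    rfl

/-- the formal `U_p`. -/
def me_U (p : ℕ) (F : PowerSeries ℚ) : PowerSeries ℚ :=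
  PowerSeries.mk fun m => PowerSeries.coeff (m * p) F

theorem me_natCast_mul_coeff (n : ℕ) (x : LaurentSeries E) (k : ℤ) :
    ((n : LaurentSeries E) * x).coeff k = (n : E) * x.coeff k := by
  rw [← map_natCast (HahnSeries.C : E →+* LaurentSeries E), HahnSeries.C_mul_eq_smul,
    HahnSeries.coeff_smul, smul_eq_mul]

theorem me_sum_zeta {p : ℕ} (hp : p.Prime) {ζ : Eˣ} (hζ : IsPrimitiveRoot ζ p) (m : ℕ) :
    ∑ b ∈ Finset.range p, (((ζ ^ b) ^ (m : ℤ) : Eˣ) : E) = if p ∣ m then (p : E) else 0 := by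
  have hζ' : IsPrimitiveRoot (ζ : E) p := IsPrimitiveRoot.coe_units_iff.2 hζ
  have e : ∀ b : ℕ, (((ζ ^ b) ^ (m : ℤ) : Eˣ) : E) = ((ζ : E) ^ m) ^ b := by
    intro b
    rw [zpow_natCast, Units.val_pow_eq_pow_val, Units.val_pow_eq_pow_val, ← pow_mul, ← pow_mul,
      mul_comm]
  simp only [e]
  split_ifs with h
  · obtain ⟨t, rfl⟩ := h
    rw [pow_mul, hζ'.pow_eq_one]
    simp
  · have hc : m.Coprime p := (Nat.Coprime.symm ((Nat.Prime.coprime_iff_not_dvd hp).2 h))
    exact (hζ'.pow_of_coprime m hc).geom_sum_eq_zero hp.one_lt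

theorem me_sum_twist {p : ℕ} (hp : p.Prime) {ζ : Eˣ} (hζ : IsPrimitiveRoot ζ p)
    (F : PowerSeries ℚ) :
    ∑ b ∈ Finset.range p, twist (ζ ^ b) (me_iota E F) =
      (p : LaurentSeries E) * qE E p (me_iota E (me_U p F)) := by
  ext k
  rw [HahnSeries.coeff_sum, me_natCast_mul_coeff, me_qE_coeff E hp.ne_zero]
  simp only [twist_coeff]
  rcases lt_or_ge k 0 with hk | hk
  · simp only [me_iota_coeff_neg E F hk, mul_zero, Finset.sum_const_zero]
    split_ifs with h
    · rw [me_iota_coeff_neg, mul_zero]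
      exact Int.ediv_neg_of_neg_of_pos hk (by exact_mod_cast hp.pos)
    · rw [mul_zero]
  · lift k to ℕ using hk
    rw [← Finset.sum_mul, me_sum_zeta E hp hζ, me_iota_coeff_nat]
    by_cases h : p ∣ k
    · rw [if_pos h, if_pos (by exact_mod_cast h)]
      obtain ⟨t, rfl⟩ := h
      have : ((p * t : ℕ) : ℤ) / (p : ℤ) = (t : ℤ) := by
        push_cast
        exact Int.mul_ediv_cancel_left _ (by exact_mod_cast hp.ne_zero)
      rw [this, me_iota_coeff_nat, me_U, PowerSeries.coeff_mk, mul_comm t p]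
    · rw [if_neg h, if_neg (by exact_mod_cast h), zero_mul, mul_zero]

theorem me_hecke_aux (k : ℕ) {p : ℕ} (hp : p.Prime) (F : PowerSeries ℚ) :
    me_iota E (heckeTps k p F) =
      me_iota E (me_U p F) + (p : LaurentSeries E) ^ (k - 1) * qE E p (me_iota E F) := by
  ext j
  rw [HahnSeries.coeff_add, ← Nat.cast_pow, me_natCast_mul_coeff, me_qE_coeff E hp.ne_zero]
  rcases lt_or_ge j 0 with hj | hj
  · rw [me_iota_coeff_neg E _ hj, me_iota_coeff_neg E _ hj]
    split_ifs with h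
    · rw [me_iota_coeff_neg, mul_zero, add_zero]
      exact Int.ediv_neg_of_neg_of_pos hj (by exact_mod_cast hp.pos)
    · rw [mul_zero, add_zero]
  · lift j to ℕ using hj
    rw [me_iota_coeff_nat, me_iota_coeff_nat, heckeTps, me_U, PowerSeries.coeff_mk,
      PowerSeries.coeff_mk]
    by_cases h : p ∣ j
    · rw [if_pos h, if_pos (by exact_mod_cast h)]
      have : (j : ℤ) / (p : ℤ) = ((j / p : ℕ) : ℤ) := by push_cast; rfl
      rw [this, me_iota_coeff_nat]
      push_cast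
      rfl
    · rw [if_neg h, if_neg (by exact_mod_cast h)]
      simp

theorem me_hecke (k : ℕ) {p : ℕ} (hp : p.Prime) (F : PowerSeries ℚ) :
    qE E p (me_iota E (heckeTps k p F)) =
      qE E p (me_iota E (me_U p F)) + (p : LaurentSeries E) ^ (k - 1) * qE E (p * p) (me_iota E F) := by
  rw [me_hecke_aux E k hp, map_add, map_mul, map_pow, map_natCast, me_qE_qE E hp.ne_zero]

theorem me_gQ_pow_mem (a c n : ℕ) : me_gQ a c ^ n ∈ M12 n := by
  unfold me_gQ
  rw [add_pow]
  refine Submodule.sum_mem _ fun i hi => ?_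
  have hi' : i < n + 1 := Finset.mem_range.1 hi
  have e : ((a : PowerSeries ℚ) * E4Q ^ 3) ^ i * ((c : PowerSeries ℚ) * DQ) ^ (n - i) *
      ((n.choose i : ℕ) : PowerSeries ℚ) =
      ((a : ℚ) ^ i * (c : ℚ) ^ (n - i) * (n.choose i : ℚ)) •
        (E4Q ^ (3 * i) * DQ ^ (n - i)) := by
    rw [PowerSeries.smul_eq_C_mul]
    simp only [map_mul, map_pow, map_natCast]
    ring
  rw [e]
  exact Submodule.smul_mem _ _ (Submodule.subset_span ⟨⟨i, hi'⟩, rfl⟩)

theorem me_evalJp_C (p : ℕ) (r : ℚ) : evalJp E p (C r) = HahnSeries.C (r : E) := by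
  simp only [evalJp, Polynomial.coe_eval₂RingHom, Polynomial.eval₂_C, RingHom.comp_apply]
  rfl

theorem me_psum {p : ℕ} (hp : p.Prime) {ζ : Eˣ} (hζ : IsPrimitiveRoot ζ p) (a c n : ℕ)
    (hn : 0 < n) :
    ∃ Q : Polynomial ℚ, evalJp E p Q =
      rootInf E p a c ^ n + ∑ b ∈ Finset.range p, rootFin E p a c ζ b ^ n := by
  set f := me_gQ a c ^ n with hf
  have hfm : f ∈ M12 n := me_gQ_pow_mem a c n
  obtain ⟨Q, hQ⟩ := me_M12 E n _ (heckeTps_mem_M12 p hp n hn f hfm)
  have hD : qE E p (DqC E) ≠ 0 := by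
    intro h
    exact me_D_ne_zero E (me_qE_injective E (by rw [h, map_zero]))
  have h1 : qE E p (me_iota E (heckeTps (12 * n) p f)) = evalJp E p Q * qE E p (DqC E) ^ n := by
    rw [hQ, map_mul, map_pow, me_evalJp_eq]; rfl
  have h2 := me_hecke E (12 * n) hp f
  have h3 := me_sum_twist E hp hζ f
  have hP : (p : LaurentSeries E) ≠ 0 := by
    rw [← map_natCast (HahnSeries.C : E →+* LaurentSeries E)]
    exact (_root_.map_ne_zero _).2 (Nat.cast_ne_zero.2 hp.ne_zero)
  obtain ⟨t, ht⟩ : ∃ t, 12 * n = t + 1 := ⟨12 * n - 1, by omega⟩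
  refine ⟨C (((p : ℚ)⁻¹) ^ (12 * n) * p) * Q, ?_⟩
  have hC : evalJp E p (C (((p : ℚ)⁻¹) ^ (12 * n) * p)) =
      ((p : LaurentSeries E)⁻¹) ^ (12 * n) * p := by
    rw [me_evalJp_C]
    push_cast
    simp only [map_mul, map_pow, map_inv₀, map_natCast]
  have hInf : rootInf E p a c ^ n = qE E (p * p) (me_iota E f) / qE E p (DqC E) ^ n := by
    rw [rootInf, div_pow, ← map_pow, ← me_iota_gQ, ← map_pow]
  have hFin : ∀ b, rootFin E p a c ζ b ^ n =
      ((p : LaurentSeries E)⁻¹) ^ (12 * n) * twist (ζ ^ b) (me_iota E f) /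
        qE E p (DqC E) ^ n := by
    intro b
    rw [rootFin, div_pow, mul_pow, ← pow_mul, ← map_pow, ← me_iota_gQ, ← map_pow]
  rw [map_mul, hC, hInf]
  simp only [hFin]
  rw [← Finset.sum_div, ← Finset.mul_sum, h3, ← add_div, eq_div_iff (pow_ne_zero _ hD),
    mul_assoc, ← h1, h2, ht, Nat.add_sub_cancel]
  have hone : ((p : LaurentSeries E)⁻¹) ^ (t + 1) * p * (p : LaurentSeries E) ^ t = 1 := by
    rw [mul_assoc, ← pow_succ', ← mul_pow, inv_mul_cancel₀ hP, one_pow]
  linear_combination (qE E (p * p) (me_iota E f)) * hone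

/-- A4.  PROOF.  By `coeff_prod_X_sub_C_mem_of_psum_mem` (Newton) applied to the `ℚ`-subalgebra
`range (evalJp E p)` it suffices that the power sums
`rootInf^n + ∑_b rootFin_b^n` (`n ≥ 1`) lie in that range.  With `f = g^n ∈ M12 n`:
`∑_b f(ζ^b T) = p (U_p f)(T^p)`, so the power sum is
`p^{1-12n} (T_p f)(T^p) / Δ(T^p)^n`, `T_p f = heckeTps (12 n) p f ∈ M12 n` (`heckeTps_mem_M12`),
and `E₄^{3i} Δ^{n-i} / Δ^n = j^i`. -/
theorem modEq (p : ℕ) (hp : p.Prime) (ζ : Eˣ) (hζ : IsPrimitiveRoot ζ p) (a c : ℕ) :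
    ∃ P : Polynomial (Polynomial ℚ), P.Monic ∧
      P.map (evalJp E p) =
        (X - C (rootInf E p a c)) * ∏ b ∈ Finset.range p, (X - C (rootFin E p a c ζ b)) := by
  classical
  let r : ℕ → LaurentSeries E := fun i => if i < p then rootFin E p a c ζ i else rootInf E p a c
  have hprod : ∏ i ∈ Finset.range (p + 1), (X - C (r i)) =
      (X - C (rootInf E p a c)) * ∏ b ∈ Finset.range p, (X - C (rootFin E p a c ζ b)) := by
    rw [Finset.prod_range_succ, mul_comm]
    congr 1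
    · simp [r]
    · refine Finset.prod_congr rfl fun i hi => ?_
      simp [r, Finset.mem_range.1 hi]
  let S : Subalgebra ℚ (LaurentSeries E) :=
    { (evalJp E p).range.toSubsemiring with
      algebraMap_mem' := fun q => ⟨C q, by
        have : (evalJp E p).comp C = algebraMap ℚ (LaurentSeries E) := Subsingleton.elim _ _
        exact congrFun (congrArg DFunLike.coe this) q⟩ }
  have hS : ∀ x, x ∈ S ↔ x ∈ Set.range (evalJp E p) := fun x => Iff.rfl
  have hps : ∀ n : ℕ, 0 < n → ∑ i ∈ Finset.range (p + 1), r i ^ n ∈ S := by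
    intro n hn
    obtain ⟨Q, hQ⟩ := me_psum E hp hζ a c n hn
    rw [hS]
    refine ⟨Q, ?_⟩
    rw [hQ, Finset.sum_range_succ, add_comm]
    congr 1
    · refine Finset.sum_congr rfl fun i hi => ?_
      simp [r, Finset.mem_range.1 hi]
    · simp [r]
  have hl : (∏ i ∈ Finset.range (p + 1), (X - C (r i))) ∈ lifts (evalJp E p) := by
    rw [lifts_iff_coeff_lifts]
    intro k
    exact (hS _).1 (coeff_prod_X_sub_C_mem_of_psum_mem S _ r hps k)
  have hm : (∏ i ∈ Finset.range (p + 1), (X - C (r i))).Monic :=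
    monic_prod_of_monic _ _ fun i _ => monic_X_sub_C _
  obtain ⟨P, hP1, -, hP2⟩ := lifts_and_natDegree_eq_and_monic hl hm
  exact ⟨P, hP2, by rw [hP1, hprod]⟩

end Fermat.Agent.S28
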