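import Fermat.Agent.S28.Toolkit
import Fermat.Agent.S28.ModEq
import Fermat.Prelude.Thm_ModularCurve_coeff_jqModC_pow_self
import Fermat.Prelude.Thm_ModularCurve_coeff_jqModC_pow_of_lt

/-!
# S28 work package E1: the generators are integral over `ℤ_(ℓ)[j]`
-/

set_option autoImplicit false
set_option linter.unusedSectionVars false
noncomputable section

namespace Fermat.Agent.S28

open ModularCurve Polynomial

/-! ## General integrality lemmas -/

section GeneralInt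

variable {R R' L L' : Type*} [CommRing R] [CommRing R'] [CommRing L] [CommRing L']

theorem e1_isIntegralElem_map (f : R →+* L) (φ : L →+* L') {x : L} (hx : f.IsIntegralElem x) :
    (φ.comp f).IsIntegralElem (φ x) := by
  obtain ⟨p, hp, h⟩ := hx
  exact ⟨p, hp, by rw [← Polynomial.hom_eval₂, h, map_zero]⟩

theorem e1_isIntegralElem_of_map (f : R →+* L) (φ : L →+* L') (hφ : Function.Injective φ) {x : L}
    (hx : (φ.comp f).IsIntegralElem (φ x)) : f.IsIntegralElem x := by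
  obtain ⟨p, hp, h⟩ := hx
  refine ⟨p, hp, hφ ?_⟩
  rw [Polynomial.hom_eval₂, h, map_zero]

/-- transitivity of integrality, for ring homs. -/
theorem e1_isIntegralElem_trans (f : R →+* L) (g : R' →+* L)
    (hg : ∀ r, f.IsIntegralElem (g r)) {x : L} (hx : g.IsIntegralElem x) :
    f.IsIntegralElem x := by
  let _ := f.toAlgebra
  let B := integralClosure R L
  let g' : R' →+* B := g.codRestrict B.toSubring (fun r => hg r)
  obtain ⟨p, hp, h⟩ := hx
  have hxB : IsIntegral B x := by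
    refine ⟨p.map g', hp.map _, ?_⟩
    rw [Polynomial.eval₂_map]
    exact h
  exact isIntegral_trans (R := R) (A := B) x hxB

/-- polynomial expressions in an integral element are integral. -/
theorem e1_isIntegralElem_eval₂ (f : R →+* L) (c : R' →+* L) (hc : ∀ r, f.IsIntegralElem (c r))
    {t : L} (ht : f.IsIntegralElem t) (q : Polynomial R') : f.IsIntegralElem (q.eval₂ c t) := by
  induction q using Polynomial.induction_on' with
  | add p q hp hq => rw [Polynomial.eval₂_add]; exact hp.add f hq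
  | monomial n a =>
    rw [Polynomial.eval₂_monomial]
    refine (hc a).mul f ?_
    induction n with
    | zero => rw [pow_zero]; exact f.isIntegralElem_one
    | succ n ih => rw [pow_succ]; exact ih.mul f ht

/-- if the constant term of a monic equation is a unit, the inverse is integral. -/
theorem e1_isIntegralElem_inv {F : Type*} [Field F] (f : R →+* F) {x : F}
    (P : Polynomial R) (hP : P.Monic) (hx : P.eval₂ f x = 0) (hu : IsUnit (P.coeff 0)) :
    f.IsIntegralElem x⁻¹ := by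
  obtain ⟨u, hu⟩ := hu
  have hxi : f.IsIntegralElem x := ⟨P, hP, hx⟩
  have h1 : P.divX.eval₂ f x * x + f (P.coeff 0) = 0 := by
    conv_rhs => rw [← hx, ← Polynomial.divX_mul_X_add P]
    rw [Polynomial.eval₂_add, Polynomial.eval₂_mul, Polynomial.eval₂_X, Polynomial.eval₂_C]
  have hfu : f (P.coeff 0) * f (↑u⁻¹ : R) = 1 := by
    rw [← hu, ← map_mul, Units.mul_inv, map_one]
  have hx0 : x ≠ 0 := by
    rintro rfl
    rw [mul_zero, zero_add] at h1
    rw [h1, zero_mul] at hfu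
    exact zero_ne_one hfu
  have h2 : x⁻¹ = -(f (↑u⁻¹ : R) * P.divX.eval₂ f x) := by
    refine (eq_inv_of_mul_eq_one_left ?_).symm
    linear_combination (-f (↑u⁻¹ : R)) * h1 + hfu
  rw [h2]
  refine RingHom.IsIntegralElem.neg f ((f.isIntegralElem_map).mul f ?_)
  exact e1_isIntegralElem_eval₂ f f (fun r => f.isIntegralElem_map) hxi _

end GeneralInt

/-! ## Series with coefficients in a subring -/

section CoeffS

variable {E : Type*} [Field E] [CharZero E] (S : Subring E)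

theorem e1_coeffMap_int_mem (x₀ : LaurentSeries ℤ) :
    coeffMap (Int.castRingHom E) x₀ ∈ coeffSubring (Γ := ℤ) S := by
  rw [mem_coeffSubring_iff]
  intro k
  rw [coeffMap_coeff]
  exact intCast_mem S _

theorem e1_C_mem {c : E} (hc : c ∈ S) : (HahnSeries.C c : LaurentSeries E) ∈ coeffSubring S := by
  rw [mem_coeffSubring_iff]
  intro k
  rw [HahnSeries.C_apply, HahnSeries.coeff_single]
  split_ifs
  · exact hc
  · exact S.zero_mem

theorem e1_qE_mem_iff {d : ℕ} (hd : d ≠ 0) (x : LaurentSeries E) :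
    qE E d x ∈ coeffSubring S ↔ x ∈ coeffSubring S := by
  rw [mem_coeffSubring_iff, mem_coeffSubring_iff]
  constructor
  · intro h k
    have := h ((d : ℤ) * k)
    rwa [me_qE_coeff E hd, if_pos (dvd_mul_right _ _),
      Int.mul_ediv_cancel_left _ (by exact_mod_cast hd)] at this
  · intro h k
    rw [me_qE_coeff E hd]
    split_ifs
    · exact h _
    · exact S.zero_mem

theorem e1_twist_mem (u : Eˣ) (hu : ∀ n : ℤ, ((u ^ n : Eˣ) : E) ∈ S) {x : LaurentSeries E}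
    (hx : x ∈ coeffSubring S) : twist u x ∈ coeffSubring S := by
  rw [mem_coeffSubring_iff] at hx ⊢
  intro k
  rw [twist_coeff]
  exact S.mul_mem (hu k) (hx k)

theorem e1_gqC_mem (a c : ℕ) : gqC E a c ∈ coeffSubring (Γ := ℤ) S := by
  rw [← coeffMap_gqC (Int.castRingHom E)]
  exact e1_coeffMap_int_mem S _

theorem e1_DqC_mem : DqC E ∈ coeffSubring (Γ := ℤ) S := by
  rw [← coeffMap_DqC (Int.castRingHom E)]
  exact e1_coeffMap_int_mem S _

theorem e1_DqInvC_mem : DqInvC E ∈ coeffSubring (Γ := ℤ) S := by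
  rw [← coeffMap_DqInvC (Int.castRingHom E)]
  exact e1_coeffMap_int_mem S _

theorem e1_jqModC_mem : jqModC E ∈ coeffSubring (Γ := ℤ) S := by
  rw [jqModC_eq_map_intCast]
  exact e1_coeffMap_int_mem S (jqModC ℤ)

theorem e1_qE_DqC_inv (p : ℕ) : (qE E p (DqC E))⁻¹ = qE E p (DqInvC E) := by
  rw [← map_inv₀, DqC_inv]

theorem e1_natCast_inv_mem {p : ℕ} (hp : ((p : E))⁻¹ ∈ S) :
    ((p : LaurentSeries E))⁻¹ ∈ coeffSubring S := by
  rw [← map_natCast (HahnSeries.C : E →+* LaurentSeries E), ← map_inv₀]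
  exact e1_C_mem S hp

theorem e1_rootInf_mem {p : ℕ} (hp : p ≠ 0) (a c : ℕ) : rootInf E p a c ∈ coeffSubring S := by
  rw [rootInf, div_eq_mul_inv, e1_qE_DqC_inv]
  exact Subring.mul_mem _ ((e1_qE_mem_iff S (Nat.mul_ne_zero hp hp) _).2 (e1_gqC_mem S a c))
    ((e1_qE_mem_iff S hp _).2 (e1_DqInvC_mem S))

theorem e1_rootFin_mem {p : ℕ} (hp : p ≠ 0) (hpS : ((p : E))⁻¹ ∈ S) (a c : ℕ) (ζ : Eˣ)
    (hζ : ∀ n : ℤ, ((ζ ^ n : Eˣ) : E) ∈ S) (b : ℕ) : rootFin E p a c ζ b ∈ coeffSubring S := by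
  rw [rootFin, div_eq_mul_inv, e1_qE_DqC_inv]
  refine Subring.mul_mem _ (Subring.mul_mem _ (Subring.pow_mem _ (e1_natCast_inv_mem S hpS) _) ?_)
    ((e1_qE_mem_iff S hp _).2 (e1_DqInvC_mem S))
  refine e1_twist_mem S _ (fun n => ?_) (e1_gqC_mem S a c)
  rw [← zpow_natCast, ← zpow_mul]
  exact hζ _

/-- the coefficient of `q^{-m}` in `Q(j)`, `deg Q ≤ m`. -/
theorem e1_evJ_coeff (Q : Polynomial ℚ) (m : ℕ) (hm : Q.natDegree ≤ m) :
    (me_evJ E Q).coeff (-(m : ℤ)) = ((Q.coeff m : ℚ) : E) := by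
  rw [me_evJ, Polynomial.coe_eval₂RingHom,
    Polynomial.eval₂_eq_sum_range' _ (Nat.lt_succ_of_le hm), HahnSeries.coeff_sum,
    Finset.sum_range_succ, Finset.sum_eq_zero, zero_add]
  · rw [RingHom.comp_apply, HahnSeries.C_mul_eq_smul, HahnSeries.coeff_smul,
      coeff_jqModC_pow_self, smul_eq_mul, mul_one]
    rfl
  · intro i hi
    rw [RingHom.comp_apply, HahnSeries.C_mul_eq_smul, HahnSeries.coeff_smul,
      coeff_jqModC_pow_of_lt, smul_zero]
    have := Finset.mem_range.1 hi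
    omega

theorem e1_evJ_monomial_mem (n : ℕ) {c : ℚ} (hc : (c : E) ∈ S) :
    me_evJ E (Polynomial.monomial n c) ∈ coeffSubring S := by
  rw [me_evJ, Polynomial.coe_eval₂RingHom, Polynomial.eval₂_monomial]
  exact Subring.mul_mem _ (e1_C_mem S hc) (Subring.pow_mem _ (e1_jqModC_mem S) _)

/-- descent: if `Q(j)` has coefficients in `S` then `Q` has coefficients in `S ∩ ℚ`. -/
theorem e1_descent (n : ℕ) : ∀ Q : Polynomial ℚ, Q.degree < n → me_evJ E Q ∈ coeffSubring S →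
    ∀ i, ((Q.coeff i : ℚ) : E) ∈ S := by
  induction n with
  | zero =>
    intro Q hQ _ i
    have : Q = 0 := by
      by_contra h
      have h0 := Polynomial.zero_le_degree_iff.2 h
      exact absurd (lt_of_le_of_lt h0 hQ) (by simp)
    rw [this, Polynomial.coeff_zero, Rat.cast_zero]
    exact S.zero_mem
  | succ n ih =>
    intro Q hQ hmem i
    by_cases h0 : Q = 0
    · rw [h0, Polynomial.coeff_zero, Rat.cast_zero]
      exact S.zero_mem
    have hlc : ((Q.leadingCoeff : ℚ) : E) ∈ S := by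
      have := (mem_coeffSubring_iff S _).1 hmem (-(Q.natDegree : ℤ))
      rwa [e1_evJ_coeff Q _ le_rfl] at this
    have hdeg : Q.eraseLead.degree < n := by
      have h1 := Polynomial.degree_eraseLead_lt h0
      have h2 : Q.degree ≤ n := by
        have : Q.degree < ((n + 1 : ℕ) : WithBot ℕ) := hQ
        rw [Polynomial.degree_eq_natDegree h0] at this ⊢
        exact_mod_cast Nat.lt_succ_iff.1 (by exact_mod_cast this)
      exact lt_of_lt_of_le h1 h2
    have hmem' : me_evJ E Q.eraseLead ∈ coeffSubring S := by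
      have h1 : Q.eraseLead = Q - Polynomial.monomial Q.natDegree Q.leadingCoeff := by
        rw [eq_sub_iff_add_eq, Polynomial.eraseLead_add_monomial_natDegree_leadingCoeff]
      rw [h1, map_sub]
      exact Subring.sub_mem _ hmem (e1_evJ_monomial_mem S _ hlc)
    have := ih _ hdeg hmem' i
    rw [Polynomial.eraseLead_coeff] at this
    split_ifs at this with hi
    · rw [hi]; exact hlc
    · exact this

theorem e1_descent' {p : ℕ} (hp : p ≠ 0) (Q : Polynomial ℚ) (h : evalJp E p Q ∈ coeffSubring S)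
    (i : ℕ) : ((Q.coeff i : ℚ) : E) ∈ S := by
  rw [me_evalJp_eq, RingHom.comp_apply, e1_qE_mem_iff S hp] at h
  refine e1_descent S (Q.natDegree + 1) Q ?_ h i
  exact lt_of_le_of_lt Polynomial.degree_le_natDegree (by exact_mod_cast Nat.lt_succ_self _)

end CoeffS

/-! ## The maps -/

section Maps

/-- `ℚ[Y] → ℚ((q))`, `Y ↦ t`. -/
def e1_evQ (t : LQ) : Polynomial ℚ →+* LQ := Polynomial.eval₂RingHom (algebraMap ℚ LQ) t

/-- `ℤ_(ℓ)[Y] → ℚ((q))`, `Y ↦ t`. -/
def e1_iL (ℓ : ℕ) (t : LQ) : Polynomial (Zl ℓ) →+* LQ :=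
  Polynomial.eval₂RingHom ((algebraMap ℚ LQ).comp (GaloisRep.ratLocalizedAt ℓ).subtype) t

theorem e1_iL_eq (ℓ : ℕ) (t : LQ) :
    e1_iL ℓ t = (e1_evQ t).comp (Polynomial.mapRingHom (GaloisRep.ratLocalizedAt ℓ).subtype) := by
  refine Polynomial.ringHom_ext (fun r => ?_) ?_
  · simp [e1_iL, e1_evQ]
  · simp [e1_iL, e1_evQ]

theorem e1_iL_C (ℓ : ℕ) (t : LQ) (r : Zl ℓ) : e1_iL ℓ t (C r) = algebraMap ℚ LQ (r : ℚ) := by
  simp [e1_iL]

theorem e1_iL_X (ℓ : ℕ) (t : LQ) : e1_iL ℓ t X = t := by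
  simp [e1_iL]

theorem e1_qE_algebraMap (d : ℕ) (r : ℚ) : qE ℚ d (algebraMap ℚ LQ r) = algebraMap ℚ LQ r := by
  rw [algebraMap_laurentSeries_eq_single]
  exact me_qE_C ℚ d r

theorem e1_qE_comp_iL (ℓ d : ℕ) (t : LQ) : (qE ℚ d).comp (e1_iL ℓ t) = e1_iL ℓ (qE ℚ d t) := by
  refine Polynomial.ringHom_ext (fun r => ?_) ?_
  · rw [RingHom.comp_apply, e1_iL_C, e1_iL_C, e1_qE_algebraMap]
  · rw [RingHom.comp_apply, e1_iL_X, e1_iL_X]

variable (E : Type*) [Field E] [CharZero E]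

/-- `ℚ((q)) → E((T))`, `q ↦ T^p`. -/
def e1_theta (p : ℕ) : LQ →+* LaurentSeries E := (qE E p).comp (coeffMap (Rat.castHom E))

theorem e1_theta_comp (p : ℕ) : (e1_theta E p).comp (e1_evQ jq) = evalJp E p := by
  refine Polynomial.ringHom_ext (fun r => ?_) ?_
  · rw [RingHom.comp_apply, me_evalJp_C, e1_evQ, Polynomial.coe_eval₂RingHom, Polynomial.eval₂_C,
      algebraMap_laurentSeries_eq_single, e1_theta, RingHom.comp_apply, coeffMap_single]
    exact me_qE_C E p _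
  · rw [RingHom.comp_apply, e1_evQ, Polynomial.coe_eval₂RingHom, Polynomial.eval₂_X, evalJp,
      Polynomial.coe_eval₂RingHom, Polynomial.eval₂_X, e1_theta, RingHom.comp_apply]
    congr 1
    exact map_jqModC (K := ℚ) (Rat.castHom E)

/-- `g_{a,c}(q^p)/Δ(q)`. -/
def e1_w (p a c : ℕ) : LQ := qE ℚ p (gqC ℚ a c) / DqC ℚ

theorem e1_theta_w {p : ℕ} (hp : p ≠ 0) (a c : ℕ) : e1_theta E p (e1_w p a c) = rootInf E p a c := by
  rw [e1_theta, RingHom.comp_apply, e1_w, map_div₀, map_div₀, coeffMap_qE, coeffMap_gqC,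
    coeffMap_DqC, me_qE_qE E hp, rootInf]

end Maps

/-! ## The modular equation has coefficients in `ℤ_(ℓ)[j]` -/

section PrimeStep

variable {E : Type*} [Field E] [CharZero E] (S : Subring E) (ℓ : ℕ)

theorem e1_prod_coeff_mem {A : Type*} [CommRing A] (T : Subring A) (r₀ : A) (h₀ : r₀ ∈ T)
    (n : ℕ) (r : ℕ → A) (hr : ∀ b, r b ∈ T) (k : ℕ) :
    ((X - C r₀) * ∏ b ∈ Finset.range n, (X - C (r b))).coeff k ∈ T := by
  have : (X - C r₀) * ∏ b ∈ Finset.range n, (X - C (r b)) =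
      ((X - C (⟨r₀, h₀⟩ : T)) * ∏ b ∈ Finset.range n, (X - C (⟨r b, hr b⟩ : T))).map T.subtype := by
    simp [Polynomial.map_mul, Polynomial.map_prod]
  rw [this, Polynomial.coeff_map]
  exact Subtype.property _

theorem e1_exists_poly (hS : ∀ c : ℚ, (c : E) ∈ S → c ∈ GaloisRep.ratLocalizedAt ℓ)
    {p : ℕ} (hp : p.Prime) (hpS : ((p : E))⁻¹ ∈ S) (ζ : Eˣ) (hζ : IsPrimitiveRoot ζ p)
    (hζS : ∀ n : ℤ, ((ζ ^ n : Eˣ) : E) ∈ S) (a c : ℕ) :
    ∃ P' : Polynomial (Polynomial (Zl ℓ)), P'.Monic ∧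
      (P'.map (Polynomial.mapRingHom (GaloisRep.ratLocalizedAt ℓ).subtype)).map (evalJp E p) =
        (X - C (rootInf E p a c)) * ∏ b ∈ Finset.range p, (X - C (rootFin E p a c ζ b)) := by
  obtain ⟨P, hPm, hP⟩ := modEq E p hp ζ hζ a c
  have hmem : ∀ k, evalJp E p (P.coeff k) ∈ coeffSubring S := by
    intro k
    rw [← Polynomial.coeff_map, hP]
    exact e1_prod_coeff_mem _ _ (e1_rootInf_mem S hp.ne_zero a c) _ _
      (fun b => e1_rootFin_mem S hp.ne_zero hpS a c ζ hζS b) k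
  have hl : P ∈ Polynomial.lifts (Polynomial.mapRingHom (GaloisRep.ratLocalizedAt ℓ).subtype) := by
    rw [Polynomial.lifts_iff_coeff_lifts]
    intro k
    have : P.coeff k ∈ Polynomial.lifts (GaloisRep.ratLocalizedAt ℓ).subtype := by
      rw [Polynomial.lifts_iff_coeff_lifts]
      intro i
      exact ⟨⟨_, hS _ (e1_descent' S hp.ne_zero _ (hmem k) i)⟩, rfl⟩
    exact this
  obtain ⟨P', hP1, -, hP2⟩ := Polynomial.lifts_and_natDegree_eq_and_monic hl hPm
  exact ⟨P', hP2, by rw [hP1, hP]⟩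

theorem e1_eval_w {p : ℕ} (hp : p ≠ 0) (a c : ℕ) (P' : Polynomial (Polynomial (Zl ℓ)))
    (G : Polynomial (LaurentSeries E))
    (h : (P'.map (Polynomial.mapRingHom (GaloisRep.ratLocalizedAt ℓ).subtype)).map (evalJp E p) =
        (X - C (rootInf E p a c)) * G) :
    P'.eval₂ (e1_iL ℓ jq) (e1_w p a c) = 0 := by
  apply (e1_theta E p).injective
  rw [map_zero, Polynomial.hom_eval₂, e1_iL_eq, ← RingHom.comp_assoc, e1_theta_comp, e1_theta_w E hp,
    ← Polynomial.eval₂_map, ← Polynomial.eval_map, h]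
  simp

end PrimeStep

/-! ## Orders and leading coefficients -/

section Good

variable {E : Type*} [Field E] [CharZero E] (S : Subring E)

theorem e1_order_qE {m : ℕ} (hm : m ≠ 0) (x : LaurentSeries E) :
    (qE E m x).order = m * x.order := by
  have h1 := order_phi (1 : Eˣ) one_pos (qE E m x)
  rw [phi_qE (1 : Eˣ) one_pos hm, order_phi _ (by positivity)] at h1
  have : ((m * x.order : ℤ) : ℚ) = ((qE E m x).order : ℚ) := by
    push_cast
    linarith
  exact_mod_cast this.symm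

theorem e1_leadingCoeff_qE {m : ℕ} (hm : m ≠ 0) (x : LaurentSeries E) :
    (qE E m x).leadingCoeff = x.leadingCoeff := by
  have h1 := leadingCoeff_phi (1 : Eˣ) one_pos (qE E m x)
  rw [phi_qE (1 : Eˣ) one_pos hm, leadingCoeff_phi _ (by positivity)] at h1
  simpa using h1.symm

theorem e1_order_twist (u : Eˣ) (x : LaurentSeries E) : (twist u x).order = x.order := by
  have h1 := order_phi (1 : Eˣ) one_pos (twist u x)
  rw [phi_twist, order_phi _ one_pos] at h1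
  have : ((x.order : ℤ) : ℚ) = ((twist u x).order : ℚ) := by linarith
  exact_mod_cast this.symm

theorem e1_leadingCoeff_twist (u : Eˣ) (x : LaurentSeries E) :
    (twist u x).leadingCoeff = ((u ^ x.order : Eˣ) : E) * x.leadingCoeff := by
  have h1 := leadingCoeff_phi (1 : Eˣ) one_pos (twist u x)
  rw [phi_twist, leadingCoeff_phi _ one_pos] at h1
  simpa using h1.symm

/-- `x ≠ 0` has order `n` and its leading coefficient is a unit of `S`. -/
def e1_Good (x : LaurentSeries E) (n : ℤ) : Prop :=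
  x ≠ 0 ∧ x.order = n ∧ x.leadingCoeff ∈ S ∧ (x.leadingCoeff)⁻¹ ∈ S

variable {S}

theorem e1_Good.mul {x y : LaurentSeries E} {n m : ℤ} (hx : e1_Good S x n) (hy : e1_Good S y m) :
    e1_Good S (x * y) (n + m) := by
  obtain ⟨hx0, hx1, hx2, hx3⟩ := hx
  obtain ⟨hy0, hy1, hy2, hy3⟩ := hy
  refine ⟨mul_ne_zero hx0 hy0, ?_, ?_, ?_⟩
  · rw [HahnSeries.order_mul hx0 hy0, hx1, hy1]
  · rw [HahnSeries.leadingCoeff_mul]; exact S.mul_mem hx2 hy2
  · rw [HahnSeries.leadingCoeff_mul, mul_inv]; exact S.mul_mem hx3 hy3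

theorem e1_Good.of_mul_eq_one {x y : LaurentSeries E} {n : ℤ} (hx : e1_Good S x n)
    (h : x * y = 1) : e1_Good S y (-n) := by
  obtain ⟨hx0, hx1, hx2, hx3⟩ := hx
  have hy0 : y ≠ 0 := by
    rintro rfl
    rw [mul_zero] at h
    exact zero_ne_one h
  have h1 := HahnSeries.order_mul hx0 hy0
  rw [h, HahnSeries.order_one, hx1] at h1
  have h2 := HahnSeries.leadingCoeff_mul x y
  rw [h, HahnSeries.leadingCoeff_one] at h2
  have h3 : y.leadingCoeff = (x.leadingCoeff)⁻¹ := eq_inv_of_mul_eq_one_right h2.symm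
  refine ⟨hy0, by omega, ?_, ?_⟩
  · rw [h3]; exact hx3
  · rw [h3, inv_inv]; exact hx2

theorem e1_Good.neg {x : LaurentSeries E} {n : ℤ} (hx : e1_Good S x n) : e1_Good S (-x) n := by
  obtain ⟨hx0, hx1, hx2, hx3⟩ := hx
  refine ⟨neg_ne_zero.2 hx0, ?_, ?_, ?_⟩
  · rw [HahnSeries.order_neg, hx1]
  · rw [HahnSeries.leadingCoeff_neg]; exact S.neg_mem hx2
  · rw [HahnSeries.leadingCoeff_neg, inv_neg]; exact S.neg_mem hx3

theorem e1_Good_C {c : E} (h0 : c ≠ 0) (h1 : c ∈ S) (h2 : c⁻¹ ∈ S) :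
    e1_Good S (HahnSeries.C c) 0 := by
  refine ⟨(_root_.map_ne_zero _).2 h0, HahnSeries.order_C, ?_, ?_⟩
  · rw [HahnSeries.C_apply, HahnSeries.leadingCoeff_of_single]; exact h1
  · rw [HahnSeries.C_apply, HahnSeries.leadingCoeff_of_single]; exact h2

theorem e1_Good_one : e1_Good S (1 : LaurentSeries E) 0 := by
  have := e1_Good_C (S := S) (one_ne_zero) S.one_mem (by rw [inv_one]; exact S.one_mem)
  rwa [map_one] at this

theorem e1_Good.prod {ι : Type*} (s : Finset ι) (f : ι → LaurentSeries E) (n : ℤ)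
    (h : ∀ b ∈ s, e1_Good S (f b) n) : e1_Good S (∏ b ∈ s, f b) (s.card * n) := by
  classical
  induction s using Finset.induction_on with
  | empty => simpa using e1_Good_one
  | insert a s ha ih =>
    rw [Finset.prod_insert ha, Finset.card_insert_of_notMem ha]
    have := (h a (Finset.mem_insert_self _ _)).mul
      (ih fun b hb => h b (Finset.mem_insert_of_mem hb))
    convert this using 1
    push_cast
    ring

theorem e1_Good_qE {m : ℕ} (hm : m ≠ 0) {x : LaurentSeries E} {n : ℤ} (hx : e1_Good S x n) :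
    e1_Good S (qE E m x) (m * n) := by
  obtain ⟨hx0, hx1, hx2, hx3⟩ := hx
  refine ⟨fun h => hx0 (me_qE_injective E (by rw [h, map_zero])), ?_, ?_, ?_⟩
  · rw [e1_order_qE hm, hx1]
  · rw [e1_leadingCoeff_qE hm]; exact hx2
  · rw [e1_leadingCoeff_qE hm]; exact hx3

theorem e1_Good_twist (u : Eˣ) (hu : ∀ n : ℤ, ((u ^ n : Eˣ) : E) ∈ S) {x : LaurentSeries E} {n : ℤ}
    (hx : e1_Good S x n) : e1_Good S (twist u x) n := by
  obtain ⟨hx0, hx1, hx2, hx3⟩ := hx
  refine ⟨fun h => hx0 ((twist u).injective (by rw [h, map_zero])), ?_, ?_, ?_⟩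
  · rw [e1_order_twist, hx1]
  · rw [e1_leadingCoeff_twist]; exact S.mul_mem (hu _) hx2
  · rw [e1_leadingCoeff_twist, mul_inv, ← Units.val_inv_eq_inv_val, ← zpow_neg]
    exact S.mul_mem (hu _) hx3

theorem e1_Good_DqC : e1_Good S (DqC E) 1 := by
  refine ⟨DqC_ne_zero E, order_DqC E, ?_, ?_⟩
  · rw [leadingCoeff_DqC]; exact S.one_mem
  · rw [leadingCoeff_DqC, inv_one]; exact S.one_mem

theorem e1_Good_DqInvC : e1_Good S (DqInvC E) (-1) :=
  e1_Good_DqC.of_mul_eq_one (DqC_mul_DqInvC E)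

theorem e1_gqC_zero_one : gqC E 0 1 = DqC E := by simp [gqC]

theorem e1_Good_rootInf {p : ℕ} (hp : p ≠ 0) :
    e1_Good S (rootInf E p 0 1) ((p : ℤ) * p - p) := by
  rw [rootInf, div_eq_mul_inv, e1_qE_DqC_inv, e1_gqC_zero_one]
  have := (e1_Good_qE (S := S) (Nat.mul_ne_zero hp hp) e1_Good_DqC).mul
    (e1_Good_qE (S := S) hp e1_Good_DqInvC)
  convert this using 1
  push_cast
  ring

theorem e1_Good_rootFin {p : ℕ} (hp : p ≠ 0) (hpS : ((p : E))⁻¹ ∈ S) (ζ : Eˣ)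
    (hζ : ∀ n : ℤ, ((ζ ^ n : Eˣ) : E) ∈ S) (b : ℕ) :
    e1_Good S (rootFin E p 0 1 ζ b) (1 - (p : ℤ)) := by
  rw [rootFin, div_eq_mul_inv, e1_qE_DqC_inv, e1_gqC_zero_one]
  have hp0 : (p : E) ≠ 0 := Nat.cast_ne_zero.2 hp
  have h1 : e1_Good S (((p : LaurentSeries E))⁻¹ ^ 12) 0 := by
    rw [← map_natCast (HahnSeries.C : E →+* LaurentSeries E), ← map_inv₀, ← map_pow]
    refine e1_Good_C (pow_ne_zero _ (inv_ne_zero hp0)) (S.pow_mem hpS _) ?_
    rw [← inv_pow, inv_inv]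
    exact S.pow_mem (natCast_mem S p) _
  have h2 : e1_Good S (twist (ζ ^ b) (DqC E)) 1 := by
    refine e1_Good_twist _ (fun n => ?_) e1_Good_DqC
    rw [← zpow_natCast, ← zpow_mul]
    exact hζ _
  have := (h1.mul h2).mul (e1_Good_qE (S := S) hp e1_Good_DqInvC)
  convert this using 1
  ring

theorem e1_const_unit (ℓ : ℕ) (hS : ∀ c : ℚ, (c : E) ∈ S → c ∈ GaloisRep.ratLocalizedAt ℓ)
    {p : ℕ} (hp : p ≠ 0) (hpS : ((p : E))⁻¹ ∈ S) (ζ : Eˣ)
    (hζS : ∀ n : ℤ, ((ζ ^ n : Eˣ) : E) ∈ S) (P' : Polynomial (Polynomial (Zl ℓ)))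
    (h : (P'.map (Polynomial.mapRingHom (GaloisRep.ratLocalizedAt ℓ).subtype)).map (evalJp E p) =
        (X - C (rootInf E p 0 1)) * ∏ b ∈ Finset.range p, (X - C (rootFin E p 0 1 ζ b))) :
    IsUnit (P'.coeff 0) := by
  set Q₀ : Polynomial ℚ := (P'.coeff 0).map (GaloisRep.ratLocalizedAt ℓ).subtype with hQ₀
  set y := evalJp E p Q₀ with hy
  have hy1 : y = (-rootInf E p 0 1) * ∏ b ∈ Finset.range p, (-rootFin E p 0 1 ζ b) := by
    have := congrArg (fun G => Polynomial.coeff G 0) h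
    simp only [Polynomial.coeff_map] at this
    rw [hy, hQ₀]
    refine Eq.trans this ?_
    rw [Polynomial.coeff_zero_eq_eval_zero, Polynomial.eval_mul, Polynomial.eval_prod]
    simp
  have hgood : e1_Good S y 0 := by
    rw [hy1]
    have := (e1_Good_rootInf (S := S) hp).neg.mul (e1_Good.prod (Finset.range p)
      (fun b => -rootFin E p 0 1 ζ b) _ (fun b _ => (e1_Good_rootFin hp hpS ζ hζS b).neg))
    convert this using 1
    rw [Finset.card_range]
    ring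
  obtain ⟨hy0, hyo, hyl, hyl'⟩ := hgood
  have hdeg : Q₀.natDegree = 0 := by
    by_contra hm
    have h1 : y.coeff ((p : ℤ) * (-(Q₀.natDegree : ℤ))) = ((Q₀.leadingCoeff : ℚ) : E) := by
      rw [hy, me_evalJp_eq, RingHom.comp_apply, me_qE_coeff E hp, if_pos (dvd_mul_right _ _),
        Int.mul_ediv_cancel_left _ (by exact_mod_cast hp), e1_evJ_coeff _ _ le_rfl]
      rfl
    have h2 : y.coeff ((p : ℤ) * (-(Q₀.natDegree : ℤ))) = 0 := by
      apply HahnSeries.coeff_eq_zero_of_lt_order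
      rw [hyo]
      have : (0 : ℤ) < (p : ℤ) * (Q₀.natDegree : ℤ) := by positivity
      linarith
    rw [h1] at h2
    have h3 : Q₀.leadingCoeff = 0 := by exact_mod_cast h2
    rw [Polynomial.leadingCoeff_eq_zero] at h3
    rw [h3] at hm
    simp at hm
  have hQC := Polynomial.eq_C_of_natDegree_eq_zero hdeg
  have hyC : y = HahnSeries.C ((Q₀.coeff 0 : ℚ) : E) := by
    rw [hy, hQC, me_evalJp_C, Polynomial.coeff_C_zero]
  rw [hyC, HahnSeries.C_apply, HahnSeries.leadingCoeff_of_single] at hyl'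
  have hc0 : Q₀.coeff 0 ≠ 0 := by
    intro h0
    rw [h0, Rat.cast_zero, map_zero] at hyC
    exact hy0 hyC
  have hinv : (Q₀.coeff 0)⁻¹ ∈ GaloisRep.ratLocalizedAt ℓ := by
    apply hS
    rw [Rat.cast_inv]
    exact hyl'
  have hdeg' : (P'.coeff 0).natDegree = 0 := by
    have := Polynomial.natDegree_map_eq_of_injective
      (f := (GaloisRep.ratLocalizedAt ℓ).subtype) Subtype.val_injective (P'.coeff 0)
    rw [← this]
    exact hdeg
  rw [Polynomial.eq_C_of_natDegree_eq_zero hdeg', Polynomial.isUnit_C]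
  refine isUnit_iff_exists_inv.2 ⟨⟨_, hinv⟩, Subtype.ext ?_⟩
  have : Q₀.coeff 0 = (((P'.coeff 0).coeff 0 : Zl ℓ) : ℚ) := by
    rw [hQ₀, Polynomial.coeff_map]; rfl
  show (((P'.coeff 0).coeff 0 : Zl ℓ) : ℚ) * (Q₀.coeff 0)⁻¹ = 1
  rw [← this, mul_inv_cancel₀ hc0]

end Good

/-! ## The concrete coefficient field -/

section ConcreteE

variable (ℓ : ℕ) [Fact ℓ.Prime]

theorem e1_tau_injective : Function.Injective (tau ℓ) := by
  intro a b h
  rw [← resO_tau ℓ a, ← resO_tau ℓ b]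
  congr 1
  exact Subtype.ext h

theorem e1_exists_zeta {p : ℕ} (hp : p.Prime) (hpl : p ≠ ℓ) :
    ∃ ζ : (EE ℓ)ˣ, IsPrimitiveRoot ζ p ∧ ∀ n : ℤ, ((ζ ^ n : (EE ℓ)ˣ) : EE ℓ) ∈ SO ℓ := by
  have hℓ : ℓ.Prime := Fact.out
  have : NeZero ((p : ℕ) : kk ℓ) := ⟨by
    rw [Ne, CharP.cast_eq_zero_iff (kk ℓ) ℓ]
    intro h
    exact hpl ((Nat.prime_dvd_prime_iff_eq hℓ hp).1 h).symm⟩
  obtain ⟨z, hz⟩ := HasEnoughRootsOfUnity.exists_primitiveRoot (kk ℓ) p
  obtain ⟨u, rfl⟩ := hz.isUnit hp.ne_zero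
  have hu : IsPrimitiveRoot u p := IsPrimitiveRoot.coe_units_iff.1 hz
  refine ⟨tauU ℓ u, hu.map_of_injective (Units.map_injective (e1_tau_injective ℓ)), fun n => ?_⟩
  rw [← map_zpow]
  exact tau_mem ℓ _

theorem e1_hS (c : ℚ) (hc : (c : EE ℓ) ∈ SO ℓ) : c ∈ GaloisRep.ratLocalizedAt ℓ :=
  (ratCast_mem_iff ℓ (SO ℓ) (isDVRIn_SO ℓ) (inv_l_notMem_SO ℓ) c).1 hc

theorem e1_inv_mem {p : ℕ} (hp : p.Prime) (hpl : p ≠ ℓ) : ((p : EE ℓ))⁻¹ ∈ SO ℓ := by
  have hℓ : ℓ.Prime := Fact.out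
  have h := (ratCast_mem_iff ℓ (SO ℓ) (isDVRIn_SO ℓ) (inv_l_notMem_SO ℓ) ((p : ℚ)⁻¹)).2
    (zl_inv_natCast_mem ℓ ((Nat.coprime_primes hp hℓ).2 hpl))
  simpa using h

/-- `g_{a,c}(q^p)/Δ(q)` is integral over `ℤ_(ℓ)[j]`. -/
theorem e1_w_integral {p : ℕ} (hp : p.Prime) (hpl : p ≠ ℓ) (a c : ℕ) :
    (e1_iL ℓ jq).IsIntegralElem (e1_w p a c) := by
  obtain ⟨ζ, hζ, hζS⟩ := e1_exists_zeta ℓ hp hpl
  obtain ⟨P', hm, h⟩ := e1_exists_poly (SO ℓ) ℓ (e1_hS ℓ) hp (e1_inv_mem ℓ hp hpl) ζ hζ hζS a c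
  exact ⟨P', hm, e1_eval_w ℓ hp.ne_zero a c P' _ h⟩

theorem e1_w_inv_integral {p : ℕ} (hp : p.Prime) (hpl : p ≠ ℓ) :
    (e1_iL ℓ jq).IsIntegralElem (e1_w p 0 1)⁻¹ := by
  obtain ⟨ζ, hζ, hζS⟩ := e1_exists_zeta ℓ hp hpl
  obtain ⟨P', hm, h⟩ := e1_exists_poly (SO ℓ) ℓ (e1_hS ℓ) hp (e1_inv_mem ℓ hp hpl) ζ hζ hζS 0 1
  exact e1_isIntegralElem_inv _ P' hm (e1_eval_w ℓ hp.ne_zero 0 1 P' _ h)
    (e1_const_unit ℓ (e1_hS ℓ) hp.ne_zero (e1_inv_mem ℓ hp hpl) ζ hζS P' h)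

theorem e1_w_zero_one (p : ℕ) : e1_w p 0 1 = ud p := by
  rw [e1_w, e1_gqC_zero_one, ud]

theorem e1_w_one_zero (p : ℕ) : e1_w p 1 0 = jd p * ud p := by
  rw [e1_w, gqC_eq, ud, jd, map_mul, jqModC_rat_eq]
  simp [mul_div_assoc]

theorem e1_qE_DqC_ne_zero (d : ℕ) : qE ℚ d (DqC ℚ) ≠ 0 := fun h =>
  DqC_ne_zero ℚ (me_qE_injective ℚ (by rw [h, map_zero]))

theorem e1_ud_ne_zero (d : ℕ) : ud d ≠ 0 :=
  div_ne_zero (e1_qE_DqC_ne_zero d) (DqC_ne_zero ℚ)

/-- the prime step. -/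
theorem e1_prime {p : ℕ} (hp : p.Prime) (hpl : p ≠ ℓ) :
    (e1_iL ℓ jq).IsIntegralElem (jd p) ∧ (e1_iL ℓ jq).IsIntegralElem (ud p) ∧
      (e1_iL ℓ jq).IsIntegralElem (ud p)⁻¹ := by
  have h1 := e1_w_integral ℓ hp hpl 0 1
  have h2 := e1_w_integral ℓ hp hpl 1 0
  have h3 := e1_w_inv_integral ℓ hp hpl
  rw [e1_w_zero_one] at h1 h3
  rw [e1_w_one_zero] at h2
  refine ⟨?_, h1, h3⟩
  have := h2.mul _ h3
  rwa [mul_assoc, mul_inv_cancel₀ (e1_ud_ne_zero p), mul_one] at this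

/-- every element of `ℤ_(ℓ)[t]` is integral over `ℤ_(ℓ)[j]` if `t` is. -/
theorem e1_iL_integral {t : LQ} (ht : (e1_iL ℓ jq).IsIntegralElem t) (r : Polynomial (Zl ℓ)) :
    (e1_iL ℓ jq).IsIntegralElem (e1_iL ℓ t r) := by
  refine e1_isIntegralElem_eval₂ _ _ (fun c => ?_) ht r
  have := (e1_iL ℓ jq).isIntegralElem_map (x := C c)
  rwa [e1_iL_C] at this

theorem e1_all (d : ℕ) : d ≠ 0 → ¬ ℓ ∣ d →
    (e1_iL ℓ jq).IsIntegralElem (jd d) ∧ (e1_iL ℓ jq).IsIntegralElem (ud d) ∧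
      (e1_iL ℓ jq).IsIntegralElem (ud d)⁻¹ := by
  induction d using induction_on_primes with
  | zero => intro h; exact absurd rfl h
  | one =>
    intro _ _
    have hu : ud 1 = 1 := by
      rw [ud, qE_eq, qExpand_one_apply, div_self (DqC_ne_zero ℚ)]
    rw [jd_one, hu, inv_one]
    refine ⟨?_, (e1_iL ℓ jq).isIntegralElem_one, (e1_iL ℓ jq).isIntegralElem_one⟩
    have := (e1_iL ℓ jq).isIntegralElem_map (x := X)
    rwa [e1_iL_X] at this
  | prime_mul p d hp ih =>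
    intro h0 hℓ
    have hd0 : d ≠ 0 := fun h => h0 (by rw [h, mul_zero])
    have hdℓ : ¬ ℓ ∣ d := fun h => hℓ (Dvd.dvd.mul_left h p)
    have hpl : p ≠ ℓ := fun h => hℓ (h ▸ dvd_mul_right p d)
    obtain ⟨ih1, ih2, ih3⟩ := ih hd0 hdℓ
    obtain ⟨k1, k2, k3⟩ := e1_prime ℓ hp hpl
    have tr : ∀ x : LQ, (e1_iL ℓ jq).IsIntegralElem x → (e1_iL ℓ jq).IsIntegralElem (qE ℚ d x) := by
      intro x hx
      have h1 := e1_isIntegralElem_map _ (qE ℚ d) hx
      rw [e1_qE_comp_iL] at h1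
      exact e1_isIntegralElem_trans _ _ (e1_iL_integral ℓ ih1) h1
    have e1 : qE ℚ d (jd p) = jd (p * d) := by
      rw [jd, jd, qE_qE d p hd0 hp.ne_zero, mul_comm]
    have e2 : qE ℚ d (ud p) * ud d = ud (p * d) := by
      rw [ud, ud, ud, map_div₀, qE_qE d p hd0 hp.ne_zero, mul_comm d p,
        div_mul_div_cancel₀ (e1_qE_DqC_ne_zero d)]
    refine ⟨e1 ▸ tr _ k1, e2 ▸ (tr _ k2).mul _ ih2, ?_⟩
    rw [← e2, mul_inv, ← map_inv₀]
    exact (tr _ k3).mul _ ih3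

theorem e1_comp_iT (N : ℕ) :
    (algebraMap (Fp N) LQ).comp (iT N ℓ (jF N)) = e1_iL ℓ jq := by
  refine Polynomial.ringHom_ext (fun r => ?_) ?_
  · rw [RingHom.comp_apply, e1_iL_C, iT, Polynomial.coe_eval₂RingHom, Polynomial.eval₂_C,
      RingHom.comp_apply]
    have : (algebraMap (Fp N) LQ).comp (algebraMap ℚ (Fp N)) = algebraMap ℚ LQ :=
      Subsingleton.elim _ _
    exact RingHom.congr_fun this _
  · rw [RingHom.comp_apply, e1_iL_X, iT, Polynomial.coe_eval₂RingHom, Polynomial.eval₂_X]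
    rfl

theorem e1_gens_integral (N : ℕ) (hN : N ≠ 0) (hℓN : ¬ ℓ ∣ N) (d : ℕ) (hd : d ∣ N) :
    (iT N ℓ (jF N)).IsIntegralElem (jdF N d) ∧ (iT N ℓ (jF N)).IsIntegralElem (udF N d) ∧
      (iT N ℓ (jF N)).IsIntegralElem (udF N d)⁻¹ := by
  have hd0 : d ≠ 0 := fun h => hN (by rw [h] at hd; exact Nat.eq_zero_of_zero_dvd hd)
  have hdl : ¬ ℓ ∣ d := fun h => hℓN (h.trans hd)
  obtain ⟨h1, h2, h3⟩ := e1_all ℓ d hd0 hdl
  have key : ∀ x : Fp N, (e1_iL ℓ jq).IsIntegralElem (algebraMap (Fp N) LQ x) →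
      (iT N ℓ (jF N)).IsIntegralElem x := by
    intro x hx
    refine e1_isIntegralElem_of_map _ (algebraMap (Fp N) LQ) (algebraMap (Fp N) LQ).injective ?_
    rwa [e1_comp_iT]
  have hj : algebraMap (Fp N) LQ (jdF N d) = jd d := by
    rw [jdF, dif_pos hd]; rfl
  have hu : algebraMap (Fp N) LQ (udF N d) = ud d := by
    rw [udF, dif_pos hd]; rfl
  refine ⟨key _ (by rwa [hj]), key _ (by rwa [hu]), key _ (by rwa [map_inv₀, hu])⟩

end ConcreteE

end Fermat.Agent.S28
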