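import Fermat.Agent.S28.EmbD

/-!
# S28 work packages E2, E3: `σ(F') ⊆ Frac V`, and distinct embeddings have distinct reductions
-/

set_option autoImplicit false
noncomputable section

namespace Fermat.Agent.S28

open ModularCurve

variable (N ℓ : ℕ) [Fact ℓ.Prime]

/-- the fraction field of `V` inside `Ω̄`. -/
def e23FracV : Subfield (Omb ℓ) := Subfield.closure ((inclV ℓ).range : Set (Omb ℓ))

theorem e23_range_le (y : Omb ℓ) (hy : y ∈ (inclV ℓ).range) : y ∈ e23FracV ℓ :=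
  Subfield.subset_closure hy

theorem e23_mem_frac (y : Omb ℓ) (hy : y ∈ e23FracV ℓ) :
    ∃ b ∈ (inclV ℓ).range, b ≠ 0 ∧ b * y ∈ (inclV ℓ).range := by
  obtain ⟨u, hu, w, hw, rfl⟩ := Subfield.mem_closure_iff.mp hy
  rw [Subring.closure_eq] at hu hw
  by_cases hw0 : w = 0
  · refine ⟨1, one_mem _, one_ne_zero, ?_⟩
    rw [hw0, div_zero, mul_zero]
    exact zero_mem _
  · refine ⟨w, hw, hw0, ?_⟩
    rw [mul_div_cancel₀ _ hw0]
    exact hu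

theorem e23_r_pos {d : ℕ} (hd : 0 < d) {r : ℚ} {s : ℕ} (h : r * (s : ℚ) ^ 2 = d) : 0 < r := by
  have hd' : (0 : ℚ) < d := by exact_mod_cast hd
  rw [← h] at hd'
  have hs : (0 : ℚ) ≤ (s : ℚ) ^ 2 := by positivity
  by_contra hr
  push Not at hr
  have := mul_nonpos_of_nonpos_of_nonneg hr hs
  linarith

theorem e23_ev_j_mem (a : (kk ℓ)ˣ) {r : ℚ} (hr : 0 < r) :
    ∃ v : VV ℓ, inclV ℓ v = ev ℓ (tauU ℓ a) r (jqModC (EE ℓ)) ∧
      redV ℓ v = phi a r (jqModC (kk ℓ)) := by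
  obtain ⟨v, hv, hv'⟩ := exists_lift_ev ℓ a hr (jqModC ℤ)
  rw [coeffMap_jqModC] at hv hv'
  exact ⟨v, hv, hv'⟩

theorem e23_ev_D_mem (a : (kk ℓ)ˣ) {r : ℚ} (hr : 0 < r) :
    ∃ v : VV ℓ, inclV ℓ v = ev ℓ (tauU ℓ a) r (DqC (EE ℓ)) ∧
      redV ℓ v = phi a r (DqC (kk ℓ)) := by
  obtain ⟨v, hv, hv'⟩ := exists_lift_ev ℓ a hr (DqC ℤ)
  rw [coeffMap_DqC] at hv hv'
  exact ⟨v, hv, hv'⟩

theorem e23_ev_D_ne_zero (ξ : (EE ℓ)ˣ) (r : ℚ) : ev ℓ ξ r (DqC (EE ℓ)) ≠ 0 := by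
  rw [Ne, map_eq_zero]
  exact DqC_ne_zero (EE ℓ)

theorem e23_jdF (d : ℕ) (hd : d ∣ N) : jdF N d = ⟨jd d, jd_mem N d hd⟩ := by
  unfold jdF; rw [dif_pos hd]

theorem e23_udF (d : ℕ) (hd : d ∣ N) : udF N d = ⟨ud d, ud_mem N d hd⟩ := by
  unfold udF; rw [dif_pos hd]

/-- a subfield-valued induction principle for `F'`. -/
theorem e23_induction (σ : Fp N →+* Omb ℓ) (C : Subfield (Omb ℓ))
    (hj : ∀ d, d ∣ N → σ (jdF N d) ∈ C) (hu : ∀ d, d ∣ N → σ (udF N d) ∈ C) (x : Fp N) :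
    σ x ∈ C := by
  obtain ⟨x, hx⟩ := x
  induction hx using IntermediateField.adjoin_induction with
  | mem y hy =>
    rcases hy with ⟨d, hd, rfl⟩ | ⟨d, hd, rfl⟩
    · have := hj d hd
      rwa [e23_jdF N d hd] at this
    · have := hu d hd
      rwa [e23_udF N d hd] at this
  | algebraMap c =>
    have : (⟨algebraMap ℚ LQ c, (Fp N).algebraMap_mem c⟩ : Fp N) = ((c : ℚ) : Fp N) := by
      apply Subtype.ext
      simp
    rw [this, map_ratCast]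
    exact SubfieldClass.ratCast_mem C c
  | add y z hy hz ihy ihz =>
    have : (⟨y + z, add_mem hy hz⟩ : Fp N) = ⟨y, hy⟩ + ⟨z, hz⟩ := rfl
    rw [this, map_add]
    exact add_mem ihy ihz
  | inv y hy ihy =>
    have : (⟨y⁻¹, inv_mem hy⟩ : Fp N) = (⟨y, hy⟩ : Fp N)⁻¹ := rfl
    rw [this, map_inv₀]
    exact inv_mem ihy
  | mul y z hy hz ihy ihz =>
    have : (⟨y * z, mul_mem hy hz⟩ : Fp N) = ⟨y, hy⟩ * ⟨z, hz⟩ := rfl
    rw [this, map_mul]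
    exact mul_mem ihy ihz

/-- two embeddings which agree on the generators are equal. -/
theorem e23_ext (σ τ : Fp N →+* Omb ℓ)
    (hj : ∀ d, d ∣ N → σ (jdF N d) = τ (jdF N d)) (hu : ∀ d, d ∣ N → σ (udF N d) = τ (udF N d)) :
    σ = τ := by
  ext ⟨x, hx⟩
  induction hx using IntermediateField.adjoin_induction with
  | mem y hy =>
    rcases hy with ⟨d, hd, rfl⟩ | ⟨d, hd, rfl⟩
    · have := hj d hd
      rwa [e23_jdF N d hd] at this
    · have := hu d hd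
      rwa [e23_udF N d hd] at this
  | algebraMap c =>
    have : (⟨algebraMap ℚ LQ c, (Fp N).algebraMap_mem c⟩ : Fp N) = ((c : ℚ) : Fp N) := by
      apply Subtype.ext
      simp
    rw [this, map_ratCast, map_ratCast]
  | add y z hy hz ihy ihz =>
    have : (⟨y + z, add_mem hy hz⟩ : Fp N) = ⟨y, hy⟩ + ⟨z, hz⟩ := rfl
    rw [this, map_add, map_add, ihy, ihz]
  | inv y hy ihy =>
    have : (⟨y⁻¹, inv_mem hy⟩ : Fp N) = (⟨y, hy⟩ : Fp N)⁻¹ := rfl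
    rw [this, map_inv₀, map_inv₀, ihy]
  | mul y z hy hz ihy ihz =>
    have : (⟨y * z, mul_mem hy hz⟩ : Fp N) = ⟨y, hy⟩ * ⟨z, hz⟩ := rfl
    rw [this, map_mul, map_mul, ihy, ihz]

/-- E2. -/
theorem e23_emb_frac (hN : N ≠ 0) (hℓN : ¬ ℓ ∣ N) (σ : Fp N →+* Omb ℓ)
    (hσ : σ (jF N) = iotaB ℓ jq) (x : Fp N) :
    ∃ b ∈ (inclV ℓ).range, b ≠ 0 ∧ b * σ x ∈ (inclV ℓ).range := by
  obtain ⟨a, r, s, -, -, h, -⟩ := exists_param N ℓ hN hℓN σ hσ
  apply e23_mem_frac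
  apply e23_induction
  · intro d hd
    obtain ⟨-, hrs, hj, -⟩ := h d hd
    have hr : 0 < r d := e23_r_pos (Nat.pos_of_dvd_of_pos hd (Nat.pos_of_ne_zero hN)) hrs
    obtain ⟨v, hv, -⟩ := e23_ev_j_mem ℓ (a d) hr
    rw [hj, ← hv]
    exact e23_range_le ℓ _ ⟨v, rfl⟩
  · intro d hd
    obtain ⟨-, hrs, -, hu⟩ := h d hd
    have hr : 0 < r d := e23_r_pos (Nat.pos_of_dvd_of_pos hd (Nat.pos_of_ne_zero hN)) hrs
    obtain ⟨v, hv, -⟩ := e23_ev_D_mem ℓ (a d) hr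
    obtain ⟨w, hw, -⟩ := e23_ev_D_mem ℓ 1 one_pos
    rw [tauU_one] at hw
    have h0 := e23_ev_D_ne_zero ℓ 1 1
    rw [eq_div_of_mul_eq h0 hu, ← hv, ← hw]
    exact div_mem (mul_mem (SubfieldClass.ratCast_mem _ _) (e23_range_le ℓ _ ⟨v, rfl⟩))
      (e23_range_le ℓ _ ⟨w, rfl⟩)

/-- the reductions `phi a r j̄` determine `(a, r)`. -/
theorem e23_phi_j_inj {a a' : (kk ℓ)ˣ} {r r' : ℚ} (hr : 0 < r) (hr' : 0 < r')
    (h : phi a r (jqModC (kk ℓ)) = phi a' r' (jqModC (kk ℓ))) : a = a' ∧ r = r' := by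
  have ho := congrArg HahnSeries.order h
  rw [order_phi a hr, order_phi a' hr', order_jqModC] at ho
  have hl := congrArg HahnSeries.leadingCoeff h
  rw [leadingCoeff_phi a hr, leadingCoeff_phi a' hr', order_jqModC, leadingCoeff_jqModC,
    mul_one, mul_one] at hl
  refine ⟨?_, ?_⟩
  · have := Units.ext hl
    simpa using this
  · push_cast at ho
    linarith

/-- E3, without the integrality statement. -/
theorem e23_emb_distinct (hN : N ≠ 0) (hℓN : ¬ ℓ ∣ N) (σ τ : Fp N →+* Omb ℓ)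
    (hσ : σ (jF N) = iotaB ℓ jq) (hτ : τ (jF N) = iotaB ℓ jq) (hne : σ ≠ τ) :
    ∃ (d : ℕ) (v w : VV ℓ), d ∣ N ∧
      inclV ℓ v = σ (jdF N d) ∧ inclV ℓ w = τ (jdF N d) ∧ redV ℓ v ≠ redV ℓ w := by
  obtain ⟨a, r, s, -, -, h, -⟩ := exists_param N ℓ hN hℓN σ hσ
  obtain ⟨a', r', s', -, -, h', -⟩ := exists_param N ℓ hN hℓN τ hτ
  by_contra hcon
  push Not at hcon
  have key : ∀ d, d ∣ N → a d = a' d ∧ r d = r' d := by
    intro d hd
    obtain ⟨-, hrs, hj, -⟩ := h d hd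
    obtain ⟨-, hrs', hj', -⟩ := h' d hd
    have hd0 := Nat.pos_of_dvd_of_pos hd (Nat.pos_of_ne_zero hN)
    have hr : 0 < r d := e23_r_pos hd0 hrs
    have hr' : 0 < r' d := e23_r_pos hd0 hrs'
    obtain ⟨v, hv, hv'⟩ := e23_ev_j_mem ℓ (a d) hr
    obtain ⟨w, hw, hw'⟩ := e23_ev_j_mem ℓ (a' d) hr'
    have := hcon d v w hd (hv.trans hj.symm) (hw.trans hj'.symm)
    rw [hv', hw'] at this
    exact e23_phi_j_inj ℓ hr hr' this
  apply hne
  apply e23_ext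
  · intro d hd
    obtain ⟨-, -, hj, -⟩ := h d hd
    obtain ⟨-, -, hj', -⟩ := h' d hd
    rw [hj, hj', (key d hd).1, (key d hd).2]
  · intro d hd
    obtain ⟨-, hrs, -, hu⟩ := h d hd
    obtain ⟨-, hrs', -, hu'⟩ := h' d hd
    have hd0 := Nat.pos_of_dvd_of_pos hd (Nat.pos_of_ne_zero hN)
    have hr : 0 < r d := e23_r_pos hd0 hrs
    have hs : s d = s' d := by
      rw [← (key d hd).2, ← hrs] at hrs'
      have h2 : ((s' d : ℚ)) ^ 2 = (s d : ℚ) ^ 2 := mul_left_cancel₀ hr.ne' hrs'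
      have h3 : (s' d) ^ 2 = (s d) ^ 2 := by exact_mod_cast h2
      exact (Nat.pow_left_injective (n := 2) (by norm_num) h3).symm
    have h0 := e23_ev_D_ne_zero ℓ 1 1
    apply mul_right_cancel₀ h0
    rw [hu, hu', (key d hd).1, (key d hd).2, hs]

end Fermat.Agent.S28
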