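import Fermat.Agent.S28.EmbD
import Fermat.Agent.S28.Comb

/-!
# S28 work package E4: the eta quotient `h`

Everything needed for `emb_h` except the integrality of the generators (which is an hypothesis of
`E4.main`).
-/

set_option autoImplicit false
noncomputable section

namespace Fermat.Agent.S28

open ModularCurve

namespace E4

section Good

variable (ℓ : ℕ) [Fact ℓ.Prime]

/-- `y ∈ Ω̄` lifts to `V`, with a nonzero reduction of order `ρ`. -/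
def Good (y : Omb ℓ) (ρ : ℚ) : Prop :=
  ∃ v : VV ℓ, inclV ℓ v = y ∧ redV ℓ v ≠ 0 ∧ (redV ℓ v).order = ρ

variable {ℓ}

theorem Good.one : Good ℓ 1 0 :=
  ⟨1, map_one _, by rw [map_one]; exact one_ne_zero, by rw [map_one]; exact HahnSeries.order_one⟩

theorem Good.mul {y y' : Omb ℓ} {ρ ρ' : ℚ} (h : Good ℓ y ρ) (h' : Good ℓ y' ρ') :
    Good ℓ (y * y') (ρ + ρ') := by
  obtain ⟨v, hv, hv0, hvo⟩ := h
  obtain ⟨v', hv', hv0', hvo'⟩ := h'
  refine ⟨v * v', by rw [map_mul, hv, hv'], by rw [map_mul]; exact mul_ne_zero hv0 hv0', ?_⟩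
  rw [map_mul, HahnSeries.order_mul hv0 hv0', hvo, hvo']

theorem Good.congr {y y' : Omb ℓ} {ρ ρ' : ℚ} (h : Good ℓ y ρ) (hy : y = y') (hρ : ρ = ρ') :
    Good ℓ y' ρ' := by
  subst hy; subst hρ; exact h

theorem Good.pow {y : Omb ℓ} {ρ : ℚ} (h : Good ℓ y ρ) (n : ℕ) : Good ℓ (y ^ n) (n * ρ) := by
  induction n with
  | zero => exact Good.one.congr (pow_zero y).symm (by simp)
  | succ n ih => exact (ih.mul h).congr (pow_succ y n).symm (by push_cast; ring)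

theorem Good.zpow {y : Omb ℓ} {ρ : ℚ} (h : Good ℓ y ρ) (h' : Good ℓ y⁻¹ (-ρ)) (z : ℤ) :
    Good ℓ (y ^ z) (z * ρ) := by
  obtain ⟨n, rfl | rfl⟩ := z.eq_nat_or_neg
  · exact (h.pow n).congr (zpow_natCast y n).symm (by push_cast; ring)
  · exact (h'.pow n).congr (by rw [zpow_neg, zpow_natCast, inv_pow]) (by push_cast; ring)

theorem Good.prod {ι : Type*} (s : Finset ι) (y : ι → Omb ℓ) (ρ : ι → ℚ)
    (h : ∀ i ∈ s, Good ℓ (y i) (ρ i)) : Good ℓ (∏ i ∈ s, y i) (∑ i ∈ s, ρ i) := by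
  classical
  induction s using Finset.induction_on with
  | empty => simpa using Good.one
  | insert i s hi ih =>
    rw [Finset.prod_insert hi, Finset.sum_insert hi]
    exact (h i (Finset.mem_insert_self i s)).mul
      (ih fun k hk => h k (Finset.mem_insert_of_mem hk))

variable (ℓ)

theorem not_isUnit_l : ¬ IsUnit ((ℓ : ℕ) : Zl ℓ) := by
  intro h
  have h2 := h.map (resZ ℓ)
  rw [map_natCast, ZMod.natCast_self] at h2
  exact not_isUnit_zero h2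

theorem good_const (c : Zl ℓ) (hc : IsUnit c) : Good ℓ (((c : ℚ) : ℚ) : Omb ℓ) 0 := by
  obtain ⟨v, c', hv, hr, hc'⟩ := exists_lift_const ℓ c
  have hne : c' ≠ 0 := by
    intro h0
    obtain ⟨y, hy⟩ := hc'.mp h0
    rw [hy] at hc
    exact not_isUnit_l ℓ (isUnit_of_mul_isUnit_left hc)
  refine ⟨v, hv, ?_, ?_⟩
  · rw [hr]
    intro h
    exact hne (HahnSeries.C_injective (by rw [h, map_zero]))
  · rw [hr]; exact HahnSeries.order_C

theorem good_ev (a : (kk ℓ)ˣ) {r : ℚ} (hr : 0 < r) (x₀ : LaurentSeries ℤ)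
    (hx : coeffMap (Int.castRingHom (kk ℓ)) x₀ ≠ 0) :
    Good ℓ (ev ℓ (tauU ℓ a) r (coeffMap (Int.castRingHom (EE ℓ)) x₀))
      (r * (coeffMap (Int.castRingHom (kk ℓ)) x₀).order) := by
  obtain ⟨v, hv, hred⟩ := exists_lift_ev ℓ a hr x₀
  refine ⟨v, hv, ?_, ?_⟩
  · rw [hred]
    intro h
    exact hx (phi_injective a r (by rw [h, map_zero]))
  · rw [hred, order_phi a hr]

theorem order_DqInvC (K : Type*) [Field K] : (DqInvC K).order = -1 := by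
  have h := DqC_mul_DqInvC K
  have h1 : DqC K ≠ 0 := DqC_ne_zero K
  have h2 : DqInvC K ≠ 0 := right_ne_zero_of_mul_eq_one h
  have h3 := HahnSeries.order_mul h1 h2
  rw [h, HahnSeries.order_one, order_DqC] at h3
  linarith

theorem good_D (a : (kk ℓ)ˣ) {r : ℚ} (hr : 0 < r) :
    Good ℓ (ev ℓ (tauU ℓ a) r (DqC (EE ℓ))) r := by
  have h := good_ev ℓ a hr (DqC ℤ) (by rw [coeffMap_DqC]; exact DqC_ne_zero _)
  rw [coeffMap_DqC, coeffMap_DqC, order_DqC] at h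
  exact h.congr rfl (by simp)

theorem good_Dinv (a : (kk ℓ)ˣ) {r : ℚ} (hr : 0 < r) :
    Good ℓ (ev ℓ (tauU ℓ a) r (DqInvC (EE ℓ))) (-r) := by
  have h := good_ev ℓ a hr (DqInvC ℤ) (by
    rw [coeffMap_DqInvC]; exact right_ne_zero_of_mul_eq_one (DqC_mul_DqInvC _))
  rw [coeffMap_DqInvC, coeffMap_DqInvC, order_DqInvC] at h
  exact h.congr rfl (by simp)

theorem charZero_Omb : CharZero (Omb ℓ) :=
  charZero_of_injective_ringHom
    (f := (algebraMap (Om ℓ) (Omb ℓ)).comp (HahnSeries.C : EE ℓ →+* Om ℓ)) (RingHom.injective _)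

theorem ev_D_mul_Dinv (ξ : (EE ℓ)ˣ) (r : ℚ) :
    ev ℓ ξ r (DqC (EE ℓ)) * ev ℓ ξ r (DqInvC (EE ℓ)) = 1 := by
  rw [← map_mul, DqC_mul_DqInvC, map_one]

/-- the shape of `σ(u_d)` given by `exists_param` implies that `σ(u_d)` is a unit of `V` whose
reduction has order `r_d - 1`. -/
theorem good_u {y : Omb ℓ} {a : (kk ℓ)ˣ} {r : ℚ} {s : ℕ} (hr : 0 < r) (hs : ¬ ℓ ∣ s)
    (h : y * ev ℓ 1 1 (DqC (EE ℓ)) =
      ((((s : ℚ)⁻¹) ^ 12 : ℚ) : Omb ℓ) * ev ℓ (tauU ℓ a) r (DqC (EE ℓ))) :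
    Good ℓ y (r - 1) ∧ Good ℓ y⁻¹ (-(r - 1)) := by
  have := charZero_Omb ℓ
  have hs0 : s ≠ 0 := by rintro rfl; exact hs (dvd_zero _)
  have hsQ : (s : ℚ) ≠ 0 := by exact_mod_cast hs0
  have hcop : s.Coprime ℓ := (zl_coprime_iff ℓ s).mpr hs
  have hu : IsUnit ((s : ℕ) : Zl ℓ) := isUnit_natCast_Zl ℓ hs
  have hui : IsUnit (zlInv ℓ hcop) := IsUnit.of_mul_eq_one _ (zl_inv_mul_natCast ℓ hcop hs0)
  have g1 : Good ℓ ((((s : ℚ)⁻¹) ^ 12 : ℚ) : Omb ℓ) 0 :=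
    (good_const ℓ ((zlInv ℓ hcop) ^ 12) (hui.pow 12)).congr (by simp [zlInv]) rfl
  have g2 : Good ℓ (((s : ℚ) ^ 12 : ℚ) : Omb ℓ) 0 :=
    (good_const ℓ (((s : ℕ) : Zl ℓ) ^ 12) (hu.pow 12)).congr (by simp) rfl
  have e1 := ev_D_mul_Dinv ℓ 1 1
  have e2 := ev_D_mul_Dinv ℓ (tauU ℓ a) r
  have g3 : Good ℓ (ev ℓ 1 1 (DqC (EE ℓ))) 1 := by
    have := good_D ℓ 1 one_pos
    rwa [tauU_one] at this
  have g4 : Good ℓ (ev ℓ 1 1 (DqInvC (EE ℓ))) (-1) := by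
    have := good_Dinv ℓ 1 one_pos
    rwa [tauU_one] at this
  have hy : y = ((((s : ℚ)⁻¹) ^ 12 : ℚ) : Omb ℓ) * ev ℓ (tauU ℓ a) r (DqC (EE ℓ)) *
      ev ℓ 1 1 (DqInvC (EE ℓ)) := by
    rw [← h, mul_assoc, e1, mul_one]
  have hc : ((((s : ℚ)⁻¹) ^ 12 : ℚ) : Omb ℓ) * (((s : ℚ) ^ 12 : ℚ) : Omb ℓ) = 1 := by
    rw [← Rat.cast_mul, ← mul_pow, inv_mul_cancel₀ hsQ, one_pow, Rat.cast_one]
  have hyi : y⁻¹ = (((s : ℚ) ^ 12 : ℚ) : Omb ℓ) * ev ℓ (tauU ℓ a) r (DqInvC (EE ℓ)) *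
      ev ℓ 1 1 (DqC (EE ℓ)) := by
    apply inv_eq_of_mul_eq_one_right
    rw [hy]
    calc _ = (((((s : ℚ)⁻¹) ^ 12 : ℚ) : Omb ℓ) * (((s : ℚ) ^ 12 : ℚ) : Omb ℓ)) *
          (ev ℓ (tauU ℓ a) r (DqC (EE ℓ)) * ev ℓ (tauU ℓ a) r (DqInvC (EE ℓ))) *
          (ev ℓ 1 1 (DqC (EE ℓ)) * ev ℓ 1 1 (DqInvC (EE ℓ))) := by ring
      _ = 1 := by rw [hc, e1, e2, one_mul, one_mul]
  constructor
  · exact ((g1.mul (good_D ℓ a hr)).mul g4).congr hy.symm (by ring)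
  · exact ((g2.mul (good_Dinv ℓ a hr)).mul g3).congr hyi.symm (by ring)

end Good

section Param

variable (N ℓ : ℕ) [Fact ℓ.Prime]

theorem ringHom_ext_Fp (σ τ : Fp N →+* Omb ℓ)
    (hj : ∀ d, d ∣ N → σ (jdF N d) = τ (jdF N d))
    (hu : ∀ d, d ∣ N → σ (udF N d) = τ (udF N d)) : σ = τ := by
  ext ⟨x, hx⟩
  refine IntermediateField.adjoin_induction ℚ (s := FpGens N)
    (p := fun x hx => σ ⟨x, hx⟩ = τ ⟨x, hx⟩) ?_ ?_ ?_ ?_ ?_ hx
  · rintro x (⟨d, hd, rfl⟩ | ⟨d, hd, rfl⟩)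
    · have h := hj d hd
      simp only [jdF, dif_pos hd] at h
      exact h
    · have h := hu d hd
      simp only [udF, dif_pos hd] at h
      exact h
  · intro q
    have h : (⟨algebraMap ℚ LQ q, IntermediateField.algebraMap_mem _ q⟩ : Fp N) = ((q : ℚ) : Fp N) :=
      Subtype.ext (eq_ratCast (algebraMap ℚ LQ) q)
    exact (congrArg σ h).trans ((map_ratCast σ q).trans
      ((map_ratCast τ q).symm.trans (congrArg τ h).symm))
  · intro x y hx hy h1 h2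
    have h : (⟨x + y, add_mem hx hy⟩ : Fp N) = ⟨x, hx⟩ + ⟨y, hy⟩ := rfl
    exact (congrArg σ h).trans (by rw [map_add, h1, h2, ← map_add]; rfl)
  · intro x hx h1
    have h : (⟨x⁻¹, inv_mem hx⟩ : Fp N) = (⟨x, hx⟩ : Fp N)⁻¹ := rfl
    exact (congrArg σ h).trans (by rw [map_inv₀, h1, ← map_inv₀]; rfl)
  · intro x y hx hy h1 h2
    have h : (⟨x * y, mul_mem hx hy⟩ : Fp N) = ⟨x, hx⟩ * ⟨y, hy⟩ := rfl
    exact (congrArg σ h).trans (by rw [map_mul, h1, h2, ← map_mul]; rfl)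

theorem iotaB_qE_jq {d : ℕ} (hd0 : d ≠ 0) :
    iotaB ℓ (qE ℚ d jq) = ev ℓ 1 d (jqModC (EE ℓ)) := by
  unfold iotaB iota0 ev
  simp only [RingHom.comp_apply]
  rw [coeffMap_qE, ← jqModC_rat_eq, coeffMap_jqModC, phi_qE 1 one_pos hd0, one_pow, mul_one]

theorem iotaB_qE_DqC {d : ℕ} (hd0 : d ≠ 0) :
    iotaB ℓ (qE ℚ d (DqC ℚ)) = ev ℓ 1 d (DqC (EE ℓ)) := by
  unfold iotaB iota0 ev
  simp only [RingHom.comp_apply]
  rw [coeffMap_qE, coeffMap_DqC, phi_qE 1 one_pos hd0, one_pow, mul_one]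

theorem iotaB_DqC : iotaB ℓ (DqC ℚ) = ev ℓ 1 1 (DqC (EE ℓ)) := by
  unfold iotaB iota0
  simp only [RingHom.comp_apply]
  rw [coeffMap_DqC]

theorem sigma0_jdF {d : ℕ} (hd : d ∣ N) (hd0 : d ≠ 0) :
    sigma0 N ℓ (jdF N d) = ev ℓ 1 d (jqModC (EE ℓ)) := by
  rw [← iotaB_qE_jq ℓ hd0]
  simp only [jdF, dif_pos hd]
  rfl

theorem sigma0_udF {d : ℕ} (hd : d ∣ N) (hd0 : d ≠ 0) :
    sigma0 N ℓ (udF N d) * ev ℓ 1 1 (DqC (EE ℓ)) = ev ℓ 1 d (DqC (EE ℓ)) := by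
  rw [← iotaB_qE_DqC ℓ hd0, ← iotaB_DqC]
  simp only [udF, dif_pos hd]
  have : sigma0 N ℓ ⟨ud d, ud_mem N d hd⟩ = iotaB ℓ (ud d) := rfl
  rw [this, ← map_mul]
  unfold ud
  rw [div_mul_cancel₀ _ (DqC_ne_zero ℚ)]

theorem jd_injOn {d e : ℕ} (hd0 : d ≠ 0) (he0 : e ≠ 0) (h : jd d = jd e) : d = e := by
  unfold jd at h
  have h2 : (phi (1 : ℚˣ) 1 (qE ℚ d jq)).order = (phi (1 : ℚˣ) 1 (qE ℚ e jq)).order := by rw [h]
  rw [phi_qE 1 one_pos hd0, phi_qE 1 one_pos he0, ← jqModC_rat_eq,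
    order_phi _ (by positivity), order_phi _ (by positivity), order_jqModC] at h2
  have h3 : (d : ℚ) = e := by
    push_cast at h2
    linarith
  exact_mod_cast h3

/-- the conclusion of `exists_param`, as a predicate. -/
def IsParam (σ : Fp N →+* Omb ℓ) (a : ℕ → (kk ℓ)ˣ) (r : ℕ → ℚ) (s : ℕ → ℕ) : Prop :=
  a 1 = 1 ∧ r 1 = 1 ∧
    (∀ d, d ∣ N → s d ∣ d ∧ r d * (s d : ℚ) ^ 2 = d ∧
      σ (jdF N d) = ev ℓ (tauU ℓ (a d)) (r d) (jqModC (EE ℓ)) ∧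
      σ (udF N d) * ev ℓ 1 1 (DqC (EE ℓ)) =
        ((((s d : ℚ)⁻¹) ^ 12 : ℚ) : Omb ℓ) * ev ℓ (tauU ℓ (a d)) (r d) (DqC (EE ℓ))) ∧
    (∀ p d : ℕ, p.Prime → p * d ∣ N →
      (r (p * d) = p * r d ∧ a (p * d) = a d ^ p) ∨
      (r (p * d) = r d / p ∧ a (p * d) ^ p = a d))

variable {N ℓ}

theorem IsParam.pos (hN : N ≠ 0) {σ : Fp N →+* Omb ℓ} {a : ℕ → (kk ℓ)ˣ} {r : ℕ → ℚ} {s : ℕ → ℕ}
    (h : IsParam N ℓ σ a r s) (d : ℕ) (hd : d ∣ N) : 0 < r d := by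
  obtain ⟨-, h2, -, -⟩ := h.2.2.1 d hd
  have hd0 : 0 < d := Nat.pos_of_dvd_of_pos hd (Nat.pos_of_ne_zero hN)
  have hdQ : (0 : ℚ) < d := by exact_mod_cast hd0
  rw [← h2] at hdQ
  by_contra hneg
  push Not at hneg
  have : r d * (s d : ℚ) ^ 2 ≤ 0 := mul_nonpos_of_nonpos_of_nonneg hneg (by positivity)
  linarith

theorem IsParam.hnb (hN : N ≠ 0) {σ : Fp N →+* Omb ℓ} {a : ℕ → (kk ℓ)ˣ} {r : ℕ → ℚ} {s : ℕ → ℕ}
    (h : IsParam N ℓ σ a r s) (p d : ℕ) (hp : p.Prime) (hpd : p * (p * d) ∣ N)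
    (hdown : r (p * d) = r d / p) : r (p * (p * d)) = r (p * d) / p := by
  have hpd' : p * d ∣ N := (Dvd.intro_left p rfl).trans hpd
  have hd : d ∣ N := (Dvd.intro_left p rfl).trans hpd'
  have hd0 : d ≠ 0 := by rintro rfl; exact hN (Nat.eq_zero_of_zero_dvd hd)
  have hppd0 : p * (p * d) ≠ 0 := by
    intro h0; rw [h0] at hpd; exact hN (Nat.eq_zero_of_zero_dvd hpd)
  have hpQ : (1 : ℚ) < p := by exact_mod_cast hp.one_lt
  have hrd := h.pos hN d hd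
  rcases h.2.2.2 p (p * d) hp hpd with ⟨h1, h2⟩ | ⟨h1, -⟩
  · exfalso
    have ha : a (p * d) ^ p = a d := by
      rcases h.2.2.2 p d hp hpd' with ⟨h3, -⟩ | ⟨-, h4⟩
      · exfalso
        rw [hdown] at h3
        have hp0 : (p : ℚ) ≠ 0 := by positivity
        have h5 : r d = (p : ℚ) * p * r d := by
          rw [div_eq_iff hp0] at h3
          linarith
        have h6 : (1 : ℚ) < (p : ℚ) * p := by nlinarith
        nlinarith
      · exact h4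
    have hr : r (p * (p * d)) = r d := by
      rw [h1, hdown]
      field_simp
    have hj : σ (jdF N (p * (p * d))) = σ (jdF N d) := by
      rw [(h.2.2.1 _ hpd).2.2.1, (h.2.2.1 _ hd).2.2.1, hr, h2, ha]
    have hj2 := σ.injective hj
    simp only [jdF, dif_pos hpd, dif_pos hd] at hj2
    have hj3 : p * (p * d) = d := jd_injOn hppd0 hd0 (congrArg Subtype.val hj2)
    have h7 : 1 < p * p := by nlinarith [hp.one_lt]
    have h8 : 0 < d := Nat.pos_of_ne_zero hd0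
    nlinarith
  · exact h1

theorem IsParam.eq_sigma0 (hN : N ≠ 0) {σ : Fp N →+* Omb ℓ} {a : ℕ → (kk ℓ)ˣ} {r : ℕ → ℚ}
    {s : ℕ → ℕ} (h : IsParam N ℓ σ a r s) (hr : ∀ d, d ∣ N → r d = d) : σ = sigma0 N ℓ := by
  have hne : ∀ d, d ∣ N → d ≠ 0 := by
    rintro d hd rfl; exact hN (Nat.eq_zero_of_zero_dvd hd)
  have ha : ∀ d, d ∣ N → a d = 1 := by
    intro d
    induction d using Nat.strong_induction_on with
    | _ d ih =>
      intro hd
      by_cases h1 : d = 1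
      · rw [h1, h.1]
      · obtain ⟨k, hk⟩ := Nat.minFac_dvd d
        have hp := Nat.minFac_prime h1
        have hd0 := hne d hd
        have hk0 : k ≠ 0 := by rintro rfl; exact hd0 (by rw [hk, mul_zero])
        have hklt : k < d := by
          have := hp.one_lt
          have hk' : 0 < k := Nat.pos_of_ne_zero hk0
          calc k = 1 * k := (one_mul k).symm
            _ < d.minFac * k := Nat.mul_lt_mul_of_pos_right this hk'
            _ = d := hk.symm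
        have hkd : k ∣ d := Dvd.intro_left _ hk.symm
        have hkN : k ∣ N := hkd.trans hd
        have hpk : d.minFac * k ∣ N := hk ▸ hd
        rcases h.2.2.2 _ k hp hpk with ⟨-, h2⟩ | ⟨h2, -⟩
        · rw [← hk] at h2
          rw [h2, ih k hklt hkN, one_pow]
        · exfalso
          rw [hr _ hpk, hr _ hkN] at h2
          have hpQ : (1 : ℚ) < d.minFac := by exact_mod_cast hp.one_lt
          have hkQ : (0 : ℚ) < k := by exact_mod_cast Nat.pos_of_ne_zero hk0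
          push_cast at h2
          field_simp at h2
          nlinarith
  have hs : ∀ d, d ∣ N → s d = 1 := by
    intro d hd
    have h2 := (h.2.2.1 d hd).2.1
    rw [hr d hd] at h2
    have hdQ : (d : ℚ) ≠ 0 := by exact_mod_cast hne d hd
    have h3 : ((s d : ℚ)) ^ 2 = 1 := by
      have := mul_left_cancel₀ hdQ (h2.trans (mul_one (d : ℚ)).symm)
      exact this
    have h4 : (s d) ^ 2 = 1 := by exact_mod_cast h3
    exact (Nat.pow_eq_one.mp h4).resolve_right (by norm_num)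
  apply ringHom_ext_Fp
  · intro d hd
    rw [(h.2.2.1 d hd).2.2.1, sigma0_jdF N ℓ hd (hne d hd), ha d hd, hr d hd, tauU_one]
  · intro d hd
    have h1 := (h.2.2.1 d hd).2.2.2
    rw [ha d hd, hr d hd, hs d hd, tauU_one, ← sigma0_udF N ℓ hd (hne d hd)] at h1
    have h2 : ev ℓ 1 1 (DqC (EE ℓ)) ≠ 0 := left_ne_zero_of_mul_eq_one (ev_D_mul_Dinv ℓ 1 1)
    refine mul_right_cancel₀ h2 (h1.trans ?_)
    simp

theorem isIntegralElem_zpow {R A : Type*} [CommRing R] [Field A] (f : R →+* A) {x : A}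
    (hx : f.IsIntegralElem x) (hx' : f.IsIntegralElem x⁻¹) (z : ℤ) : f.IsIntegralElem (x ^ z) := by
  let _ : Algebra R A := f.toAlgebra
  have h1 : IsIntegral R x := hx
  have h2 : IsIntegral R x⁻¹ := hx'
  obtain ⟨n, rfl | rfl⟩ := z.eq_nat_or_neg
  · rw [zpow_natCast]; exact h1.pow n
  · rw [zpow_neg, zpow_natCast, ← inv_pow]; exact h2.pow n

theorem isIntegralElem_prod {R A ι : Type*} [CommRing R] [CommRing A] (f : R →+* A)
    (s : Finset ι) (x : ι → A) (hx : ∀ i ∈ s, f.IsIntegralElem (x i)) :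
    f.IsIntegralElem (∏ i ∈ s, x i) := by
  let _ : Algebra R A := f.toAlgebra
  have h : ∀ i ∈ s, IsIntegral R (x i) := hx
  exact IsIntegral.prod x h

/-- the divisor `N / ∏_{p ∈ T} p`. -/
def dT (N : ℕ) (T : Finset ℕ) : ℕ := N / ∏ p ∈ T, p

/-- the exponent `-(-1)^{|T|} ∏_{p ∉ T} p`. -/
def expT (N : ℕ) (T : Finset ℕ) : ℤ := -((-1) ^ T.card * ∏ p ∈ N.primeFactors \ T, (p : ℤ))

theorem dT_dvd (N : ℕ) {T : Finset ℕ} (hT : T ∈ N.primeFactors.powerset) : dT N T ∣ N := by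
  apply Nat.div_dvd_of_dvd
  exact (Finset.prod_dvd_prod_of_subset _ _ _ (Finset.mem_powerset.mp hT)).trans
    (Nat.prod_primeFactors_dvd N)

variable (N ℓ)

/-- the eta quotient. -/
def hh : Fp N := ∏ T ∈ N.primeFactors.powerset, udF N (dT N T) ^ expT N T

theorem main (hN : N ≠ 0) (hℓN : ¬ ℓ ∣ N)
    (hint : ∀ d, d ∣ N → (iT N ℓ (jF N)).IsIntegralElem (udF N d) ∧
      (iT N ℓ (jF N)).IsIntegralElem (udF N d)⁻¹) :
    ∃ h : Fp N, (iT N ℓ (jF N)).IsIntegralElem h ∧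
      ∀ σ : Fp N →+* Omb ℓ, σ (jF N) = iotaB ℓ jq → σ ≠ sigma0 N ℓ →
        ∃ v : VV ℓ, inclV ℓ v = σ h ∧ redV ℓ v ≠ 0 ∧ 0 < (redV ℓ v).order := by
  refine ⟨hh N, ?_, ?_⟩
  · apply isIntegralElem_prod
    intro T hT
    obtain ⟨h1, h2⟩ := hint _ (dT_dvd N hT)
    exact isIntegralElem_zpow _ h1 h2 _
  · intro σ hσ hne
    obtain ⟨a, r, s, hpar⟩ := exists_param N ℓ hN hℓN σ hσ
    have hpar : IsParam N ℓ σ a r s := hpar
    have hpos := hpar.pos hN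
    have hgood : Good ℓ (σ (hh N)) (∑ T ∈ N.primeFactors.powerset, (expT N T : ℚ) * (r (dT N T) - 1)) := by
      unfold hh
      rw [map_prod]
      apply Good.prod
      intro T hT
      have hd := dT_dvd N hT
      obtain ⟨hs1, -, -, hu⟩ := hpar.2.2.1 _ hd
      have hs : ¬ ℓ ∣ s (dT N T) := fun hl => hℓN ((hl.trans hs1).trans hd)
      obtain ⟨g1, g2⟩ := good_u ℓ (hpos _ hd) hs hu
      rw [map_zpow₀]
      exact g1.zpow g2 _
    have hsum : ∑ T ∈ N.primeFactors.powerset,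
        (-1 : ℚ) ^ T.card * (∏ p ∈ N.primeFactors \ T, (p : ℚ)) * r (N / ∏ p ∈ T, p) = 0 := by
      rcases comb_main N hN r hpos hpar.2.1
        (fun p d hp hpd => (hpar.2.2.2 p d hp hpd).imp (fun h => h.1) (fun h => h.1))
        (hpar.hnb hN) with h | h
      · exact absurd (hpar.eq_sigma0 hN h) hne
      · exact h
    have hval : ∑ T ∈ N.primeFactors.powerset, (expT N T : ℚ) * (r (dT N T) - 1) =
        ∏ p ∈ N.primeFactors, ((p : ℚ) - 1) := by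
      rw [← comb_weight N, ← sub_zero (∑ T ∈ N.primeFactors.powerset,
        (-1 : ℚ) ^ T.card * (∏ p ∈ N.primeFactors \ T, (p : ℚ))), ← hsum, ← Finset.sum_sub_distrib]
      refine Finset.sum_congr rfl fun T _ => ?_
      unfold expT dT
      push_cast
      ring
    obtain ⟨v, hv1, hv2, hv3⟩ := hgood
    refine ⟨v, hv1, hv2, ?_⟩
    rw [hv3, hval]
    apply Finset.prod_pos
    intro p hp
    have : (1 : ℚ) < p := by exact_mod_cast (Nat.prime_of_mem_primeFactors hp).one_lt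
    linarith

end Param

end E4

end Fermat.Agent.S28
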