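import Fermat.Agent.S28.EmbD
import Fermat.Agent.S28.Comb
import Fermat.Agent.S28.E1
import Fermat.Agent.S28.E23
import Fermat.Agent.S28.E4

/-!
# S28 work packages E1-E4: consequences of the classification
-/

set_option autoImplicit false
noncomputable section

namespace Fermat.Agent.S28

open ModularCurve

variable (N ℓ : ℕ) [Fact ℓ.Prime]

/-- E1.  The generators (and the inverses of the eta quotients) are integral over `ℤ_(ℓ)[j]`.

PROOF.  For a prime `p ≠ ℓ` and `(a, c) ∈ ℕ²`, `w = g_{a,c}(q^p)/Δ(q)` is integral over `ℤ_(ℓ)[j]`: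
take `P` from `modEq (EE ℓ) p ..`; all roots have coefficients in `W` (`p` is a unit), so every
coefficient `Q ∈ ℚ[Y]` of `P` has `Q(j(T^p))` with coefficients in `W`; by descending induction on the
degree (leading coefficient!, `ratCast_mem_iff`) `Q ∈ ℤ_(ℓ)[Y]`.  So `u_p = w_{0,1}`, `j_p u_p = w_{1,0}` are
integral.  For `(a,c) = (0,1)` the constant term `Q₀(j)` is `± ∏ roots`, of order `0` with leading
coefficient a unit, so `Q₀` is a unit constant, and `u_p⁻¹ ∈ ℤ_(ℓ)[j][u_p]`.  Then `j_p = (j_p u_p) u_p⁻¹`.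
Finally induct along `d → p d` by applying `qE ℚ d` and transitivity of integrality. -/
theorem gens_integral (hN : N ≠ 0) (hℓN : ¬ ℓ ∣ N) (d : ℕ) (hd : d ∣ N) :
    (iT N ℓ (jF N)).IsIntegralElem (jdF N d) ∧ (iT N ℓ (jF N)).IsIntegralElem (udF N d) ∧
      (iT N ℓ (jF N)).IsIntegralElem (udF N d)⁻¹ :=
  e1_gens_integral ℓ N hN hℓN d hd

/-- E2.  `σ(F') ⊆ Frac V`. (The set of such `y` is a subfield of `Ω̄` containing the images of the
generators by `exists_param`, `exists_lift_ev`.) -/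
theorem emb_frac (hN : N ≠ 0) (hℓN : ¬ ℓ ∣ N) (σ : Fp N →+* Omb ℓ)
    (hσ : σ (jF N) = iotaB ℓ jq) (x : Fp N) :
    ∃ b ∈ (inclV ℓ).range, b ≠ 0 ∧ b * σ x ∈ (inclV ℓ).range :=
  e23_emb_frac N ℓ hN hℓN σ hσ x

/-- E3.  Distinct embeddings have distinct reductions.  (If all parameters `(a_d, r_d)` agree then
`σ = τ` on the generators.  Otherwise `x = j(q^d)`: the reductions `phi a r j̄` have different leading
terms `a⁻¹ q^{-r}`.) -/
theorem emb_distinct (hN : N ≠ 0) (hℓN : ¬ ℓ ∣ N) (σ τ : Fp N →+* Omb ℓ)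
    (hσ : σ (jF N) = iotaB ℓ jq) (hτ : τ (jF N) = iotaB ℓ jq) (hne : σ ≠ τ) :
    ∃ (x : Fp N) (v w : VV ℓ), (iT N ℓ (jF N)).IsIntegralElem x ∧
      inclV ℓ v = σ x ∧ inclV ℓ w = τ x ∧ redV ℓ v ≠ redV ℓ w := by
  obtain ⟨d, v, w, hd, hv, hw, hvw⟩ := e23_emb_distinct N ℓ hN hℓN σ τ hσ hτ hne
  exact ⟨jdF N d, v, w, (gens_integral N ℓ hN hℓN d hd).1, hv, hw, hvw⟩

/-- E4.  The eta quotient
`h = ∏_{T ⊆ primeFactors N} u_{N/∏T} ^ (-(-1)^{|T|} ∏_{p ∉ T} p)` is integral, and for `σ ≠ σ₀` the reduction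
of `σ h` is nonzero of positive order `∏_{p ∣ N} (p - 1)`.

PROOF.  `σ(u_d)` lifts to a unit `v_d` of `V` with `redV v_d` of order `r_d - 1`.  Hence the order of the
reduction of `σ h` is `∑_T e_T (r_{N/∏T} - 1)`, which is `∏ (p-1) - ∑_T (-1)^{|T|} (∏_{p∉T} p) r_{N/∏T}`
(`comb_weight`).  Apply `comb_main` to `r` (`hnb`: if `r_{pd} = r_d/p` and `r_{ppd} = p r_{pd}` then
`a_{ppd} = a_{pd}^p = a_d` and `r_{ppd} = r_d`, so `σ(j(q^{ppd})) = σ(j(q^d))`, contradicting injectivity of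
`σ`).  If `r_d = d` for all `d` then all steps are multiplications, `a_d = 1`, `s_d = 1` and `σ = σ₀`. -/
theorem emb_h (hN : N ≠ 0) (hℓN : ¬ ℓ ∣ N) :
    ∃ h : Fp N, (iT N ℓ (jF N)).IsIntegralElem h ∧
      ∀ σ : Fp N →+* Omb ℓ, σ (jF N) = iotaB ℓ jq → σ ≠ sigma0 N ℓ →
        ∃ v : VV ℓ, inclV ℓ v = σ h ∧ redV ℓ v ≠ 0 ∧ 0 < (redV ℓ v).order :=
  E4.main N ℓ hN hℓN fun d hd => (gens_integral N ℓ hN hℓN d hd).2

end Fermat.Agent.S28
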