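import Mathlib
import Fermat.Prelude.Def_ModularCurve_IgusaScheme
import Fermat.Prelude.Def_ModularCurve_X0ModL

/-!
# S28 (Igusa): shared definitions

Everything here is a *definition* (no sorry).  All S28 work packages import this file.
-/

set_option autoImplicit false
noncomputable section

namespace Fermat.Agent.S28

open ModularCurve

/-! ## Hahn series: coefficient subrings, coefficientwise maps -/

section Hahn

variable {Γ : Type*} [AddCommMonoid Γ] [PartialOrder Γ] [IsOrderedCancelAddMonoid Γ]

/-- coefficientwise ring hom on Hahn series (general exponent group). -/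
def hmap {R S : Type*} [CommRing R] [CommRing S] (f : R →+* S) :
    HahnSeries Γ R →+* HahnSeries Γ S where
  toFun x := x.map f
  map_zero' := by ext k; simp
  map_one' := by ext k; simp [HahnSeries.coeff_one, apply_ite f]
  map_add' x y := by ext k; simp
  map_mul' x y := by
    have h := HahnSeries.map_mul (f := (f : R →ₙ+* S)) (x := x) (y := y)
    have hx : ∀ z : HahnSeries Γ R, z.map (f : R →ₙ+* S) = z.map f := fun z =>
      HahnSeries.ext rfl
    rwa [hx, hx, hx] at h

@[simp] theorem hmap_coeff {R S : Type*} [CommRing R] [CommRing S] (f : R →+* S)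
    (x : HahnSeries Γ R) (k : Γ) : (hmap f x).coeff k = f (x.coeff k) := rfl

/-- Hahn series all of whose coefficients lie in the subring `S`. -/
def coeffSubring {E : Type*} [CommRing E] (S : Subring E) : Subring (HahnSeries Γ E) :=
  (hmap (Γ := Γ) S.subtype).range

theorem hmap_injective {R S : Type*} [CommRing R] [CommRing S] (f : R →+* S)
    (hf : Function.Injective f) : Function.Injective (hmap (Γ := Γ) f) := by
  intro x y h
  ext k
  exact hf (by simpa using congrArg (fun z => HahnSeries.coeff z k) h)

/-- `HahnSeries Γ S ≃ coeffSubring S`. -/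
def coeffEquiv {E : Type*} [CommRing E] (S : Subring E) :
    HahnSeries Γ S ≃+* coeffSubring (Γ := Γ) S :=
  RingEquiv.ofBijective (hmap (Γ := Γ) S.subtype).rangeRestrict
    ⟨fun x y h => hmap_injective _ Subtype.val_injective (congrArg Subtype.val h),
      RingHom.rangeRestrict_surjective _⟩

/-- coefficientwise reduction of a series with coefficients in `S`. -/
def redH {E k : Type*} [CommRing E] [CommRing k] (S : Subring E) (res : S →+* k) :
    coeffSubring (Γ := Γ) S →+* HahnSeries Γ k :=
  (hmap res).comp (coeffEquiv S).symm.toRingHom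

end Hahn

/-- `S ⊆ E` is a discrete valuation ring of the field `E` with uniformiser `ϖ`
(elementary formulation). -/
structure IsDVRIn {E : Type*} [Field E] (S : Subring E) (ϖ : E) : Prop where
  mem : ϖ ∈ S
  inv_mem : ∀ x : E, x ∉ S → ∃ y ∈ S, x⁻¹ = ϖ * y
  sep : ∀ x : E, (∀ n : ℕ, ∃ y ∈ S, x = ϖ ^ n * y) → x = 0

/-! ## Substitutions `T ↦ ξ q^r` -/

section Subst

variable {K : Type*} [CommRing K]

/-- `x(T) ↦ x(ξ T)` on Laurent series. -/
def twist (ξ : Kˣ) : LaurentSeries K →+* LaurentSeries K where
  toFun x := HahnSeries.mk (fun n => ((ξ ^ n : Kˣ) : K) * x.coeff n)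
    (x.isPWO_support.mono (fun n hn => by
      simp only [Function.mem_support, ne_eq] at hn
      exact fun h => hn (by rw [h, mul_zero])))
  map_zero' := by ext n; simp
  map_one' := by
    ext n
    by_cases h : n = 0
    · subst h; simp
    · simp [HahnSeries.coeff_one, h]
  map_add' x y := by ext n; simp [mul_add]
  map_mul' x y := by
    ext n
    simp only [HahnSeries.coeff_mul, Finset.mul_sum]
    symm
    refine Finset.sum_subset_zero_on_sdiff ?_ ?_ ?_
    · intro ij hij
      simp only [Finset.mem_antidiagonal, HahnSeries.mem_support] at hij ⊢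
      refine ⟨fun h => hij.1 (by simp [h]), fun h => hij.2.1 (by simp [h]), hij.2.2⟩
    · intro ij hij
      simp only [Finset.mem_sdiff, Finset.mem_antidiagonal, HahnSeries.mem_support,
        not_and] at hij
      obtain ⟨⟨h1, h2, h3⟩, h4⟩ := hij
      exfalso
      have h1' : ((ξ ^ ij.1 : Kˣ) : K) * x.coeff ij.1 ≠ 0 := by
        simpa using h1
      have h2' : ((ξ ^ ij.2 : Kˣ) : K) * y.coeff ij.2 ≠ 0 := by
        simpa using h2
      exact absurd h3 (h4 h1' h2')
    · intro ij hij
      simp only [Finset.mem_antidiagonal] at hij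
      rw [← hij.2.2, zpow_add, Units.val_mul]
      ring

@[simp] theorem twist_coeff (ξ : Kˣ) (x : LaurentSeries K) (n : ℤ) :
    (twist ξ x).coeff n = ((ξ ^ n : Kˣ) : K) * x.coeff n := rfl

/-- `x(T) ↦ x(q^r)`, from Laurent series to Hahn series with rational exponents; junk (`r = 1`)
if `r ≤ 0`. -/
def scale (r : ℚ) : LaurentSeries K →+* HahnSeries ℚ K :=
  if hr : 0 < r then
    HahnSeries.embDomainRingHom ((AddMonoidHom.mulLeft r).comp (Int.castAddHom ℚ))
      (fun a b h => by
        have : r * (a : ℚ) = r * (b : ℚ) := h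
        exact_mod_cast mul_left_cancel₀ hr.ne' this)
      (fun a b => by
        show r * (a : ℚ) ≤ r * (b : ℚ) ↔ a ≤ b
        rw [mul_le_mul_iff_of_pos_left hr]; exact_mod_cast Iff.rfl)
  else
    HahnSeries.embDomainRingHom (Int.castAddHom ℚ) Int.cast_injective
      (fun a b => by show (a : ℚ) ≤ (b : ℚ) ↔ a ≤ b; exact_mod_cast Iff.rfl)

/-- the substitution `T ↦ ξ q^r`. -/
def phi (ξ : Kˣ) (r : ℚ) : LaurentSeries K →+* HahnSeries ℚ K := (scale r).comp (twist ξ)

/-- total version of the prelude's `qExpand` (`q ↦ q^d`); identity if `d = 0`. -/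
def qE (K : Type*) [CommRing K] (d : ℕ) : LaurentSeries K →+* LaurentSeries K :=
  if h : d = 0 then RingHom.id _ else @qExpand K _ d ⟨h⟩

theorem qE_eq (d : ℕ) [NeZero d] : qE K d = qExpand K d := by
  unfold qE; rw [dif_neg (NeZero.ne d)]

end Subst

/-! ## The formal modular forms -/

section Forms

variable (K : Type*) [CommRing K]

/-- `Δ = q ∏ (1 - q^n)^24` as a Laurent series over `K`. -/
def DqC : LaurentSeries K :=
  HahnSeries.single (1 : ℤ) 1 *
    HahnSeries.ofPowerSeries ℤ K (dedekindEtaUnit.map (Int.castRingHom K))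

/-- `1/Δ` as a Laurent series over `K`. -/
def DqInvC : LaurentSeries K :=
  HahnSeries.single (-1 : ℤ) 1 *
    HahnSeries.ofPowerSeries ℤ K (dedekindEtaUnitInv.map (Int.castRingHom K))

/-- `E₄^3` as a Laurent series over `K`. -/
def E4cC : LaurentSeries K :=
  HahnSeries.ofPowerSeries ℤ K ((eisenstein4 ^ 3).map (Int.castRingHom K))

/-- the weight 12 form `a E₄^3 + c Δ`. -/
def gqC (a c : ℕ) : LaurentSeries K := (a : LaurentSeries K) * E4cC K + (c : LaurentSeries K) * DqC K

end Forms

end Fermat.Agent.S28
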