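import Fermat.Agent.S28.Defs

/-!
# S28 work package C1: toolkit for the substitutions `T ↦ ξ q^r` and the formal modular forms
(sections General and Field)
-/

set_option autoImplicit false
noncomputable section

namespace Fermat.Agent.S28

open ModularCurve

section General

variable {K K' : Type*} [CommRing K] [CommRing K']

theorem scale_coeff {r : ℚ} (hr : 0 < r) (x : LaurentSeries K) (n : ℤ) :
    (scale r x).coeff (r * n) = x.coeff n := by
  unfold scale
  rw [dif_pos hr]
  exact HahnSeries.embDomain_coeff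

theorem scale_coeff_of_forall_ne {r : ℚ} (hr : 0 < r) (x : LaurentSeries K) (γ : ℚ)
    (h : ∀ n : ℤ, γ ≠ r * n) : (scale r x).coeff γ = 0 := by
  unfold scale
  rw [dif_pos hr]
  refine HahnSeries.embDomain_of_notMem_range ?_
  rintro ⟨m, rfl⟩
  exact h m rfl

theorem phi_coeff (ξ : Kˣ) {r : ℚ} (hr : 0 < r) (x : LaurentSeries K) (n : ℤ) :
    (phi ξ r x).coeff (r * n) = ((ξ ^ n : Kˣ) : K) * x.coeff n := by
  show (scale r (twist ξ x)).coeff (r * n) = _
  rw [scale_coeff hr, twist_coeff]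

theorem phi_coeff_of_forall_ne (ξ : Kˣ) {r : ℚ} (hr : 0 < r) (x : LaurentSeries K) (γ : ℚ)
    (h : ∀ n : ℤ, γ ≠ r * n) : (phi ξ r x).coeff γ = 0 :=
  scale_coeff_of_forall_ne hr _ γ h

theorem c1_scale_injective (r : ℚ) : Function.Injective (scale (K := K) r) := by
  unfold scale
  split_ifs with hr
  · exact HahnSeries.embDomain_injective
  · exact HahnSeries.embDomain_injective

theorem c1_twist_injective (ξ : Kˣ) : Function.Injective (twist ξ) := by
  intro x y h
  ext n
  have := congrArg (fun z => HahnSeries.coeff z n) h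
  simp only [twist_coeff] at this
  exact (Units.mul_right_inj _).1 this

theorem phi_injective (ξ : Kˣ) (r : ℚ) : Function.Injective (phi ξ r) :=
  (c1_scale_injective r).comp (c1_twist_injective ξ)

theorem c1_qE_coeff_mul {m : ℕ} (hm : m ≠ 0) (x : LaurentSeries K) (k : ℤ) :
    (qE K m x).coeff ((m : ℤ) * k) = x.coeff k := by
  have : NeZero m := ⟨hm⟩
  rw [qE_eq, qExpand_coeff_mul]

theorem c1_qE_coeff_of_not_dvd {m : ℕ} (hm : m ≠ 0) (x : LaurentSeries K) {k : ℤ}
    (hk : ¬ (m : ℤ) ∣ k) : (qE K m x).coeff k = 0 := by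
  have : NeZero m := ⟨hm⟩
  rw [qE_eq, qExpand_coeff_of_not_dvd _ _ hk]

/-- composition law: `T ↦ c T ↦ c T^m ↦ c ξ^m q^{m r}`. -/
theorem phi_qE_twist (ξ c : Kˣ) {r : ℚ} (hr : 0 < r) {m : ℕ} (hm : m ≠ 0) (x : LaurentSeries K) :
    phi ξ r (qE K m (twist c x)) = phi (c * ξ ^ m) (m * r) x := by
  have hm' : (0 : ℚ) < m := by exact_mod_cast Nat.pos_of_ne_zero hm
  have hmr : (0 : ℚ) < m * r := mul_pos hm' hr
  ext γ
  by_cases h1 : ∃ n : ℤ, γ = (m * r) * n
  · obtain ⟨n, rfl⟩ := h1
    rw [phi_coeff _ hmr]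
    have : (m * r : ℚ) * n = r * (((m : ℤ) * n : ℤ) : ℚ) := by push_cast; ring
    rw [this, phi_coeff _ hr, c1_qE_coeff_mul hm, twist_coeff, ← mul_assoc, ← Units.val_mul]
    congr 2
    rw [mul_zpow, mul_comm, zpow_mul, zpow_natCast]
  · push Not at h1
    rw [phi_coeff_of_forall_ne _ hmr _ _ h1]
    by_cases h2 : ∃ k : ℤ, γ = r * k
    · obtain ⟨k, rfl⟩ := h2
      rw [phi_coeff _ hr, c1_qE_coeff_of_not_dvd hm, mul_zero]
      rintro ⟨n, rfl⟩
      exact h1 n (by push_cast; ring)
    · push Not at h2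
      rw [phi_coeff_of_forall_ne _ hr _ _ h2]

theorem twist_one (x : LaurentSeries K) : twist (1 : Kˣ) x = x := by
  ext n; simp

theorem phi_qE (ξ : Kˣ) {r : ℚ} (hr : 0 < r) {m : ℕ} (hm : m ≠ 0) (x : LaurentSeries K) :
    phi ξ r (qE K m x) = phi (ξ ^ m) (m * r) x := by
  have := phi_qE_twist ξ 1 hr hm x
  rwa [twist_one, one_mul] at this

theorem phi_twist (ξ c : Kˣ) (r : ℚ) (x : LaurentSeries K) :
    phi ξ r (twist c x) = phi (c * ξ) r x := by
  show scale r (twist ξ (twist c x)) = scale r (twist (c * ξ) x)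
  congr 1
  ext n
  simp only [twist_coeff, mul_zpow, Units.val_mul]
  ring

theorem qE_qE (m n : ℕ) (hm : m ≠ 0) (hn : n ≠ 0) (x : LaurentSeries K) :
    qE K m (qE K n x) = qE K (m * n) x := by
  have : NeZero m := ⟨hm⟩
  have : NeZero n := ⟨hn⟩
  rw [qE_eq, qE_eq, qE_eq, qExpand_qExpand]

theorem qE_injective (m : ℕ) : Function.Injective (qE K m) := by
  by_cases hm : m = 0
  · subst hm
    unfold qE
    rw [dif_pos rfl]
    exact Function.injective_id
  · have : NeZero m := ⟨hm⟩
    rw [qE_eq]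
    exact qExpand_injective m

theorem c1_map_embDomain {Γ Γ' : Type*} [PartialOrder Γ] [PartialOrder Γ'] (f : K →+* K')
    (e : Γ ↪o Γ') (x : HahnSeries Γ K) :
    (HahnSeries.embDomain e x).map f = HahnSeries.embDomain e (x.map f) := by
  ext γ
  by_cases h : γ ∈ Set.range e
  · obtain ⟨a, rfl⟩ := h
    rw [HahnSeries.map_coeff, HahnSeries.embDomain_coeff, HahnSeries.embDomain_coeff,
      HahnSeries.map_coeff]
  · rw [HahnSeries.map_coeff, HahnSeries.embDomain_of_notMem_range h,
      HahnSeries.embDomain_of_notMem_range h, map_zero]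

theorem c1_hmap_scale (f : K →+* K') (r : ℚ) (x : LaurentSeries K) :
    hmap f (scale r x) = scale r (coeffMap f x) := by
  unfold scale
  split_ifs with hr
  · exact c1_map_embDomain f _ x
  · exact c1_map_embDomain f _ x

theorem coeffMap_twist (f : K →+* K') (ξ : Kˣ) (x : LaurentSeries K) :
    coeffMap f (twist ξ x) = twist (Units.map (f : K →* K') ξ) (coeffMap f x) := by
  ext n
  simp only [coeffMap_coeff, twist_coeff, map_mul, ← map_zpow]
  rfl

/-- naturality in the coefficients. -/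
theorem hmap_phi (f : K →+* K') (ξ : Kˣ) (r : ℚ) (x : LaurentSeries K) :
    hmap f (phi ξ r x) = phi (Units.map (f : K →* K') ξ) r (coeffMap f x) := by
  show hmap f (scale r (twist ξ x)) = scale r (twist _ (coeffMap f x))
  rw [c1_hmap_scale, coeffMap_twist]

theorem coeffMap_qE (f : K →+* K') (m : ℕ) (x : LaurentSeries K) :
    coeffMap f (qE K m x) = qE K' m (coeffMap f x) := by
  by_cases hm : m = 0
  · subst hm
    unfold qE
    rw [dif_pos rfl, dif_pos rfl]
    rfl
  · ext k
    by_cases hk : (m : ℤ) ∣ k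
    · obtain ⟨j, rfl⟩ := hk
      rw [coeffMap_coeff, c1_qE_coeff_mul hm, c1_qE_coeff_mul hm, coeffMap_coeff]
    · rw [coeffMap_coeff, c1_qE_coeff_of_not_dvd hm _ hk, c1_qE_coeff_of_not_dvd hm _ hk, map_zero]

theorem c1_coeffMap_ofPowerSeries (f : K →+* K') (u : PowerSeries K) :
    coeffMap f (HahnSeries.ofPowerSeries ℤ K u) = HahnSeries.ofPowerSeries ℤ K' (u.map f) := by
  ext k
  rw [coeffMap_coeff]
  rcases le_or_gt 0 k with hk | hk
  · lift k to ℕ using hk
    rw [HahnSeries.ofPowerSeries_apply_coeff, HahnSeries.ofPowerSeries_apply_coeff,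
      PowerSeries.coeff_map]
  · rw [ofPowerSeries_coeff_of_neg _ hk, ofPowerSeries_coeff_of_neg _ hk, map_zero]

theorem c1_map_map_intCast (f : K →+* K') (u : PowerSeries ℤ) :
    (u.map (Int.castRingHom K)).map f = u.map (Int.castRingHom K') := by
  ext n
  simp

theorem coeffMap_DqC (f : K →+* K') : coeffMap f (DqC K) = DqC K' := by
  unfold DqC
  rw [map_mul, coeffMap_single, map_one, c1_coeffMap_ofPowerSeries, c1_map_map_intCast]

theorem coeffMap_DqInvC (f : K →+* K') : coeffMap f (DqInvC K) = DqInvC K' := by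
  unfold DqInvC
  rw [map_mul, coeffMap_single, map_one, c1_coeffMap_ofPowerSeries, c1_map_map_intCast]

theorem coeffMap_E4cC (f : K →+* K') : coeffMap f (E4cC K) = E4cC K' := by
  unfold E4cC
  rw [c1_coeffMap_ofPowerSeries, c1_map_map_intCast]

theorem coeffMap_gqC (f : K →+* K') (a c : ℕ) : coeffMap f (gqC K a c) = gqC K' a c := by
  unfold gqC
  rw [map_add, map_mul, map_mul, coeffMap_E4cC, coeffMap_DqC, map_natCast, map_natCast]

variable (K)

theorem DqC_mul_DqInvC : DqC K * DqInvC K = 1 := by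
  unfold DqC DqInvC
  rw [mul_mul_mul_comm, HahnSeries.single_mul_single, ← map_mul, ← map_mul,
    dedekindEtaUnit_mul_inv, map_one, map_one, mul_one, mul_one]
  rfl

theorem jqModC_mul_DqC : jqModC K * DqC K = E4cC K := by
  unfold DqC jqModC E4cC
  rw [mul_mul_mul_comm, HahnSeries.single_mul_single, ← map_mul, ← map_mul, jNum, mul_assoc,
    mul_comm dedekindEtaUnitInv, dedekindEtaUnit_mul_inv, mul_one, mul_one]
  exact one_mul _

theorem gqC_eq (a c : ℕ) :
    gqC K a c = ((a : LaurentSeries K) * jqModC K + (c : LaurentSeries K)) * DqC K := by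
  unfold gqC
  rw [← jqModC_mul_DqC]
  ring

theorem jqModC_rat_eq : jqModC ℚ = jq := rfl

end General

section Field

variable {K : Type*} [Field K]

theorem c1_order_eq {Γ : Type*} [LinearOrder Γ] [Zero Γ] {y : HahnSeries Γ K} {g : Γ}
    (h1 : y.coeff g ≠ 0) (h2 : ∀ g' < g, y.coeff g' = 0) : y.order = g := by
  apply le_antisymm (HahnSeries.order_le_of_coeff_ne_zero h1)
  by_contra h
  push Not at h
  have hy : y ≠ 0 := HahnSeries.ne_zero_of_coeff_ne_zero h1
  exact (HahnSeries.coeff_order_eq_zero.not.2 hy) (h2 _ h)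

theorem order_phi (ξ : Kˣ) {r : ℚ} (hr : 0 < r) (x : LaurentSeries K) :
    (phi ξ r x).order = r * x.order := by
  by_cases hx : x = 0
  · subst hx; simp
  · apply c1_order_eq
    · rw [phi_coeff _ hr]
      exact mul_ne_zero (Units.ne_zero _) (HahnSeries.coeff_order_eq_zero.not.2 hx)
    · intro γ hγ
      by_cases h : ∃ n : ℤ, γ = r * n
      · obtain ⟨n, rfl⟩ := h
        have hn : n < x.order := by
          have := lt_of_mul_lt_mul_left hγ hr.le
          exact_mod_cast this
        rw [phi_coeff _ hr, HahnSeries.coeff_eq_zero_of_lt_order hn, mul_zero]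
      · push Not at h
        exact phi_coeff_of_forall_ne _ hr _ _ h

theorem leadingCoeff_phi (ξ : Kˣ) {r : ℚ} (hr : 0 < r) (x : LaurentSeries K) :
    (phi ξ r x).leadingCoeff = ((ξ ^ x.order : Kˣ) : K) * x.leadingCoeff := by
  rw [HahnSeries.leadingCoeff_eq, HahnSeries.leadingCoeff_eq, order_phi _ hr, phi_coeff _ hr]

variable (K)

theorem c1_coeff_single_mul_ofPS (a : ℤ) (u : PowerSeries K) (hu : PowerSeries.constantCoeff u = 1) :
    (HahnSeries.single a (1 : K) * HahnSeries.ofPowerSeries ℤ K u).coeff a = 1 ∧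
      ∀ g' < a, (HahnSeries.single a (1 : K) * HahnSeries.ofPowerSeries ℤ K u).coeff g' = 0 := by
  constructor
  · rw [HahnSeries.coeff_single_mul, one_mul, sub_self, show (0 : ℤ) = ((0 : ℕ) : ℤ) from rfl,
      HahnSeries.ofPowerSeries_apply_coeff, PowerSeries.coeff_zero_eq_constantCoeff, hu]
  · intro g' hg'
    rw [HahnSeries.coeff_single_mul, one_mul]
    exact ofPowerSeries_coeff_of_neg _ (by omega)

theorem c1_constantCoeff_map (u : PowerSeries ℤ) (hu : PowerSeries.constantCoeff u = 1) :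
    PowerSeries.constantCoeff (u.map (Int.castRingHom K)) = 1 := by
  rw [← PowerSeries.coeff_zero_eq_constantCoeff, PowerSeries.coeff_map,
    PowerSeries.coeff_zero_eq_constantCoeff, hu]
  simp

theorem order_DqC : (DqC K).order = 1 := by
  obtain ⟨h1, h2⟩ := c1_coeff_single_mul_ofPS K 1 _
    (c1_constantCoeff_map K _ constantCoeff_dedekindEtaUnit)
  exact c1_order_eq (by rw [DqC, h1]; exact one_ne_zero) h2

theorem leadingCoeff_DqC : (DqC K).leadingCoeff = 1 := by
  rw [HahnSeries.leadingCoeff_eq, order_DqC]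
  exact (c1_coeff_single_mul_ofPS K 1 _
    (c1_constantCoeff_map K _ constantCoeff_dedekindEtaUnit)).1

theorem order_jqModC : (jqModC K).order = -1 := by
  obtain ⟨h1, h2⟩ := c1_coeff_single_mul_ofPS K (-1) _
    (c1_constantCoeff_map K _ constantCoeff_jNum)
  exact c1_order_eq (by rw [jqModC, h1]; exact one_ne_zero) h2

theorem leadingCoeff_jqModC : (jqModC K).leadingCoeff = 1 := by
  rw [HahnSeries.leadingCoeff_eq, order_jqModC]
  exact (c1_coeff_single_mul_ofPS K (-1) _
    (c1_constantCoeff_map K _ constantCoeff_jNum)).1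

theorem DqC_ne_zero : DqC K ≠ 0 := by
  rw [← HahnSeries.leadingCoeff_ne_zero, leadingCoeff_DqC]
  exact one_ne_zero

theorem DqC_inv : (DqC K)⁻¹ = DqInvC K :=
  inv_eq_of_mul_eq_one_right (DqC_mul_DqInvC K)

theorem c1_phi_jqModC_ne_zero (ξ : Kˣ) (r : ℚ) : phi ξ r (jqModC K) ≠ 0 := by
  rw [Ne, map_eq_zero_iff _ (phi_injective ξ r), ← Ne, ← HahnSeries.leadingCoeff_ne_zero,
    leadingCoeff_jqModC]
  exact one_ne_zero

/-- a nonzero polynomial in `j` has order `- degree ≤ 0`. -/
theorem order_aeval_jqModC_phi (ξ : Kˣ) {r : ℚ} (hr : 0 < r) (P : Polynomial K) (hP : P ≠ 0) :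
    (Polynomial.eval₂ HahnSeries.C (phi ξ r (jqModC K)) P).order = - (r * P.natDegree) ∧
      Polynomial.eval₂ HahnSeries.C (phi ξ r (jqModC K)) P ≠ 0 := by
  have hJ := c1_phi_jqModC_ne_zero K ξ r
  have hJo : (phi ξ r (jqModC K)).order = -r := by
    rw [order_phi _ hr, order_jqModC]; push_cast; ring
  induction hd : P.natDegree using Nat.strong_induction_on generalizing P with
  | _ d ih =>
    have ha : P.leadingCoeff ≠ 0 := Polynomial.leadingCoeff_ne_zero.2 hP
    have hCa : (HahnSeries.C P.leadingCoeff : HahnSeries ℚ K) ≠ 0 :=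
      HahnSeries.C_ne_zero ha
    have ht : (HahnSeries.C P.leadingCoeff : HahnSeries ℚ K) * phi ξ r (jqModC K) ^ d ≠ 0 :=
      mul_ne_zero hCa (pow_ne_zero _ hJ)
    have hto : ((HahnSeries.C P.leadingCoeff : HahnSeries ℚ K) * phi ξ r (jqModC K) ^ d).order
        = -(r * d) := by
      rw [HahnSeries.order_mul hCa (pow_ne_zero _ hJ), HahnSeries.order_C, HahnSeries.order_pow,
        hJo, nsmul_eq_mul]
      ring
    have hdec : Polynomial.eval₂ HahnSeries.C (phi ξ r (jqModC K)) P =
        Polynomial.eval₂ HahnSeries.C (phi ξ r (jqModC K)) P.eraseLead +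
          (HahnSeries.C P.leadingCoeff : HahnSeries ℚ K) * phi ξ r (jqModC K) ^ d := by
      conv_lhs => rw [← Polynomial.eraseLead_add_C_mul_X_pow P]
      rw [Polynomial.eval₂_add, Polynomial.eval₂_mul, Polynomial.eval₂_C, Polynomial.eval₂_pow,
        Polynomial.eval₂_X, hd]
    rcases Polynomial.eraseLead_natDegree_lt_or_eraseLead_eq_zero P with hlt | h0
    · by_cases hQ : P.eraseLead = 0
      · rw [hdec, hQ, Polynomial.eval₂_zero, zero_add]
        exact ⟨hto, ht⟩
      · obtain ⟨h1, h2⟩ := ih _ (hd ▸ hlt) _ hQ rfl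
        have hlt' : ((HahnSeries.C P.leadingCoeff : HahnSeries ℚ K) *
            phi ξ r (jqModC K) ^ d).orderTop <
            (Polynomial.eval₂ HahnSeries.C (phi ξ r (jqModC K)) P.eraseLead).orderTop := by
          rw [← HahnSeries.order_eq_orderTop_of_ne_zero ht,
            ← HahnSeries.order_eq_orderTop_of_ne_zero h2, h1, hto, WithTop.coe_lt_coe]
          have : (P.eraseLead.natDegree : ℚ) < d := by exact_mod_cast (hd ▸ hlt)
          nlinarith
        have hsum := HahnSeries.orderTop_add_eq_right hlt'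
        have hne : Polynomial.eval₂ HahnSeries.C (phi ξ r (jqModC K)) P ≠ 0 := by
          rw [hdec, ← HahnSeries.orderTop_ne_top, hsum, HahnSeries.orderTop_ne_top]
          exact ht
        refine ⟨?_, hne⟩
        have : ((Polynomial.eval₂ HahnSeries.C (phi ξ r (jqModC K)) P).order : WithTop ℚ)
            = ((-(r * d) : ℚ) : WithTop ℚ) := by
          rw [HahnSeries.order_eq_orderTop_of_ne_zero hne, hdec, hsum,
            ← HahnSeries.order_eq_orderTop_of_ne_zero ht, hto]
        exact WithTop.coe_injective this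
    · rw [hdec, h0, Polynomial.eval₂_zero, zero_add]
      exact ⟨hto, ht⟩

/-- a nonzero polynomial in `1/j` is nonzero. -/
theorem aeval_inv_jqModC_phi_ne_zero (ξ : Kˣ) {r : ℚ} (hr : 0 < r) (P : Polynomial K)
    (hP : P ≠ 0) : Polynomial.eval₂ HahnSeries.C (phi ξ r (jqModC K))⁻¹ P ≠ 0 := by
  have hJ := c1_phi_jqModC_ne_zero K ξ r
  let _ : Invertible (phi ξ r (jqModC K))⁻¹ := invertibleOfNonzero (inv_ne_zero hJ)
  have h := Polynomial.eval₂_reverse_mul_pow (HahnSeries.C (Γ := ℚ)) (phi ξ r (jqModC K))⁻¹ P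
  rw [invOf_eq_inv, inv_inv] at h
  rw [← h]
  refine mul_ne_zero (order_aeval_jqModC_phi K ξ hr _ ?_).2 (pow_ne_zero _ (inv_ne_zero hJ))
  rwa [Ne, Polynomial.reverse_eq_zero]

end Field

end Fermat.Agent.S28
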