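import Mathlib

/-!
# S28 work package F1: embeddings, trace and conjugates, in an instance-free formulation
-/

set_option autoImplicit false
noncomputable section

namespace Fermat.Agent.S28

open Polynomial

section F1abstract

variable {A K L E : Type*} [CommRing A] [IsDomain A] [IsIntegrallyClosed A] [Field K]
  [Algebra A K] [IsFractionRing A K] [Field L] [Algebra K L] [Algebra A L] [IsScalarTower A K L]
  [FiniteDimensional K L] [CharZero K] [Field E] [IsAlgClosed E] [Algebra K E] [Algebra A E]
  [IsScalarTower A K E]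

omit [IsDomain A] in
theorem f1_exists_trace (z : L) (hz : IsIntegral A z) :
    ∃ t : A, ∑ σ : L →ₐ[K] E, σ z = algebraMap A E t := by
  have h1 : IsIntegral A (Algebra.trace K L z) := Algebra.isIntegral_trace hz
  obtain ⟨t, ht⟩ := IsIntegrallyClosed.isIntegral_iff.mp h1
  refine ⟨t, ?_⟩
  rw [← trace_eq_sum_embeddings E, ← ht, ← IsScalarTower.algebraMap_apply]

theorem f1_exists_multiset_map {α β : Type*} (f : α → β) (m : Multiset β)
    (h : ∀ b ∈ m, ∃ a, f a = b) : ∃ s : Multiset α, s.map f = m := by
  induction m using Multiset.induction_on with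
  | empty => exact ⟨0, rfl⟩
  | cons b m ih =>
    obtain ⟨s, hs⟩ := ih fun c hc => h c (Multiset.mem_cons_of_mem hc)
    obtain ⟨a, ha⟩ := h b (Multiset.mem_cons_self b m)
    exact ⟨a ::ₘ s, by rw [Multiset.map_cons, ha, hs]⟩

omit [CharZero K] in
theorem f1_exists_minpoly_factor (x : L) (hx : IsIntegral A x) :
    ∃ (P : A[X]) (s : Multiset (L →ₐ[K] E)), P.Monic ∧ aeval x P = 0 ∧
      P.map (algebraMap A E) = (s.map fun σ => X - C (σ x)).prod := by
  have hmap : minpoly K x = (minpoly A x).map (algebraMap A K) :=
    minpoly.isIntegrallyClosed_eq_field_fractions' K hx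
  have hmonic : (minpoly A x).Monic := minpoly.monic hx
  set Q : E[X] := (minpoly A x).map (algebraMap A E) with hQ
  have hQK : Q = (minpoly K x).map (algebraMap K E) := by
    rw [hmap, Polynomial.map_map, ← IsScalarTower.algebraMap_eq]
  have hQmonic : Q.Monic := hmonic.map _
  have hsplit : Q.Splits := IsAlgClosed.splits Q
  have hroots : ∀ r ∈ Q.roots, ∃ σ : L →ₐ[K] E, σ x = r := by
    intro r hr
    have hr' : r ∈ (minpoly K x).rootSet E := by
      rw [Polynomial.rootSet, Polynomial.aroots, ← hQK]
      simpa using hr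
    rw [← (Algebra.IsAlgebraic.of_finite K L).range_eval_eq_rootSet_minpoly E x] at hr'
    exact hr'
  obtain ⟨s, hs⟩ := f1_exists_multiset_map (fun σ : L →ₐ[K] E => σ x) Q.roots hroots
  refine ⟨minpoly A x, s, hmonic, minpoly.aeval A x, ?_⟩
  have h2 : (s.map fun σ => X - C (σ x)) = (Q.roots.map fun a => X - C a) := by
    rw [← hs, Multiset.map_map]; rfl
  rw [h2]
  exact (hsplit.eq_prod_roots_of_monic hQmonic)

end F1abstract

variable {𝔸 F Ωb : Type*} [CommRing 𝔸] [Field F] [Field Ωb]

/-- ring embeddings of `F` into `Ωb` extending `e` along `i`. -/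
def Emb (i : 𝔸 →+* F) (e : 𝔸 →+* Ωb) : Type _ := {σ : F →+* Ωb // σ.comp i = e}

section F1setup

variable (i : 𝔸 →+* F) (e : 𝔸 →+* Ωb)

/-- the corestriction of `i` to the subfield generated by its range. -/
def f1_cod : 𝔸 →+* Subfield.closure (Set.range i) :=
  i.codRestrict (Subfield.closure (Set.range i)) fun a => Subfield.subset_closure ⟨a, rfl⟩

theorem f1_cod_coe (a : 𝔸) : ((f1_cod i a : Subfield.closure (Set.range i)) : F) = i a := rfl

theorem f1_cod_injective (hi : Function.Injective i) : Function.Injective (f1_cod i) := by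
  intro a b hab
  exact hi (congrArg Subtype.val hab)

theorem f1_isFractionRing (hi : Function.Injective i) :
    @IsFractionRing 𝔸 _ (Subfield.closure (Set.range i)) _ (f1_cod i).toAlgebra := by
  let _ : Algebra 𝔸 (Subfield.closure (Set.range i)) := (f1_cod i).toAlgebra
  have : FaithfulSMul 𝔸 (Subfield.closure (Set.range i)) :=
    (faithfulSMul_iff_algebraMap_injective _ _).mpr (f1_cod_injective i hi)
  refine IsFractionRing.of_field 𝔸 _ ?_
  rintro ⟨z, hz⟩
  obtain ⟨y, hy, w, hw, rfl⟩ := Subfield.mem_closure_iff.mp hz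
  have hcl : Subring.closure (Set.range i) = i.range := by
    rw [← RingHom.coe_range, Subring.closure_eq]
  rw [hcl] at hy hw
  obtain ⟨a, rfl⟩ := hy
  obtain ⟨b, rfl⟩ := hw
  refine ⟨a, b, ?_⟩
  apply Subtype.ext
  rfl

/-- the extension of `e` to the subfield generated by the range of `i`. -/
def f1_lift (hi : Function.Injective i) (he : Function.Injective e) :
    Subfield.closure (Set.range i) →+* Ωb :=
  letI : Algebra 𝔸 (Subfield.closure (Set.range i)) := (f1_cod i).toAlgebra
  haveI := f1_isFractionRing i hi
  IsFractionRing.lift he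

theorem f1_lift_cod (hi : Function.Injective i) (he : Function.Injective e) (a : 𝔸) :
    f1_lift i e hi he (f1_cod i a) = e a := by
  let _ : Algebra 𝔸 (Subfield.closure (Set.range i)) := (f1_cod i).toAlgebra
  have := f1_isFractionRing i hi
  exact IsFractionRing.lift_algebraMap he a

theorem f1_lift_unique (hi : Function.Injective i) (he : Function.Injective e)
    (g : Subfield.closure (Set.range i) →+* Ωb) (hg : ∀ a, g (f1_cod i a) = e a) :
    g = f1_lift i e hi he := by
  let _ : Algebra 𝔸 (Subfield.closure (Set.range i)) := (f1_cod i).toAlgebra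
  have := f1_isFractionRing i hi
  exact (IsFractionRing.lift_unique he hg).symm

/-- `Emb i e` is the set of `K₀`-algebra embeddings. -/
def f1_equiv (hi : Function.Injective i) (he : Function.Injective e) :
    Emb i e ≃ @AlgHom (Subfield.closure (Set.range i)) F Ωb _ _ _ _
      (f1_lift i e hi he).toAlgebra :=
  letI : Algebra (Subfield.closure (Set.range i)) Ωb := (f1_lift i e hi he).toAlgebra
  { toFun := fun σ =>
      { σ.1 with
        commutes' := fun r => by
          have h := f1_lift_unique i e hi he (σ.1.comp (Subfield.closure (Set.range i)).subtype)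
            (fun a => by
              have := σ.2
              exact congrArg (fun f : 𝔸 →+* Ωb => f a) this)
          exact congrArg (fun f : Subfield.closure (Set.range i) →+* Ωb => f r) h }
    invFun := fun τ => ⟨τ.toRingHom, by
      ext a
      have := τ.commutes (f1_cod i a)
      exact this.trans (f1_lift_cod i e hi he a)⟩
    left_inv := fun σ => by
      apply Subtype.ext
      rfl
    right_inv := fun τ => by
      ext x
      rfl }

theorem f1_equiv_apply (hi : Function.Injective i) (he : Function.Injective e) (σ : Emb i e)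
    (x : F) :
    letI : Algebra (Subfield.closure (Set.range i)) Ωb := (f1_lift i e hi he).toAlgebra
    (f1_equiv i e hi he σ) x = σ.1 x := rfl

end F1setup

variable [IsDomain 𝔸] [IsIntegrallyClosed 𝔸] [CharZero F] [IsAlgClosed Ωb]
  (i : 𝔸 →+* F) (e : 𝔸 →+* Ωb)

/-- F1a.  (Internally: `K₀ := Subfield.closure (Set.range i)` is a fraction field of `𝔸`
(`Subfield.mem_closure_iff`, `IsFractionRing.of_field`), `Ωb` becomes a `K₀`-algebra by
`IsFractionRing.lift`, and `Emb i e ≃ (F →ₐ[K₀] Ωb)`.) -/
theorem finite_Emb (hi : Function.Injective i) (he : Function.Injective e)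
    (hfd : FiniteDimensional (Subfield.closure (Set.range i)) F) : Finite (Emb i e) := by
  let _ : Algebra (Subfield.closure (Set.range i)) Ωb := (f1_lift i e hi he).toAlgebra
  exact Finite.of_equiv _ (f1_equiv i e hi he).symm

/-- F1b.  The trace of an integral element lies in `𝔸`, and is the sum of the conjugates
(`trace_eq_sum_embeddings`, `Algebra.isIntegral_trace`, `IsIntegrallyClosed`). -/
theorem exists_trace (hi : Function.Injective i) (he : Function.Injective e)
    (hfd : FiniteDimensional (Subfield.closure (Set.range i)) F) [Fintype (Emb i e)]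
    (z : F) (hz : i.IsIntegralElem z) : ∃ t : 𝔸, ∑ σ : Emb i e, σ.1 z = e t := by
  let _ : Algebra (Subfield.closure (Set.range i)) Ωb := (f1_lift i e hi he).toAlgebra
  let _ : Algebra 𝔸 (Subfield.closure (Set.range i)) := (f1_cod i).toAlgebra
  let _ : Algebra 𝔸 F := i.toAlgebra
  let _ : Algebra 𝔸 Ωb := e.toAlgebra
  have := f1_isFractionRing i hi
  have : IsScalarTower 𝔸 (Subfield.closure (Set.range i)) F :=
    IsScalarTower.of_algebraMap_eq fun _ => rfl
  have : IsScalarTower 𝔸 (Subfield.closure (Set.range i)) Ωb :=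
    IsScalarTower.of_algebraMap_eq fun a => (f1_lift_cod i e hi he a).symm
  have : CharZero (Subfield.closure (Set.range i)) :=
    ⟨fun a b hab => Nat.cast_injective (R := F) (by
      have := congrArg (Subtype.val) hab
      simpa using this)⟩
  obtain ⟨t, ht⟩ := f1_exists_trace (A := 𝔸) (K := Subfield.closure (Set.range i)) (E := Ωb) z hz
  refine ⟨t, ?_⟩
  rw [show e t = algebraMap 𝔸 Ωb t from rfl, ← ht]
  exact Fintype.sum_equiv (f1_equiv i e hi he) _ _ fun σ => rfl

/-- F1c.  The minimal polynomial of an integral element has coefficients in `𝔸`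
(`minpoly.isIntegrallyClosed_eq_field_fractions`) and all its roots in `Ωb` are conjugates `σ x`
(`Algebra.IsAlgebraic.range_eval_eq_rootSet_minpoly` or `IntermediateField.exists_algHom...`). -/
theorem exists_minpoly_factor (hi : Function.Injective i) (he : Function.Injective e)
    (hfd : FiniteDimensional (Subfield.closure (Set.range i)) F)
    (x : F) (hx : i.IsIntegralElem x) :
    ∃ (P : 𝔸[X]) (s : Multiset (Emb i e)), P.Monic ∧ P.eval₂ i x = 0 ∧
      P.map e = (s.map fun σ => X - C (σ.1 x)).prod := by
  let _ : Algebra (Subfield.closure (Set.range i)) Ωb := (f1_lift i e hi he).toAlgebra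
  let _ : Algebra 𝔸 (Subfield.closure (Set.range i)) := (f1_cod i).toAlgebra
  let _ : Algebra 𝔸 F := i.toAlgebra
  let _ : Algebra 𝔸 Ωb := e.toAlgebra
  have := f1_isFractionRing i hi
  have : IsScalarTower 𝔸 (Subfield.closure (Set.range i)) F :=
    IsScalarTower.of_algebraMap_eq fun _ => rfl
  have : IsScalarTower 𝔸 (Subfield.closure (Set.range i)) Ωb :=
    IsScalarTower.of_algebraMap_eq fun a => (f1_lift_cod i e hi he a).symm
  obtain ⟨P, s, hP, hPx, hPs⟩ :=
    f1_exists_minpoly_factor (A := 𝔸) (K := Subfield.closure (Set.range i)) (E := Ωb) x hx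
  refine ⟨P, s.map (f1_equiv i e hi he).symm, hP, hPx, ?_⟩
  rw [Multiset.map_map]
  exact hPs

end Fermat.Agent.S28
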