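import Fermat.Agent.S28.Defs

/-!
# S28 work package M10: the coefficient data `(E, S, k, res, τ)`

`k = 𝔽̄_ℓ`, `W = W(k)` (Witt vectors), `E = Frac W`, `S = W ⊆ E`, `res : S → k`,
`τ : k → E` the Teichmüller lift.
-/

set_option autoImplicit false
noncomputable section

namespace Fermat.Agent.S28

variable (ℓ : ℕ) [Fact ℓ.Prime]

/-- residue field `𝔽̄_ℓ`. -/
def kk : Type := AlgebraicClosure (ZMod ℓ)

instance : Field (kk ℓ) := inferInstanceAs (Field (AlgebraicClosure (ZMod ℓ)))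
instance : IsAlgClosed (kk ℓ) := inferInstanceAs (IsAlgClosed (AlgebraicClosure (ZMod ℓ)))
instance : CharP (kk ℓ) ℓ := inferInstanceAs (CharP (AlgebraicClosure (ZMod ℓ)) ℓ)

/-- `Frac W(𝔽̄_ℓ)`. -/
def EE : Type := FractionRing (WittVector ℓ (AlgebraicClosure (ZMod ℓ)))

instance : Field (EE ℓ) :=
  inferInstanceAs (Field (FractionRing (WittVector ℓ (AlgebraicClosure (ZMod ℓ)))))

/-- local abbreviation: the Witt vectors of `𝔽̄_ℓ`. -/
abbrev coeffW : Type := WittVector ℓ (AlgebraicClosure (ZMod ℓ))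

theorem coeffW_natCast_ne_zero (n : ℕ) (hn : n ≠ 0) : (n : coeffW ℓ) ≠ 0 := by
  have hℓ : ℓ.Prime := Fact.out
  obtain ⟨a, m, hm, rfl⟩ := Nat.exists_eq_pow_mul_and_not_dvd hn ℓ hℓ.ne_one
  rw [Nat.cast_mul, Nat.cast_pow]
  refine mul_ne_zero (pow_ne_zero _ (WittVector.p_nonzero ℓ _)) ?_
  intro h
  have h2 := congrArg (WittVector.constantCoeff (p := ℓ) (R := AlgebraicClosure (ZMod ℓ))) h
  rw [map_natCast, map_zero, CharP.cast_eq_zero_iff (AlgebraicClosure (ZMod ℓ)) ℓ] at h2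
  exact hm h2

instance coeffW_charZero : CharZero (coeffW ℓ) :=
  charZero_of_inj_zero fun n hn => by
    by_contra h
    exact coeffW_natCast_ne_zero ℓ n h hn

instance instCharZeroEE : CharZero (EE ℓ) :=
  inferInstanceAs (CharZero (FractionRing (coeffW ℓ)))

theorem coeff_field_aux1 {F : Type*} [Field F] (p u v : F) (hp : p ≠ 0) (hv : v ≠ 0) (n j : ℕ) :
    p ^ j * u * v⁻¹ = p ^ (n + j) * u / (p ^ n * v) := by
  field_simp
  ring

theorem coeff_field_aux2 {F : Type*} [Field F] (p u v : F) (hp : p ≠ 0) (hu : u ≠ 0) (hv : v ≠ 0)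
    (m j : ℕ) :
    (p ^ m * u / (p ^ (m + j + 1) * v))⁻¹ = p * (p ^ j * v * u⁻¹) := by
  field_simp
  ring

theorem exists_coeffData_aux : ∃ (S : Subring (FractionRing (coeffW ℓ)))
    (res : S →+* AlgebraicClosure (ZMod ℓ))
    (τ : AlgebraicClosure (ZMod ℓ) →* FractionRing (coeffW ℓ)),
    IsDVRIn S (ℓ : FractionRing (coeffW ℓ)) ∧ ((ℓ : FractionRing (coeffW ℓ)))⁻¹ ∉ S ∧
    Function.Surjective res ∧
    (∀ x : S, res x = 0 ↔ ∃ y : S, x = (ℓ : S) * y) ∧
    (∀ a, ∃ h : τ a ∈ S, res ⟨τ a, h⟩ = a) := by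
  classical
  have hℓ : ℓ.Prime := Fact.out
  let W := coeffW ℓ
  let E := FractionRing W
  let ι : W →+* E := algebraMap W E
  have hι : Function.Injective ι := IsFractionRing.injective W E
  let e : W ≃+* ι.range := RingEquiv.ofBijective ι.rangeRestrict
    ⟨fun a b h => hι (congrArg Subtype.val h), ι.rangeRestrict_surjective⟩
  have he : ∀ w : W, ((e w : ι.range) : E) = ι w := fun w => rfl
  let cc : W →+* AlgebraicClosure (ZMod ℓ) := WittVector.constantCoeff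
  have hpE : (ℓ : E) ≠ 0 := WittVector.FractionRing.p_nonzero ℓ _
  have hιp : ι (ℓ : W) = (ℓ : E) := map_natCast ι ℓ
  have hnu : ¬ IsUnit (ℓ : W) := (WittVector.irreducible ℓ).not_isUnit
  -- divisibility by `ℓ`
  have hdiv : ∀ w : W, cc w = 0 ↔ ∃ y : W, w = (ℓ : W) * y := by
    intro w
    constructor
    · intro hw
      by_cases h0 : w = 0
      · exact ⟨0, by rw [h0, mul_zero]⟩
      obtain ⟨m, b, hb, hwb⟩ := WittVector.exists_eq_pow_p_mul w h0
      rcases m with _ | m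
      · exfalso
        rw [pow_zero, one_mul] at hwb
        exact hb (hwb ▸ hw)
      · exact ⟨(ℓ : W) ^ m * b, by rw [hwb, pow_succ']; ring⟩
    · rintro ⟨y, rfl⟩
      rw [map_mul, map_natCast, CharP.cast_eq_zero, zero_mul]
  refine ⟨ι.range, cc.comp (e.symm : ι.range →+* W),
    (ι : W →* E).comp (WittVector.teichmuller ℓ), ⟨?_, ?_, ?_⟩, ?_, ?_, ?_, ?_⟩
  · exact ⟨(ℓ : W), hιp⟩
  · -- inv_mem
    intro x hx
    obtain ⟨a, b, hb, rfl⟩ := IsFractionRing.div_surjective (A := W) x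
    have hb0 : b ≠ 0 := nonZeroDivisors.ne_zero hb
    have ha0 : a ≠ 0 := by
      rintro rfl
      apply hx
      rw [map_zero, zero_div]
      exact Subring.zero_mem _
    obtain ⟨m, u, rfl⟩ := WittVector.exists_eq_pow_p_mul' a ha0
    obtain ⟨n, v, rfl⟩ := WittVector.exists_eq_pow_p_mul' b hb0
    have hu : ι (u : W) ≠ 0 := fun h => u.ne_zero (hι (by rw [h, map_zero]))
    have hv : ι (v : W) ≠ 0 := fun h => v.ne_zero (hι (by rw [h, map_zero]))
    have hvinv : ι ((v⁻¹ : Wˣ) : W) = (ι (v : W))⁻¹ := by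
      apply eq_inv_of_mul_eq_one_left
      rw [← map_mul, Units.inv_mul, map_one]
    have huinv : ι ((u⁻¹ : Wˣ) : W) = (ι (u : W))⁻¹ := by
      apply eq_inv_of_mul_eq_one_left
      rw [← map_mul, Units.inv_mul, map_one]
    have hmn : m < n := by
      by_contra hmn
      push Not at hmn
      apply hx
      refine ⟨(ℓ : W) ^ (m - n) * u * ((v⁻¹ : Wˣ) : W), ?_⟩
      obtain ⟨j, rfl⟩ := Nat.exists_eq_add_of_le hmn
      rw [Nat.add_sub_cancel_left]
      show ι _ = ι _ / ι _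
      simp only [map_mul, map_pow, hιp, hvinv]
      exact coeff_field_aux1 _ _ _ hpE hv n j
    obtain ⟨j, rfl⟩ := Nat.exists_eq_add_of_lt hmn
    refine ⟨ι ((ℓ : W) ^ j * v * ((u⁻¹ : Wˣ) : W)), ⟨_, rfl⟩, ?_⟩
    show (ι _ / ι _)⁻¹ = _
    simp only [map_mul, map_pow, hιp, huinv]
    exact coeff_field_aux2 _ _ _ hpE hu hv m j
  · -- sep
    intro x hx
    obtain ⟨y, ⟨w, rfl⟩, hxw⟩ := hx 0
    rw [pow_zero, one_mul] at hxw
    subst hxw
    by_contra hne
    have hw0 : w ≠ 0 := fun h => hne (by rw [h, map_zero])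
    obtain ⟨m, u, rfl⟩ := WittVector.exists_eq_pow_p_mul' w hw0
    obtain ⟨y, ⟨z, rfl⟩, hz⟩ := hx (m + 1)
    rw [← hιp, ← map_pow, ← map_mul] at hz
    have hz' := hι hz
    rw [pow_succ, mul_assoc] at hz'
    have hz'' := mul_left_cancel₀ (pow_ne_zero m (WittVector.p_nonzero ℓ _)) hz'
    exact hnu (isUnit_of_mul_isUnit_left (hz'' ▸ u.isUnit))
  · -- `ℓ⁻¹ ∉ S`
    rintro ⟨w, hw⟩
    apply hnu
    refine IsUnit.of_mul_eq_one w (hι ?_)
    rw [map_mul, hw, hιp, map_one, mul_inv_cancel₀ hpE]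
  · -- surjectivity
    intro a
    refine ⟨e (WittVector.teichmuller ℓ a), ?_⟩
    show cc (e.symm (e _)) = a
    rw [RingEquiv.symm_apply_apply]
    exact WittVector.teichmuller_coeff_zero ℓ a
  · -- kernel
    intro x
    obtain ⟨w, rfl⟩ := e.surjective x
    show cc (e.symm (e w)) = 0 ↔ _
    rw [RingEquiv.symm_apply_apply, hdiv]
    constructor
    · rintro ⟨y, rfl⟩
      exact ⟨e y, by rw [map_mul, map_natCast]⟩
    · rintro ⟨y, hy⟩
      obtain ⟨z, rfl⟩ := e.surjective y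
      refine ⟨z, e.injective ?_⟩
      rw [hy, map_mul, map_natCast]
  · intro a
    refine ⟨⟨WittVector.teichmuller ℓ a, rfl⟩, ?_⟩
    have : (⟨((ι : W →* E).comp (WittVector.teichmuller ℓ)) a, ⟨WittVector.teichmuller ℓ a, rfl⟩⟩ :
        ι.range) = e (WittVector.teichmuller ℓ a) := rfl
    rw [this]
    show cc (e.symm (e _)) = a
    rw [RingEquiv.symm_apply_apply]
    exact WittVector.teichmuller_coeff_zero ℓ a

/-- All the properties we need of the coefficient data, packaged as one existence statement. -/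
theorem exists_coeffData : ∃ (S : Subring (EE ℓ)) (res : S →+* kk ℓ) (τ : kk ℓ →* EE ℓ),
    IsDVRIn S (ℓ : EE ℓ) ∧ ((ℓ : EE ℓ))⁻¹ ∉ S ∧
    Function.Surjective res ∧
    (∀ x : S, res x = 0 ↔ ∃ y : S, x = (ℓ : S) * y) ∧
    (∀ a, ∃ h : τ a ∈ S, res ⟨τ a, h⟩ = a) :=
  exists_coeffData_aux ℓ

/-- `W ⊆ E`. -/
def SO : Subring (EE ℓ) := (exists_coeffData ℓ).choose

/-- the residue map. -/
def resO : SO ℓ →+* kk ℓ := (exists_coeffData ℓ).choose_spec.choose

/-- Teichmüller. -/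
def tau : kk ℓ →* EE ℓ := (exists_coeffData ℓ).choose_spec.choose_spec.choose

theorem isDVRIn_SO : IsDVRIn (SO ℓ) (ℓ : EE ℓ) :=
  (exists_coeffData ℓ).choose_spec.choose_spec.choose_spec.1

theorem inv_l_notMem_SO : ((ℓ : EE ℓ))⁻¹ ∉ SO ℓ :=
  (exists_coeffData ℓ).choose_spec.choose_spec.choose_spec.2.1

theorem resO_surjective : Function.Surjective (resO ℓ) :=
  (exists_coeffData ℓ).choose_spec.choose_spec.choose_spec.2.2.1

theorem resO_eq_zero_iff (x : SO ℓ) : resO ℓ x = 0 ↔ ∃ y : SO ℓ, x = (ℓ : SO ℓ) * y :=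
  (exists_coeffData ℓ).choose_spec.choose_spec.choose_spec.2.2.2.1 x

theorem tau_mem (a : kk ℓ) : tau ℓ a ∈ SO ℓ :=
  ((exists_coeffData ℓ).choose_spec.choose_spec.choose_spec.2.2.2.2 a).choose

theorem resO_tau (a : kk ℓ) : resO ℓ ⟨tau ℓ a, tau_mem ℓ a⟩ = a :=
  ((exists_coeffData ℓ).choose_spec.choose_spec.choose_spec.2.2.2.2 a).choose_spec

/-- Teichmüller on units. -/
def tauU : (kk ℓ)ˣ →* (EE ℓ)ˣ := Units.map (tau ℓ)

end Fermat.Agent.S28
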