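import Fermat.Agent.S28.Defs
import Fermat.Agent.S28.Zl
import Fermat.Agent.S28.Coeff

/-!
# S28: the concrete objects (definitions only)
-/

set_option autoImplicit false
noncomputable section

namespace Fermat.Agent.S28

open ModularCurve

/-- `ℚ((q))`. -/
abbrev LQ : Type := LaurentSeries ℚ

section
variable (ℓ : ℕ) [Fact ℓ.Prime]

/-- `E((q^ℚ))`. -/
abbrev Om : Type := HahnSeries ℚ (EE ℓ)

/-- an algebraic closure of `E((q^ℚ))`. -/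
abbrev Omb : Type := AlgebraicClosure (Om ℓ)

/-- series with coefficients in `W`. -/
abbrev VV : Type := ↥(coeffSubring (Γ := ℚ) (SO ℓ))

/-- `V → Ω̄`. -/
def inclV : VV ℓ →+* Omb ℓ :=
  (algebraMap (Om ℓ) (Omb ℓ)).comp (coeffSubring (Γ := ℚ) (SO ℓ)).subtype

/-- reduction mod `ℓ`. -/
def redV : VV ℓ →+* HahnSeries ℚ (kk ℓ) := redH (SO ℓ) (resO ℓ)

/-- `ℚ((q)) → E((T))`. -/
def iota0 : LQ →+* LaurentSeries (EE ℓ) := coeffMap (Rat.castHom (EE ℓ))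

/-- `E((T)) → Ω̄`, `T ↦ ξ q^r`. -/
def ev (ξ : (EE ℓ)ˣ) (r : ℚ) : LaurentSeries (EE ℓ) →+* Omb ℓ :=
  (algebraMap (Om ℓ) (Omb ℓ)).comp (phi ξ r)

/-- the standard embedding `ℚ((q)) → Ω̄`. -/
def iotaB : LQ →+* Omb ℓ := (ev ℓ 1 1).comp (iota0 ℓ)

end

/-- `j(q^d)`. -/
def jd (d : ℕ) : LQ := qE ℚ d jq

/-- `Δ(q^d)/Δ(q)`. -/
def ud (d : ℕ) : LQ := qE ℚ d (DqC ℚ) / DqC ℚ

/-- the generators of the auxiliary field. -/
def FpGens (N : ℕ) : Set LQ := {x | ∃ d, d ∣ N ∧ x = jd d} ∪ {x | ∃ d, d ∣ N ∧ x = ud d}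

/-- the auxiliary field `F' = ℚ(j(q^d), Δ(q^d)/Δ(q) : d ∣ N) ⊆ ℚ((q))`. -/
def Fp (N : ℕ) : IntermediateField ℚ LQ := IntermediateField.adjoin ℚ (FpGens N)

theorem jd_mem (N d : ℕ) (hd : d ∣ N) : jd d ∈ Fp N :=
  IntermediateField.subset_adjoin ℚ _ (Or.inl ⟨d, hd, rfl⟩)

theorem ud_mem (N d : ℕ) (hd : d ∣ N) : ud d ∈ Fp N :=
  IntermediateField.subset_adjoin ℚ _ (Or.inr ⟨d, hd, rfl⟩)

theorem jd_one : jd 1 = jq := by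
  unfold jd; rw [qE_eq]; exact qExpand_one_apply jq

theorem jq_mem_Fp (N : ℕ) : jq ∈ Fp N := by
  have := jd_mem N 1 (one_dvd N); rwa [jd_one] at this

/-- `j` as an element of `F'`. -/
def jF (N : ℕ) : Fp N := ⟨jq, jq_mem_Fp N⟩

/-- `j(q^d)` as an element of `F'` (junk `0` if `d ∤ N`). -/
def jdF (N d : ℕ) : Fp N := if h : d ∣ N then ⟨jd d, jd_mem N d h⟩ else 0

/-- `Δ(q^d)/Δ(q)` as an element of `F'` (junk `1` if `d ∤ N`). -/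
def udF (N d : ℕ) : Fp N := if h : d ∣ N then ⟨ud d, ud_mem N d h⟩ else 1

section
variable (N ℓ : ℕ) [Fact ℓ.Prime]

/-- `ℤ_(ℓ)[X] → F'`, `X ↦ t`. -/
def iT (t : Fp N) : Polynomial (Zl ℓ) →+* Fp N :=
  Polynomial.eval₂RingHom ((algebraMap ℚ (Fp N)).comp (GaloisRep.ratLocalizedAt ℓ).subtype) t

/-- `ℤ_(ℓ)[X] → Ω̄`, `X ↦ ι(t)`. -/
def eT (t : Fp N) : Polynomial (Zl ℓ) →+* Omb ℓ :=
  ((iotaB ℓ).comp (algebraMap (Fp N) LQ)).comp (iT N ℓ t)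

/-- the standard embedding of `F'`. -/
def sigma0 : Fp N →+* Omb ℓ := (iotaB ℓ).comp (algebraMap (Fp N) LQ)

end

end Fermat.Agent.S28
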