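import Mathlib

/-!
# S28 work package M6a: the Dedekind independence argument
-/

set_option autoImplicit false
noncomputable section

namespace Fermat.Agent.S28

open scoped Classical in
/-- Artin/Dedekind style independence, "eventually in `m`" version. -/
theorem dedekind_aux {A : Type*} [CommRing A] {L : Type*} [Field L]
    {ι : Type*} [Fintype ι] [DecidableEq ι] (χ : ι → A →+* L)
    (hinj : Function.Injective χ) (h : A) :
    ∀ (n : ℕ) (d : ι → L), (Finset.univ.filter fun i => d i ≠ 0).card ≤ n →
      (∀ i, d i ≠ 0 → χ i h ≠ 0) →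
      (∀ a : A, ∃ m₀ : ℕ, ∀ m, m₀ ≤ m → ∑ i, d i * χ i a * (χ i h) ^ m = 0) → d = 0 := by
  intro n
  induction n with
  | zero =>
    intro d hd _ _
    funext i
    by_contra hi
    have : i ∈ Finset.univ.filter fun i => d i ≠ 0 := by simpa using hi
    rw [Finset.card_eq_zero.mp (Nat.le_zero.mp hd)] at this
    simp at this
  | succ n ih =>
    intro d hd hne hP
    by_contra hd0
    obtain ⟨j, hj⟩ : ∃ j, d j ≠ 0 := by
      by_contra hcon
      push Not at hcon
      exact hd0 (funext hcon)
    -- the modified coefficients vanish by the induction hypothesis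
    have hmod : ∀ y : A, (fun i => d i * (χ i y - χ j y)) = 0 := by
      intro y
      apply ih
      · have hsub : (Finset.univ.filter fun i => d i * (χ i y - χ j y) ≠ 0) ⊆
            (Finset.univ.filter fun i => d i ≠ 0).erase j := by
          intro i hi
          simp only [Finset.mem_filter, Finset.mem_univ, true_and, Finset.mem_erase] at hi ⊢
          refine ⟨?_, left_ne_zero_of_mul hi⟩
          rintro rfl
          simp at hi
        have hcard := Finset.card_le_card hsub
        rw [Finset.card_erase_of_mem (by simpa using hj)] at hcard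
        omega
      · intro i hi
        exact hne i (left_ne_zero_of_mul hi)
      · intro a
        obtain ⟨m₁, h₁⟩ := hP (y * a)
        obtain ⟨m₂, h₂⟩ := hP a
        refine ⟨max m₁ m₂, fun m hm => ?_⟩
        have e₁ := h₁ m (le_trans (le_max_left _ _) hm)
        have e₂ := h₂ m (le_trans (le_max_right _ _) hm)
        have : ∑ i, d i * (χ i y - χ j y) * χ i a * (χ i h) ^ m =
            ∑ i, d i * χ i (y * a) * (χ i h) ^ m - χ j y * ∑ i, d i * χ i a * (χ i h) ^ m := by
          rw [Finset.mul_sum, ← Finset.sum_sub_distrib]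
          refine Finset.sum_congr rfl fun i _ => ?_
          rw [map_mul]; ring
        rw [this, e₁, e₂]; simp
    -- hence the support is `{j}`
    have hsupp : ∀ i, d i ≠ 0 → i = j := by
      intro i hi
      apply hinj
      ext y
      have := congrFun (hmod y) i
      simp only [Pi.zero_apply, mul_eq_zero, hi, false_or] at this
      exact sub_eq_zero.mp this
    obtain ⟨m₀, hm₀⟩ := hP 1
    have := hm₀ m₀ le_rfl
    rw [Finset.sum_eq_single j] at this
    · simp only [map_one, mul_one, mul_eq_zero, hj, false_or] at this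
      exact hne j hj (eq_zero_of_pow_eq_zero this)
    · intro i _ hij
      have : d i = 0 := by
        by_contra hi
        exact hij (hsupp i hi)
      simp [this]
    · simp

/-- A nonzero Hahn series all of whose coefficients in degrees `≤ 0` vanish has positive order. -/
theorem dedekind_order_pos {k : Type*} [Field k] {z : HahnSeries ℚ k} (hz : z ≠ 0)
    (hc : ∀ q : ℚ, q ≤ 0 → z.coeff q = 0) : 0 < z.order := by
  by_contra hcon
  exact hz (HahnSeries.coeff_order_eq_zero.mp (hc _ (not_lt.mp hcon)))

theorem dedekind_order_argument {A : Type*} [CommRing A] {k : Type*} [Field k]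
    {ι : Type*} [Fintype ι] [DecidableEq ι] (χ : ι → A →+* HahnSeries ℚ k)
    (hinj : Function.Injective χ) (i₀ : ι) (h : A)
    (hh : ∀ i, i ≠ i₀ → χ i h ≠ 0 ∧ 0 < (χ i h).order)
    (hT : ∀ z : A, ∑ i, χ i z ≠ 0 → (∑ i, χ i z).order ≤ 0)
    (x : A) (hx : χ i₀ x = 0) : ∀ i, χ i x = 0 := by
  -- each term is eventually of positive order
  have hterm : ∀ (a : A) (i : ι), ∃ m₀ : ℕ, ∀ m, m₀ ≤ m →
      ∀ q : ℚ, q ≤ 0 → (χ i (x * a * h ^ m)).coeff q = 0 := by
    intro a i
    by_cases hi : i = i₀
    · subst hi
      exact ⟨0, fun m _ q _ => by simp [hx]⟩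
    by_cases hu : χ i (x * a) = 0
    · exact ⟨0, fun m _ q _ => by rw [map_mul, hu]; simp⟩
    obtain ⟨hne, hpos⟩ := hh i hi
    obtain ⟨m₀, hm₀⟩ := exists_nat_gt (-(χ i (x * a)).order / (χ i h).order)
    refine ⟨m₀, fun m hm q hq => ?_⟩
    apply HahnSeries.coeff_eq_zero_of_lt_order
    rw [map_mul, map_pow, HahnSeries.order_mul hu (pow_ne_zero _ hne), HahnSeries.order_pow]
    refine lt_of_le_of_lt hq ?_
    rw [div_lt_iff₀ hpos] at hm₀
    have hmm : (m₀ : ℚ) * (χ i h).order ≤ (m : ℚ) * (χ i h).order :=
      mul_le_mul_of_nonneg_right (by exact_mod_cast hm) hpos.le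
    rw [nsmul_eq_mul]
    linarith
  have hd : (fun i => χ i x) = 0 := by
    apply dedekind_aux χ hinj h (Fintype.card ι) (fun i => χ i x) (Finset.card_le_univ _)
    · intro i hi
      refine (hh i ?_).1
      rintro rfl
      exact hi hx
    · intro a
      choose m₀ hm₀ using hterm a
      refine ⟨Finset.univ.sup m₀, fun m hm => ?_⟩
      have hsum : ∑ i, χ i x * χ i a * (χ i h) ^ m = ∑ i, χ i (x * a * h ^ m) :=
        Finset.sum_congr rfl fun i _ => by rw [map_mul, map_mul, map_pow]
      rw [hsum]
      by_contra hne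
      have hpos : 0 < (∑ i, χ i (x * a * h ^ m)).order := by
        apply dedekind_order_pos hne
        intro q hq
        rw [HahnSeries.coeff_sum]
        exact Finset.sum_eq_zero fun i _ =>
          hm₀ i m (le_trans (Finset.le_sup (Finset.mem_univ i)) hm) q hq
      exact absurd (hT _ hne) (not_le.mpr hpos)
  exact fun i => congrFun hd i

end Fermat.Agent.S28
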