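import Fermat.Agent.S28.FieldSetup
import Fermat.Agent.S28.Dedekind

/-!
# S28 work packages F2, F3: the abstract `q`-expansion principle
-/

set_option autoImplicit false
noncomputable section

namespace Fermat.Agent.S28

open Polynomial

variable {𝔸 F Ωb V k : Type*} [CommRing 𝔸] [Field F] [Field Ωb] [CommRing V] [Field k]
  [IsDomain 𝔸] [IsIntegrallyClosed 𝔸] [CharZero F] [IsAlgClosed Ωb]
  (i : 𝔸 →+* F) (e : 𝔸 →+* Ωb) (incl : V →+* Ωb) (red : V →+* HahnSeries ℚ k)

/-- F3a ("T2").  Conjugates of integral elements are "integral series". -/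
theorem abs_conj_mem
    (hbase : ∀ y : 𝔸, e y ∈ incl.range)
    (hIC : ∀ y : Ωb, IsIntegral incl.range y →
      (∃ b ∈ incl.range, b ≠ 0 ∧ b * y ∈ incl.range) → y ∈ incl.range)
    (σ : Emb i e) (x : F) (hfrac : ∃ b ∈ incl.range, b ≠ 0 ∧ b * σ.1 x ∈ incl.range)
    (hx : i.IsIntegralElem x) : σ.1 x ∈ incl.range := by
  refine hIC _ ?_ hfrac
  obtain ⟨p, hp, hpx⟩ := hx
  refine ⟨p.map (e.codRestrict incl.range hbase), hp.map _, ?_⟩
  rw [eval₂_map]
  have h1 : (algebraMap incl.range Ωb).comp (e.codRestrict incl.range hbase) = σ.1.comp i := by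
    rw [σ.2]; rfl
  rw [h1, ← hom_eval₂, hpx, map_zero]

/-- the subring of `i`-integral elements of `F`. -/
def F3_intSubring : Subring F where
  carrier := {x | i.IsIntegralElem x}
  mul_mem' := fun hx hy => RingHom.IsIntegralElem.mul i hx hy
  one_mem' := i.isIntegralElem_one
  add_mem' := fun hx hy => RingHom.IsIntegralElem.add i hx hy
  zero_mem' := i.isIntegralElem_zero
  neg_mem' := fun hx => RingHom.IsIntegralElem.neg i hx

/-- F3b ("KT").  PROOF: let `A' = {x // i.IsIntegralElem x}` (a subring of `F`); by `hconj` and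
injectivity of `incl`, each `σ` gives a ring hom `χ σ : A' →+* HahnSeries ℚ k`
(`red ∘ incl⁻¹ ∘ σ`).  They are pairwise distinct by `hdist`; `∑ σ, χ σ z = red (incl⁻¹ (e t))` by
`exists_trace`, which is `0` or of order `≤ 0` by `hpol`.  Apply `dedekind_order_argument`. -/
theorem abs_KT (hi : Function.Injective i) (he : Function.Injective e)
    (hfd : FiniteDimensional (Subfield.closure (Set.range i)) F)
    (hincl : Function.Injective incl)
    (hconj : ∀ (σ : Emb i e) (x : F), i.IsIntegralElem x → σ.1 x ∈ incl.range)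
    (hpol : ∀ (y : 𝔸) (v : V), incl v = e y → red v ≠ 0 → (red v).order ≤ 0)
    (hdist : ∀ σ τ : Emb i e, σ ≠ τ → ∃ (x : F) (v w : V), i.IsIntegralElem x ∧
      incl v = σ.1 x ∧ incl w = τ.1 x ∧ red v ≠ red w)
    (σ₀ : Emb i e) (h : F) (hh : i.IsIntegralElem h)
    (hpos : ∀ σ : Emb i e, σ ≠ σ₀ → ∃ v : V, incl v = σ.1 h ∧ red v ≠ 0 ∧ 0 < (red v).order)
    (x : F) (hx : i.IsIntegralElem x) (v₀ : V) (hv₀ : incl v₀ = σ₀.1 x) (hred : red v₀ = 0) :
    ∀ (σ : Emb i e) (v : V), incl v = σ.1 x → red v = 0 := by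
  classical
  have : Finite (Emb i e) := finite_Emb i e hi he hfd
  let _ : Fintype (Emb i e) := Fintype.ofFinite _
  let A' : Subring F := F3_intSubring i
  let eqv : V ≃+* incl.range :=
    RingEquiv.ofBijective incl.rangeRestrict
      ⟨fun a b hab => hincl (congrArg Subtype.val hab), incl.rangeRestrict_surjective⟩
  let ψ : Emb i e → A' →+* V := fun σ =>
    eqv.symm.toRingHom.comp ((σ.1.comp A'.subtype).codRestrict incl.range
      (fun z => hconj σ z.1 z.2))
  have hψ : ∀ (σ : Emb i e) (z : A'), incl (ψ σ z) = σ.1 z.1 := by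
    intro σ z
    have h1 : eqv (ψ σ z) = ⟨σ.1 z.1, hconj σ z.1 z.2⟩ := eqv.apply_symm_apply _
    exact congrArg Subtype.val h1
  have hψ' : ∀ (σ : Emb i e) (z : A') (v : V), incl v = σ.1 z.1 → ψ σ z = v := by
    intro σ z v hv
    exact hincl ((hψ σ z).trans hv.symm)
  let χ : Emb i e → A' →+* HahnSeries ℚ k := fun σ => red.comp (ψ σ)
  have hχ : ∀ (σ : Emb i e) (z : A') (v : V), incl v = σ.1 z.1 → χ σ z = red v := by
    intro σ z v hv
    show red (ψ σ z) = red v
    rw [hψ' σ z v hv]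
  have hinj : Function.Injective χ := by
    intro σ τ hστ
    by_contra hne
    obtain ⟨z, v, w, hz, hv, hw, hvw⟩ := hdist σ τ hne
    apply hvw
    rw [← hχ σ ⟨z, hz⟩ v hv, ← hχ τ ⟨z, hz⟩ w hw, hστ]
  have key := dedekind_order_argument χ hinj σ₀ (⟨h, hh⟩ : A')
    (fun σ hσ => by
      obtain ⟨v, hv, hv0, hvo⟩ := hpos σ hσ
      rw [hχ σ ⟨h, hh⟩ v hv]
      exact ⟨hv0, hvo⟩)
    (fun z hz => by
      obtain ⟨t, ht⟩ := exists_trace i e hi he hfd z.1 z.2
      have h1 : ∑ σ, χ σ z = red (∑ σ, ψ σ z) := by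
        rw [map_sum]; rfl
      have h2 : incl (∑ σ, ψ σ z) = e t := by
        rw [map_sum, ← ht]
        exact Finset.sum_congr rfl fun σ _ => hψ σ z
      rw [h1] at hz ⊢
      exact hpol t _ h2 hz)
    (⟨x, hx⟩ : A') (by rw [hχ σ₀ ⟨x, hx⟩ v₀ hv₀, hred])
  intro σ v hv
  rw [← hχ σ ⟨x, hx⟩ v hv]
  exact key σ

/-- a product of linear factors with roots `c * incl (v σ)` is the `scaleRoots` of the image of a
monic polynomial over `V`. -/
theorem F2_prod_eq_scaleRoots {ι : Type*} (c : Ωb) (w : ι → V) (s : Multiset ι) :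
    (s.map fun σ => X - C (c * incl (w σ))).prod =
      (((s.map fun σ => X - C (w σ)).prod).map incl).scaleRoots c := by
  induction s using Multiset.induction_on with
  | empty => simp
  | cons a s ih =>
    rw [Multiset.map_cons, Multiset.prod_cons, Multiset.map_cons, Multiset.prod_cons,
      Polynomial.map_mul, mul_scaleRoots_of_noZeroDivisors, ← ih, Polynomial.map_sub, map_X, map_C,
      X_sub_C_scaleRoots, mul_comm c]

/-- a polynomial whose coefficients are suitably divisible is a `scaleRoots`. -/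
theorem F2_exists_scaleRoots {R : Type*} [CommRing R] [Nontrivial R] (P : R[X]) (hP : P.Monic)
    (ϖ : R) (hdvd : ∀ m, ϖ ^ (P.natDegree - m) ∣ P.coeff m) :
    ∃ Q : R[X], Q.Monic ∧ P = Q.scaleRoots ϖ := by
  choose c hc using hdvd
  set n := P.natDegree with hn
  have hcn : c n = 1 := by
    have h := hc n
    rw [Nat.sub_self, pow_zero, one_mul, hn, hP.coeff_natDegree] at h
    exact h.symm
  let Q : R[X] := ∑ m ∈ Finset.range (n + 1), monomial m (c m)
  have hQc : ∀ m, Q.coeff m = if m ≤ n then c m else 0 := by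
    intro m
    simp only [Q, finsetSum_coeff, coeff_monomial]
    rw [Finset.sum_ite_eq' (Finset.range (n + 1)) m]
    simp
  have hQdeg : Q.natDegree = n := by
    refine le_antisymm ?_ ?_
    · rw [natDegree_le_iff_coeff_eq_zero]
      intro m hm
      rw [hQc, if_neg (not_le.mpr hm)]
    · refine le_natDegree_of_ne_zero ?_
      rw [hQc, if_pos le_rfl, hcn]
      exact one_ne_zero
  refine ⟨Q, ?_, ?_⟩
  · rw [Monic, leadingCoeff, hQdeg, hQc, if_pos le_rfl, hcn]
  · ext m
    rw [coeff_scaleRoots, hQdeg, hQc]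
    split_ifs with hm
    · rw [hc m, mul_comm]
    · rw [zero_mul]
      exact coeff_eq_zero_of_natDegree_lt (not_le.mp hm)

/-- F2 ("INT").  PROOF: take `P, s` from `exists_minpoly_factor`, `n = P.natDegree = card s`.
`e (P.coeff m) = ± esymm_{n-m} (σ x)_{σ ∈ s} ∈ e ϖ ^ (n-m) * incl.range`
(`Multiset.prod_X_sub_C_coeff`), so `ϖ^(n-m) ∣ P.coeff m` by `hdiv`, say
`P.coeff m = ϖ^(n-m) c_m`; then `Q = X^n + ∑_{m<n} c_m X^m` is monic and kills `g = x / i ϖ`. -/
theorem abs_INT (hi : Function.Injective i) (he : Function.Injective e)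
    (hfd : FiniteDimensional (Subfield.closure (Set.range i)) F)
    (ϖ : 𝔸) (hϖ : ϖ ≠ 0)
    (hdiv : ∀ (y : 𝔸) (n : ℕ), (∃ v : V, e y = e ϖ ^ n * incl v) → ϖ ^ n ∣ y)
    (x : F) (hx : i.IsIntegralElem x)
    (hconj : ∀ σ : Emb i e, ∃ v : V, σ.1 x = e ϖ * incl v) :
    ∃ g : F, i.IsIntegralElem g ∧ x = i ϖ * g := by
  obtain ⟨P, s, hP, hPx, hPs⟩ := exists_minpoly_factor i e hi he hfd x hx
  choose w hw using hconj
  have h1 : P.map e = (((s.map fun σ => X - C (w σ)).prod).map incl).scaleRoots (e ϖ) := by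
    rw [hPs, ← F2_prod_eq_scaleRoots]
    congr 1
    refine Multiset.map_congr rfl fun σ _ => ?_
    rw [hw σ]
  set Q₀ : V[X] := (s.map fun σ => X - C (w σ)).prod with hQ₀
  have hdeg : (Q₀.map incl).natDegree = P.natDegree := by
    have := congrArg natDegree h1
    rw [natDegree_scaleRoots, hP.natDegree_map] at this
    exact this.symm
  have hdvd : ∀ m, ϖ ^ (P.natDegree - m) ∣ P.coeff m := by
    intro m
    refine hdiv _ _ ⟨Q₀.coeff m, ?_⟩
    have := congrArg (fun p => p.coeff m) h1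
    simp only [coeff_map, coeff_scaleRoots, hdeg] at this
    rw [this, mul_comm]
  obtain ⟨Q, hQ, hPQ⟩ := F2_exists_scaleRoots P hP ϖ hdvd
  have hiϖ : i ϖ ≠ 0 := fun h => hϖ (hi (h.trans (map_zero i).symm))
  refine ⟨x / i ϖ, ⟨Q, hQ, ?_⟩, (mul_div_cancel₀ x hiϖ).symm⟩
  have h2 := scaleRoots_eval₂_mul (p := Q) i (x / i ϖ) ϖ
  rw [mul_div_cancel₀ x hiϖ, ← hPQ, hPx] at h2
  exact (mul_eq_zero.mp h2.symm).resolve_left (pow_ne_zero _ hiϖ)

end Fermat.Agent.S28
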