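import Fermat.Agent.S28.Base
import Fermat.Agent.S28.FieldMain

/-!
# S28: the `q`-expansion principle for `F'` (assembly of the abstract and the concrete parts)
-/

set_option autoImplicit false
noncomputable section

namespace Fermat.Agent.S28

open ModularCurve Polynomial

variable (N ℓ : ℕ) [Fact ℓ.Prime]

/-- the standard embedding as an element of `Emb`. -/
def fin_sigma0 (t : Fp N) : Emb (iT N ℓ t) (eT N ℓ t) := ⟨sigma0 N ℓ, rfl⟩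

theorem fin_fix {t : Fp N} (ht : t = jF N ∨ t = (jF N)⁻¹) (σ : Emb (iT N ℓ t) (eT N ℓ t)) :
    σ.1 (jF N) = iotaB ℓ jq := (comp_iT_eq_iff N ℓ t ht σ.1).mp σ.2

/-- conjugates of integral elements lie in `V`. -/
theorem fin_conj (hN : N ≠ 0) (hℓN : ¬ ℓ ∣ N) {t : Fp N} (ht : t = jF N ∨ t = (jF N)⁻¹)
    (σ : Emb (iT N ℓ t) (eT N ℓ t)) (x : Fp N) (hx : (iT N ℓ t).IsIntegralElem x) :
    σ.1 x ∈ (inclV ℓ).range :=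
  abs_conj_mem (iT N ℓ t) (eT N ℓ t) (inclV ℓ) (eT_mem_range N ℓ t ht)
    (inclV_integrally_closed ℓ) σ x (emb_frac N ℓ hN hℓN σ.1 (fin_fix N ℓ ht σ) x) hx

/-- KT for the finite chart. -/
theorem fin_KT (hN : N ≠ 0) (hℓN : ¬ ℓ ∣ N) (x : Fp N)
    (hx : (iT N ℓ (jF N)).IsIntegralElem x) (v₀ : VV ℓ) (hv₀ : inclV ℓ v₀ = sigma0 N ℓ x)
    (hred : redV ℓ v₀ = 0) (σ : Fp N →+* Omb ℓ) (hσ : σ (jF N) = iotaB ℓ jq) (v : VV ℓ)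
    (hv : inclV ℓ v = σ x) : redV ℓ v = 0 := by
  have ht : jF N = jF N ∨ jF N = (jF N)⁻¹ := Or.inl rfl
  obtain ⟨h, hh, hpos⟩ := emb_h N ℓ hN hℓN
  refine abs_KT (iT N ℓ (jF N)) (eT N ℓ (jF N)) (inclV ℓ) (redV ℓ)
    (iT_injective N ℓ _ ht) (eT_injective N ℓ _ ht) (finiteDimensional_Fp N ℓ hN hℓN _ ht)
    (inclV_injective ℓ) (fun σ x hx => fin_conj N ℓ hN hℓN ht σ x hx)
    (fun y v hv h0 => order_redV_eT_le N ℓ y v hv h0) ?_ (fin_sigma0 N ℓ (jF N)) h hh ?_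
    x hx v₀ hv₀ hred ⟨σ, (comp_iT_eq_iff N ℓ _ ht σ).mpr hσ⟩ v hv
  · intro σ τ hne
    exact emb_distinct N ℓ hN hℓN σ.1 τ.1 (fin_fix N ℓ ht σ) (fin_fix N ℓ ht τ)
      (fun h => hne (Subtype.ext h))
  · intro σ hne
    exact hpos σ.1 (fin_fix N ℓ ht σ) (fun h => hne (Subtype.ext h))

theorem fin_eT_natCast (t : Fp N) : eT N ℓ t (ℓ : Polynomial (Zl ℓ)) = inclV ℓ (ℓ : VV ℓ) := by
  rw [map_natCast, map_natCast]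

/-- INT for both charts. -/
theorem fin_INT (hN : N ≠ 0) (hℓN : ¬ ℓ ∣ N) {t : Fp N} (ht : t = jF N ∨ t = (jF N)⁻¹)
    (x : Fp N) (hx : (iT N ℓ t).IsIntegralElem x)
    (hall : ∀ (σ : Fp N →+* Omb ℓ), σ (jF N) = iotaB ℓ jq → ∀ v : VV ℓ, inclV ℓ v = σ x →
      redV ℓ v = 0) :
    ∃ g : Fp N, (iT N ℓ t).IsIntegralElem g ∧ x = (ℓ : Fp N) * g := by
  have hℓ0 : (ℓ : Polynomial (Zl ℓ)) ≠ 0 := by
    exact_mod_cast (Fact.out : ℓ.Prime).ne_zero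
  obtain ⟨g, hg, hxg⟩ := abs_INT (V := VV ℓ) (iT N ℓ t) (eT N ℓ t) (inclV ℓ)
    (iT_injective N ℓ _ ht) (eT_injective N ℓ _ ht) (finiteDimensional_Fp N ℓ hN hℓN _ ht)
    (ℓ : Polynomial (Zl ℓ)) hℓ0 (fun y n h => dvd_of_eT_eq N ℓ t ht y n h) x hx (by
      intro σ
      obtain ⟨w, hw⟩ := fin_conj N ℓ hN hℓN ht σ x hx
      obtain ⟨w', hw'⟩ := (redV_eq_zero_iff ℓ w).mp (hall σ.1 (fin_fix N ℓ ht σ) w hw)
      refine ⟨w', ?_⟩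
      rw [← hw, hw', map_mul, fin_eT_natCast])
  refine ⟨g, hg, ?_⟩
  rw [hxg, map_natCast]

/-- the lift of `j`. -/
theorem fin_exists_vj : ∃ vj : VV ℓ, inclV ℓ vj = iotaB ℓ jq ∧ redV ℓ vj ≠ 0 := by
  have ht : jF 1 = jF 1 ∨ jF 1 = (jF 1)⁻¹ := Or.inl rfl
  obtain ⟨vj, hvj⟩ := eT_mem_range 1 ℓ (jF 1) ht (X : Polynomial (Zl ℓ))
  have hX : eT 1 ℓ (jF 1) (X : Polynomial (Zl ℓ)) = iotaB ℓ jq := by
    simp [eT, iT, jF]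
  refine ⟨vj, hvj.trans hX, fun h0 => ?_⟩
  obtain ⟨w, hw⟩ := (redV_eq_zero_iff ℓ vj).mp h0
  have hdvd : (ℓ : Polynomial (Zl ℓ)) ^ 1 ∣ X := by
    refine dvd_of_eT_eq 1 ℓ (jF 1) ht X 1 ⟨w, ?_⟩
    rw [← hvj, hw, map_mul, pow_one, fin_eT_natCast]
  rw [pow_one] at hdvd
  obtain ⟨c, hc⟩ := hdvd
  have h1 := congrArg (fun p => Polynomial.coeff p 1) hc
  simp only [coeff_X_one] at h1
  rw [← C_eq_natCast, coeff_C_mul] at h1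
  have h2 : resZ ℓ (1 : Zl ℓ) = 0 := (resZ_eq_zero_iff ℓ 1).mpr ⟨_, h1⟩
  rw [map_one] at h2
  exact one_ne_zero h2

/-- **The `q`-expansion principle, finite chart.** -/
theorem core_fin (hN : N ≠ 0) (hℓN : ¬ ℓ ∣ N) (x : Fp N)
    (hx : (iT N ℓ (jF N)).IsIntegralElem x)
    (hc : ∀ n, ∃ c ∈ GaloisRep.ratLocalizedAt ℓ, (x : LQ).coeff n = (ℓ : ℚ) * c) :
    ∃ g : Fp N, (iT N ℓ (jF N)).IsIntegralElem g ∧ x = (ℓ : Fp N) * g := by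
  have ht : jF N = jF N ∨ jF N = (jF N)⁻¹ := Or.inl rfl
  obtain ⟨v₀, hv₀⟩ := fin_conj N ℓ hN hℓN ht (fin_sigma0 N ℓ _) x hx
  have hred : redV ℓ v₀ = 0 := (redV_eq_zero_iff_coeff ℓ (x : LQ) v₀ hv₀).mpr hc
  exact fin_INT N ℓ hN hℓN ht x hx
    (fun σ hσ v hv => fin_KT N ℓ hN hℓN x hx v₀ hv₀ hred σ hσ v hv)

/-- **The `q`-expansion principle, chart at infinity.** -/
theorem core_inf (hN : N ≠ 0) (hℓN : ¬ ℓ ∣ N) (x : Fp N)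
    (hx : (iT N ℓ (jF N)⁻¹).IsIntegralElem x) (n : ℕ)
    (hz : (iT N ℓ (jF N)).IsIntegralElem ((jF N) ^ n * x))
    (hc : ∀ n, ∃ c ∈ GaloisRep.ratLocalizedAt ℓ, (x : LQ).coeff n = (ℓ : ℚ) * c) :
    ∃ g : Fp N, (iT N ℓ (jF N)⁻¹).IsIntegralElem g ∧ x = (ℓ : Fp N) * g := by
  have ht : (jF N)⁻¹ = jF N ∨ (jF N)⁻¹ = (jF N)⁻¹ := Or.inr rfl
  obtain ⟨v₀, hv₀⟩ := fin_conj N ℓ hN hℓN ht (fin_sigma0 N ℓ _) x hx
  have hred : redV ℓ v₀ = 0 := (redV_eq_zero_iff_coeff ℓ (x : LQ) v₀ hv₀).mpr hc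
  obtain ⟨vj, hvj, hvj0⟩ := fin_exists_vj ℓ
  refine fin_INT N ℓ hN hℓN ht x hx (fun σ hσ v hv => ?_)
  have h1 : redV ℓ (vj ^ n * v) = 0 := by
    refine fin_KT N ℓ hN hℓN _ hz (vj ^ n * v₀) ?_ (by rw [map_mul, hred, mul_zero]) σ hσ _ ?_
    · rw [map_mul, map_pow, map_mul, map_pow, hvj, hv₀]
      rfl
    · rw [map_mul, map_pow, map_mul, map_pow, hvj, hv, hσ]
  rw [map_mul, map_pow] at h1
  exact (mul_eq_zero.mp h1).resolve_left (pow_ne_zero _ hvj0)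

end Fermat.Agent.S28
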