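import Fermat.Agent.S28.EmbE

/-!
# S28 work package B: the base ring `ℤ_(ℓ)[t]`, `t = j` or `t = 1/j`
-/

set_option autoImplicit false
noncomputable section

namespace Fermat.Agent.S28

open ModularCurve

variable (N ℓ : ℕ) [Fact ℓ.Prime]

theorem base_algebraMap_injective : Function.Injective (algebraMap (Om ℓ) (Omb ℓ)) :=
  (algebraMap (Om ℓ) (Omb ℓ)).injective

theorem base_iotaB_apply (x : LQ) :
    iotaB ℓ x = algebraMap (Om ℓ) (Omb ℓ) (phi 1 1 (iota0 ℓ x)) := rfl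

theorem base_mem_range_inclV_iff (z : Om ℓ) :
    algebraMap (Om ℓ) (Omb ℓ) z ∈ (inclV ℓ).range ↔ ∀ γ, z.coeff γ ∈ SO ℓ := by
  rw [← mem_coeffSubring_iff]
  constructor
  · rintro ⟨v, hv⟩
    have : (v : Om ℓ) = z := base_algebraMap_injective ℓ hv
    rw [← this]
    exact v.2
  · intro hz
    exact ⟨⟨z, hz⟩, rfl⟩

theorem base_coeff_phi_iota0 (x : LQ) (n : ℤ) :
    (phi (1 : (EE ℓ)ˣ) 1 (iota0 ℓ x)).coeff (n : ℚ) = ((x.coeff n : ℚ) : EE ℓ) := by
  have h := phi_coeff (1 : (EE ℓ)ˣ) (r := 1) one_pos (iota0 ℓ x) n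
  rw [one_mul] at h
  rw [h]
  simp [iota0]

theorem base_coeff_phi_iota0_of_ne (x : LQ) (γ : ℚ) (h : ∀ n : ℤ, γ ≠ n) :
    (phi (1 : (EE ℓ)ˣ) 1 (iota0 ℓ x)).coeff γ = 0 :=
  phi_coeff_of_forall_ne (1 : (EE ℓ)ˣ) (r := 1) one_pos (iota0 ℓ x) γ (by simpa using h)

/-- B8. -/
theorem iotaB_mem_range_iff (x : LQ) :
    iotaB ℓ x ∈ (inclV ℓ).range ↔ ∀ n, x.coeff n ∈ GaloisRep.ratLocalizedAt ℓ := by
  rw [base_iotaB_apply, base_mem_range_inclV_iff]
  constructor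
  · intro h n
    have := h (n : ℚ)
    rw [base_coeff_phi_iota0] at this
    exact (ratCast_mem_iff ℓ (SO ℓ) (isDVRIn_SO ℓ) (inv_l_notMem_SO ℓ) _).mp this
  · intro h γ
    by_cases hγ : ∃ n : ℤ, γ = n
    · obtain ⟨n, rfl⟩ := hγ
      rw [base_coeff_phi_iota0]
      exact (ratCast_mem_iff ℓ (SO ℓ) (isDVRIn_SO ℓ) (inv_l_notMem_SO ℓ) _).mpr (h n)
    · rw [base_coeff_phi_iota0_of_ne ℓ x γ (by simpa using hγ)]
      exact zero_mem _

theorem base_l_ne_zero : ((ℓ : ℕ) : Omb ℓ) ≠ 0 := by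
  have h0 : (ℓ : ℚ) ≠ 0 := by exact_mod_cast (Fact.out : ℓ.Prime).ne_zero
  have h1 : ((ℓ : ℕ) : LQ) ≠ 0 := by
    rw [← map_natCast (HahnSeries.C : ℚ →+* LQ)]
    exact fun h => h0 (HahnSeries.C_injective (by rw [h, map_zero]))
  rw [← map_natCast (iotaB ℓ)]
  exact fun h => h1 ((iotaB ℓ).injective (by rw [h, map_zero]))

/-- B9. -/
theorem redV_eq_zero_iff_coeff (x : LQ) (v : VV ℓ) (hv : inclV ℓ v = iotaB ℓ x) :
    redV ℓ v = 0 ↔ ∀ n, ∃ c ∈ GaloisRep.ratLocalizedAt ℓ, x.coeff n = (ℓ : ℚ) * c := by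
  have hℓ : (ℓ : ℚ) ≠ 0 := by exact_mod_cast (Fact.out : ℓ.Prime).ne_zero
  have hx : x = (ℓ : LQ) * (HahnSeries.C ((ℓ : ℚ)⁻¹) * x) := by
    rw [← mul_assoc]
    have : (ℓ : LQ) * HahnSeries.C ((ℓ : ℚ)⁻¹) = 1 := by
      rw [← map_natCast (HahnSeries.C : ℚ →+* LQ), ← map_mul, mul_inv_cancel₀ hℓ, map_one]
    rw [this, one_mul]
  have hcoeff : ∀ n, (HahnSeries.C ((ℓ : ℚ)⁻¹) * x).coeff n = (ℓ : ℚ)⁻¹ * x.coeff n := by
    intro n
    rw [HahnSeries.C_mul_eq_smul]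
    rfl
  rw [redV_eq_zero_iff]
  constructor
  · rintro ⟨w, rfl⟩ n
    have h1 : inclV ℓ w = iotaB ℓ (HahnSeries.C ((ℓ : ℚ)⁻¹) * x) := by
      have h2 : (ℓ : Omb ℓ) * inclV ℓ w = (ℓ : Omb ℓ) * iotaB ℓ (HahnSeries.C ((ℓ : ℚ)⁻¹) * x) := by
        rw [← map_natCast (iotaB ℓ), ← map_mul, ← hx, ← hv, map_mul (inclV ℓ), map_natCast, map_natCast]
      exact mul_left_cancel₀ (base_l_ne_zero ℓ) h2
    have h3 := (iotaB_mem_range_iff ℓ _).mp ⟨w, h1⟩ n
    refine ⟨_, h3, ?_⟩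
    rw [hcoeff]
    field_simp
  · intro h
    have h1 : iotaB ℓ (HahnSeries.C ((ℓ : ℚ)⁻¹) * x) ∈ (inclV ℓ).range := by
      rw [iotaB_mem_range_iff]
      intro n
      obtain ⟨c, hc, hxc⟩ := h n
      rw [hcoeff, hxc]
      have : (ℓ : ℚ)⁻¹ * ((ℓ : ℚ) * c) = c := by field_simp
      rwa [this]
    obtain ⟨w, hw⟩ := h1
    refine ⟨w, inclV_injective ℓ ?_⟩
    rw [hv, map_mul, map_natCast, hw, ← map_natCast (iotaB ℓ), ← map_mul, ← hx]

omit [Fact ℓ.Prime] in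
theorem base_iT_X (t : Fp N) : iT N ℓ t Polynomial.X = t := by
  simp [iT]

theorem base_eT_apply (t : Fp N) (y : Polynomial (Zl ℓ)) :
    eT N ℓ t y = iotaB ℓ ((iT N ℓ t y : Fp N) : LQ) := rfl

theorem base_eT_X (t : Fp N) : eT N ℓ t Polynomial.X = iotaB ℓ (t : LQ) := by
  rw [base_eT_apply, base_iT_X]

/-- B7.  An embedding of `F'` is compatible with `ℤ_(ℓ)[t] → F'` iff it fixes `j`. -/
theorem comp_iT_eq_iff (t : Fp N) (ht : t = jF N ∨ t = (jF N)⁻¹) (σ : Fp N →+* Omb ℓ) :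
    σ.comp (iT N ℓ t) = eT N ℓ t ↔ σ (jF N) = iotaB ℓ jq := by
  have key : σ.comp (iT N ℓ t) = eT N ℓ t ↔ σ t = iotaB ℓ (t : LQ) := by
    constructor
    · intro h
      have h1 := RingHom.congr_fun h Polynomial.X
      rwa [RingHom.comp_apply, base_iT_X, base_eT_X] at h1
    · intro h
      apply Polynomial.ringHom_ext
      · intro c
        exact RingHom.congr_fun (ratLocalizedAt_ringHom_ext ℓ
          ((σ.comp (iT N ℓ t)).comp Polynomial.C) ((eT N ℓ t).comp Polynomial.C)) c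
      · rwa [RingHom.comp_apply, base_iT_X, base_eT_X]
  rw [key]
  rcases ht with rfl | rfl
  · rfl
  · have h1 : (((jF N)⁻¹ : Fp N) : LQ) = jq⁻¹ := rfl
    rw [map_inv₀, h1, map_inv₀, inv_inj]

/-- `ℤ_(ℓ) → E`. -/
def baseCast : Zl ℓ →+* EE ℓ := (Rat.castHom (EE ℓ)).comp (GaloisRep.ratLocalizedAt ℓ).subtype

theorem baseCast_injective : Function.Injective (baseCast ℓ) :=
  (Rat.castHom (EE ℓ)).injective.comp Subtype.val_injective

theorem base_iota0_jq : iota0 ℓ jq = jqModC (EE ℓ) :=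
  map_jqModC (K := ℚ) (Rat.castHom (EE ℓ))

theorem base_iotaB_jq :
    iotaB ℓ jq = algebraMap (Om ℓ) (Omb ℓ) (phi 1 1 (jqModC (EE ℓ))) := by
  rw [base_iotaB_apply, base_iota0_jq]

theorem base_eT_eq (t : Fp N) (T : Om ℓ) (hT : iotaB ℓ (t : LQ) = algebraMap (Om ℓ) (Omb ℓ) T)
    (y : Polynomial (Zl ℓ)) :
    eT N ℓ t y = algebraMap (Om ℓ) (Omb ℓ)
      (Polynomial.eval₂ HahnSeries.C T (y.map (baseCast ℓ))) := by
  have h : eT N ℓ t = (algebraMap (Om ℓ) (Omb ℓ)).comp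
      ((Polynomial.eval₂RingHom HahnSeries.C T).comp (Polynomial.mapRingHom (baseCast ℓ))) := by
    apply Polynomial.ringHom_ext
    · intro c
      exact RingHom.congr_fun (ratLocalizedAt_ringHom_ext ℓ
        ((eT N ℓ t).comp Polynomial.C) (((algebraMap (Om ℓ) (Omb ℓ)).comp
      ((Polynomial.eval₂RingHom HahnSeries.C T).comp
        (Polynomial.mapRingHom (baseCast ℓ)))).comp Polynomial.C)) c
    · rw [base_eT_X, hT]
      simp
  rw [h]
  rfl

/-- B2. -/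
theorem eT_injective (t : Fp N) (ht : t = jF N ∨ t = (jF N)⁻¹) :
    Function.Injective (eT N ℓ t) := by
  rw [injective_iff_map_eq_zero]
  intro y hy
  by_contra hne
  have hP : y.map (baseCast ℓ) ≠ 0 :=
    (Polynomial.map_ne_zero_iff (baseCast_injective ℓ)).mpr hne
  rcases ht with rfl | rfl
  · rw [base_eT_eq N ℓ (jF N) _ (base_iotaB_jq ℓ), map_eq_zero] at hy
    exact (order_aeval_jqModC_phi (EE ℓ) 1 one_pos _ hP).2 hy
  · have hT : iotaB ℓ (((jF N)⁻¹ : Fp N) : LQ) =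
        algebraMap (Om ℓ) (Omb ℓ) (phi 1 1 (jqModC (EE ℓ)))⁻¹ := by
      have h1 : (((jF N)⁻¹ : Fp N) : LQ) = jq⁻¹ := rfl
      rw [h1, map_inv₀, map_inv₀, base_iotaB_jq]
    rw [base_eT_eq N ℓ _ _ hT, map_eq_zero] at hy
    exact aeval_inv_jqModC_phi_ne_zero (EE ℓ) 1 one_pos _ hP hy

/-- B1. (`j` is transcendental: a nonzero polynomial in `j` resp. `1/j` has a leading term.) -/
theorem iT_injective (t : Fp N) (ht : t = jF N ∨ t = (jF N)⁻¹) :
    Function.Injective (iT N ℓ t) := by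
  intro a b hab
  apply eT_injective N ℓ t ht
  rw [base_eT_apply, base_eT_apply, hab]

/-- the reduction `ℤ_(ℓ) → 𝔽̄_ℓ`. -/
def baseRho : Zl ℓ →+* kk ℓ := (exists_rho ℓ).choose

theorem baseRho_eq_zero_iff (c : Zl ℓ) : baseRho ℓ c = 0 ↔ ∃ y : Zl ℓ, c = (ℓ : Zl ℓ) * y :=
  (exists_rho ℓ).choose_spec.1 c

theorem baseRho_lift (c : Zl ℓ) : ∃ v : VV ℓ, inclV ℓ v = (((c : ℚ) : ℚ) : Omb ℓ) ∧
    redV ℓ v = HahnSeries.C (baseRho ℓ c) :=
  (exists_rho ℓ).choose_spec.2 c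

theorem base_eT_C (t : Fp N) (c : Zl ℓ) :
    eT N ℓ t (Polynomial.C c) = (((c : ℚ) : ℚ) : Omb ℓ) := by
  have h : iT N ℓ t (Polynomial.C c) = algebraMap ℚ (Fp N) (c : ℚ) := by
    simp [iT]
  rw [base_eT_apply, h]
  have h2 : ((algebraMap ℚ (Fp N) (c : ℚ) : Fp N) : LQ) = (((c : ℚ) : ℚ) : LQ) := by
    rw [eq_ratCast]
    rfl
  rw [h2, map_ratCast]

theorem base_KL (t : Fp N) (vt : VV ℓ) (hvt : inclV ℓ vt = iotaB ℓ (t : LQ))
    (y : Polynomial (Zl ℓ)) :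
    ∃ v : VV ℓ, inclV ℓ v = eT N ℓ t y ∧
      redV ℓ v = Polynomial.eval₂ HahnSeries.C (redV ℓ vt) (y.map (baseRho ℓ)) := by
  induction y using Polynomial.induction_on' with
  | add p q hp hq =>
    obtain ⟨v1, h1, h1'⟩ := hp
    obtain ⟨v2, h2, h2'⟩ := hq
    exact ⟨v1 + v2, by rw [map_add, map_add, h1, h2],
      by rw [map_add, Polynomial.map_add, Polynomial.eval₂_add, h1', h2']⟩
  | monomial n c =>
    obtain ⟨v, hv, hv'⟩ := baseRho_lift ℓ c
    refine ⟨v * vt ^ n, ?_, ?_⟩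
    · rw [map_mul, map_pow, hv, hvt, ← Polynomial.C_mul_X_pow_eq_monomial, map_mul, map_pow,
        base_eT_C, base_eT_X]
    · rw [map_mul, map_pow, hv', Polynomial.map_monomial, Polynomial.eval₂_monomial]

theorem base_exists_vt_j : ∃ vt : VV ℓ, inclV ℓ vt = iotaB ℓ jq ∧
    redV ℓ vt = phi 1 1 (jqModC (kk ℓ)) := by
  obtain ⟨v, hv, hv'⟩ := exists_lift_ev ℓ 1 one_pos (jqModC ℤ)
  rw [tauU_one, coeffMap_jqModC] at hv
  rw [coeffMap_jqModC] at hv'
  exact ⟨v, by rw [hv, base_iotaB_jq]; rfl, hv'⟩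

/-- `1/j` as an integral Laurent series. -/
def baseJInv : LaurentSeries ℤ :=
  HahnSeries.single (1 : ℤ) 1 * HahnSeries.ofPowerSeries ℤ ℤ (jNum.invOfUnit 1)

theorem base_jqModC_mul_baseJInv : jqModC ℤ * baseJInv = 1 := by
  have h1 : jNum * jNum.invOfUnit 1 = 1 :=
    PowerSeries.mul_invOfUnit jNum 1 (by rw [constantCoeff_jNum]; rfl)
  have h2 : jNum.map (Int.castRingHom ℤ) = jNum := by
    ext n; simp
  rw [jqModC, baseJInv, h2, mul_mul_mul_comm, ← map_mul, h1, HahnSeries.single_mul_single]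
  simp

theorem base_coeffMap_baseJInv {K : Type*} [Field K] :
    coeffMap (Int.castRingHom K) baseJInv = (jqModC K)⁻¹ := by
  have h := congrArg (coeffMap (Int.castRingHom K)) base_jqModC_mul_baseJInv
  rw [map_mul, map_one, coeffMap_jqModC] at h
  exact eq_inv_of_mul_eq_one_right h

theorem base_exists_vt_jinv : ∃ vt : VV ℓ, inclV ℓ vt = iotaB ℓ jq⁻¹ ∧
    redV ℓ vt = (phi 1 1 (jqModC (kk ℓ)))⁻¹ := by
  obtain ⟨v, hv, hv'⟩ := exists_lift_ev ℓ 1 one_pos baseJInv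
  rw [tauU_one, base_coeffMap_baseJInv, map_inv₀] at hv
  rw [base_coeffMap_baseJInv, map_inv₀] at hv'
  exact ⟨v, by rw [hv, map_inv₀, base_iotaB_jq]; rfl, hv'⟩

theorem base_exists_vt (t : Fp N) (ht : t = jF N ∨ t = (jF N)⁻¹) :
    ∃ vt : VV ℓ, inclV ℓ vt = iotaB ℓ (t : LQ) ∧
      ∀ P : Polynomial (kk ℓ), P ≠ 0 → Polynomial.eval₂ HahnSeries.C (redV ℓ vt) P ≠ 0 := by
  rcases ht with rfl | rfl
  · obtain ⟨vt, h1, h2⟩ := base_exists_vt_j ℓ
    refine ⟨vt, h1, fun P hP => ?_⟩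
    rw [h2]
    exact (order_aeval_jqModC_phi (kk ℓ) 1 one_pos P hP).2
  · obtain ⟨vt, h1, h2⟩ := base_exists_vt_jinv ℓ
    refine ⟨vt, h1, fun P hP => ?_⟩
    rw [h2]
    exact aeval_inv_jqModC_phi_ne_zero (kk ℓ) 1 one_pos P hP

/-- B4. -/
theorem eT_mem_range (t : Fp N) (ht : t = jF N ∨ t = (jF N)⁻¹) (y : Polynomial (Zl ℓ)) :
    eT N ℓ t y ∈ (inclV ℓ).range := by
  obtain ⟨vt, h1, -⟩ := base_exists_vt N ℓ t ht
  obtain ⟨v, hv, -⟩ := base_KL N ℓ t vt h1 y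
  exact ⟨v, hv⟩

/-- B5.  The reduction of a polynomial in `j` is `0` or has order `≤ 0`
(`exists_rho`, `order_aeval_jqModC_phi`). -/
theorem order_redV_eT_le (y : Polynomial (Zl ℓ)) (v : VV ℓ) (hv : inclV ℓ v = eT N ℓ (jF N) y)
    (h0 : redV ℓ v ≠ 0) : (redV ℓ v).order ≤ 0 := by
  obtain ⟨vt, h1, h2⟩ := base_exists_vt_j ℓ
  obtain ⟨v', hv', hr⟩ := base_KL N ℓ (jF N) vt h1 y
  have hvv : v = v' := inclV_injective ℓ (hv.trans hv'.symm)
  subst hvv
  rw [hr, h2] at h0 ⊢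
  have hP : y.map (baseRho ℓ) ≠ 0 := by
    intro h
    rw [h, Polynomial.eval₂_zero] at h0
    exact h0 rfl
  rw [(order_aeval_jqModC_phi (kk ℓ) 1 one_pos _ hP).1]
  simp

/-- B6.  (Induction on `n`; for `n = 1`: the reduction `ȳ(t̄)` vanishes, so `ȳ = 0`, so all
coefficients of `y` are divisible by `ℓ`.) -/
theorem dvd_of_eT_eq (t : Fp N) (ht : t = jF N ∨ t = (jF N)⁻¹) (y : Polynomial (Zl ℓ)) (n : ℕ)
    (h : ∃ v : VV ℓ, eT N ℓ t y = eT N ℓ t (ℓ : Polynomial (Zl ℓ)) ^ n * inclV ℓ v) :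
    (ℓ : Polynomial (Zl ℓ)) ^ n ∣ y := by
  obtain ⟨vt, h1, h2⟩ := base_exists_vt N ℓ t ht
  induction n generalizing y with
  | zero => simp
  | succ n ih =>
    obtain ⟨v, hv⟩ := h
    obtain ⟨w, hw, hr⟩ := base_KL N ℓ t vt h1 y
    have hw2 : w = (ℓ : VV ℓ) * ((ℓ : VV ℓ) ^ n * v) := by
      apply inclV_injective ℓ
      rw [hw, hv, map_mul, map_mul, map_pow, map_natCast, map_natCast, pow_succ]
      ring
    have hz : redV ℓ w = 0 := (redV_eq_zero_iff ℓ w).mpr ⟨_, hw2⟩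
    have hP : y.map (baseRho ℓ) = 0 := by
      by_contra hne
      exact h2 _ hne (hr ▸ hz)
    have hdvd : Polynomial.C (ℓ : Zl ℓ) ∣ y := by
      rw [Polynomial.C_dvd_iff_dvd_coeff]
      intro i
      have := congrArg (fun p => Polynomial.coeff p i) hP
      simp only [Polynomial.coeff_map, Polynomial.coeff_zero] at this
      obtain ⟨c, hc⟩ := (baseRho_eq_zero_iff ℓ _).mp this
      exact ⟨c, hc⟩
    obtain ⟨y', rfl⟩ := hdvd
    rw [Polynomial.C_eq_natCast] at hv ⊢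
    rw [pow_succ, mul_comm]
    apply mul_dvd_mul_left
    apply ih
    refine ⟨v, ?_⟩
    have hℓ : eT N ℓ t (ℓ : Polynomial (Zl ℓ)) ≠ 0 := by
      rw [map_natCast]; exact base_l_ne_zero ℓ
    apply mul_left_cancel₀ hℓ
    rw [← map_mul, hv, pow_succ]
    ring


omit [Fact ℓ.Prime] in
theorem base_iT_C (t : Fp N) (c : Zl ℓ) :
    iT N ℓ t (Polynomial.C c) = algebraMap ℚ (Fp N) (c : ℚ) := by
  simp [iT]

omit [Fact ℓ.Prime] in
theorem base_range_iT_le (t : Fp N) (ht : t = jF N ∨ t = (jF N)⁻¹) (y : Polynomial (Zl ℓ)) :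
    iT N ℓ (jF N) y ∈ Subfield.closure (Set.range (iT N ℓ t)) := by
  have ht' : t ∈ Subfield.closure (Set.range (iT N ℓ t)) :=
    Subfield.subset_closure ⟨Polynomial.X, base_iT_X N ℓ t⟩
  have hj : jF N ∈ Subfield.closure (Set.range (iT N ℓ t)) := by
    rcases ht with rfl | h
    · exact ht'
    · have : jF N = t⁻¹ := by rw [h, inv_inv]
      rw [this]
      exact inv_mem ht'
  induction y using Polynomial.induction_on' with
  | add p q hp hq =>
    rw [map_add]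
    exact add_mem hp hq
  | monomial n c =>
    rw [← Polynomial.C_mul_X_pow_eq_monomial, map_mul, map_pow, base_iT_X, base_iT_C,
      ← base_iT_C N ℓ t]
    exact mul_mem (Subfield.subset_closure ⟨_, rfl⟩) (pow_mem hj n)

omit [Fact ℓ.Prime] in
theorem base_isIntegral (t : Fp N) (ht : t = jF N ∨ t = (jF N)⁻¹) (x : Fp N)
    (hx : (iT N ℓ (jF N)).IsIntegralElem x) :
    IsIntegral (Subfield.closure (Set.range (iT N ℓ t))) x := by
  have h : iT N ℓ (jF N) = (algebraMap (Subfield.closure (Set.range (iT N ℓ t))) (Fp N)).comp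
      ((iT N ℓ (jF N)).codRestrict (Subfield.closure (Set.range (iT N ℓ t)))
        (base_range_iT_le N ℓ t ht)) := by
    ext1 <;> rfl
  rw [h] at hx
  exact hx.of_comp

/-- the finite set of generators of `F'`. -/
def baseGens : Set (Fp N) :=
  (fun d => jdF N d) '' {d | d ∣ N} ∪ (fun d => udF N d) '' {d | d ∣ N}

theorem baseGens_finite (hN : N ≠ 0) : (baseGens N).Finite := by
  have h : {d | d ∣ N}.Finite := by
    have : {d | d ∣ N} = ↑(N.divisors) := by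
      ext d; simp [hN]
    rw [this]
    exact Finset.finite_toSet _
  exact (h.image _).union (h.image _)

theorem base_fd_generic {F : Type*} [Field F] (K₀ : Subfield F) (S : Set F) (hS : S.Finite)
    (hint : ∀ x ∈ S, IsIntegral K₀ x) (htop : ∀ x : F, x ∈ Subfield.closure S) :
    FiniteDimensional K₀ F := by
  have : Finite S := hS.to_subtype
  have h1 : FiniteDimensional K₀ (IntermediateField.adjoin K₀ S) :=
    IntermediateField.finiteDimensional_adjoin hint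
  have h2 : IntermediateField.adjoin K₀ S = ⊤ := by
    rw [eq_top_iff]
    intro x _
    have h3 : Subfield.closure S ≤ (IntermediateField.adjoin K₀ S).toSubfield :=
      (Subfield.closure_le).mpr (IntermediateField.subset_adjoin K₀ S)
    exact h3 (htop x)
  rw [h2] at h1
  exact (IntermediateField.topEquiv (F := K₀) (E := F)).toLinearEquiv.finiteDimensional

theorem base_closure_generic {K L : Type*} [Field K] [Field L] [Algebra K L] (S : Set L)
    (T : Subfield (IntermediateField.adjoin K S))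
    (hK : ∀ r : K, algebraMap K (IntermediateField.adjoin K S) r ∈ T)
    (hS : ∀ x (hx : x ∈ S),
      (⟨x, IntermediateField.subset_adjoin K S hx⟩ : IntermediateField.adjoin K S) ∈ T)
    (x : IntermediateField.adjoin K S) : x ∈ T := by
  obtain ⟨x, hx⟩ := x
  induction hx using IntermediateField.adjoin_induction with
  | mem x hx => exact hS x hx
  | algebraMap r => exact hK r
  | add x y hx hy h1 h2 => exact add_mem h1 h2
  | inv x hx h1 => exact inv_mem h1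
  | mul x y hx hy h1 h2 => exact mul_mem h1 h2

theorem base_mem_closure_gens (x : Fp N) : x ∈ Subfield.closure (baseGens N) := by
  refine base_closure_generic (K := ℚ) (FpGens N) (Subfield.closure (baseGens N)) ?_ ?_ x
  · intro r
    rw [eq_ratCast]
    exact SubfieldClass.ratCast_mem _ r
  · intro x hx
    apply Subfield.subset_closure
    rcases hx with ⟨d, hd, rfl⟩ | ⟨d, hd, rfl⟩
    · left
      exact ⟨d, hd, by simp only [jdF, dif_pos hd]; rfl⟩
    · right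
      exact ⟨d, hd, by simp only [udF, dif_pos hd]; rfl⟩

/-- B3.  `F'` is finite over `ℚ(j)` (finitely many generators, integral by `gens_integral`;
the subfields generated by `ℤ_(ℓ)[j]` and `ℤ_(ℓ)[1/j]` coincide). -/
theorem finiteDimensional_Fp (hN : N ≠ 0) (hℓN : ¬ ℓ ∣ N) (t : Fp N)
    (ht : t = jF N ∨ t = (jF N)⁻¹) :
    FiniteDimensional (Subfield.closure (Set.range (iT N ℓ t))) (Fp N) := by
  apply base_fd_generic _ (baseGens N) (baseGens_finite N hN) _ (base_mem_closure_gens N)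
  rintro x (⟨d, hd, rfl⟩ | ⟨d, hd, rfl⟩)
  · exact base_isIntegral N ℓ t ht _ (gens_integral N ℓ hN hℓN d hd).1
  · exact base_isIntegral N ℓ t ht _ (gens_integral N ℓ hN hℓN d hd).2.1

end Fermat.Agent.S28
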