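import Fermat.Agent.S28.Defs

/-!
# S28 work package A1: `q`-expansions of `E₄` and `Δ` are the formal series
-/

set_option autoImplicit false
noncomputable section

namespace Fermat.Agent.S28

open UpperHalfPlane ModularForm ModularFormClass MatrixGroups EisensteinSeries ModularCurve
open Filter Topology

/-- A1a. -/
theorem qExpansion_E4_eq_A1 :
    qExpansion 1 E₄ = eisenstein4.map (Int.castRingHom ℂ) := by
  ext m
  rw [EisensteinSeries.E_qExpansion_coeff (by norm_num) (by decide) m, PowerSeries.coeff_map,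
    eisenstein4, PowerSeries.coeff_mk]
  by_cases hm : m = 0
  · simp [hm]
  · have hb : bernoulli 4 = -1 / 30 := by
      rw [bernoulli_eq_bernoulli'_of_ne_one (by norm_num), bernoulli'_four]
    simp only [hm, if_false, hb, ArithmeticFunction.sigma_apply]
    push_cast
    norm_num

/-- iterated derivatives of a locally uniform limit of holomorphic functions -/
theorem A1_tendsto_iteratedDeriv {F : ℕ → ℂ → ℂ} {f : ℂ → ℂ} {U : Set ℂ} (hU : IsOpen U)
    (hf : TendstoLocallyUniformlyOn F f atTop U) (hF : ∀ n, DifferentiableOn ℂ (F n) U) (m : ℕ) :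
    TendstoLocallyUniformlyOn (fun n => iteratedDeriv m (F n)) (iteratedDeriv m f) atTop U ∧
      ∀ n, DifferentiableOn ℂ (iteratedDeriv m (F n)) U := by
  induction m with
  | zero => simpa [iteratedDeriv_zero] using ⟨hf, hF⟩
  | succ m ih =>
    refine ⟨?_, fun n => ?_⟩
    · have := ih.1.deriv (Eventually.of_forall ih.2) hU
      simp only [iteratedDeriv_succ]
      exact this
    · rw [iteratedDeriv_succ]
      exact (ih.2 n).deriv hU

theorem A1_iteratedDeriv_eval (P : Polynomial ℂ) (m : ℕ) :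
    iteratedDeriv m (fun q => P.eval q) = fun q => (Polynomial.derivative^[m] P).eval q := by
  induction m generalizing P with
  | zero => simp
  | succ m ih =>
    rw [iteratedDeriv_succ', Function.iterate_succ_apply]
    rw [← ih]
    congr 1
    funext q
    exact P.deriv

theorem A1_iteratedDeriv_eval_zero (P : Polynomial ℂ) (m : ℕ) :
    iteratedDeriv m (fun q => P.eval q) 0 = (m.factorial : ℂ) * P.coeff m := by
  rw [A1_iteratedDeriv_eval]
  simp only
  rw [← Polynomial.coeff_zero_eq_eval_zero, Polynomial.coeff_iterate_derivative]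
  simp [Nat.descFactorial_self]


/-- the partial products, as integer polynomials -/
def A1_etaPoly (N : ℕ) : Polynomial ℤ :=
  ∏ i ∈ Finset.range N, (1 - Polynomial.X ^ (i + 1))

/-- `X * (partial product)^24` -/
def A1_deltaPoly (N : ℕ) : Polynomial ℤ := Polynomial.X * A1_etaPoly N ^ 24

theorem A1_eval_deltaPoly (N : ℕ) (q : ℂ) :
    ((A1_deltaPoly N).map (Int.castRingHom ℂ)).eval q =
      q * (∏ i ∈ Finset.range N, (1 - q ^ (i + 1))) ^ 24 := by
  simp [A1_deltaPoly, A1_etaPoly, Polynomial.eval_prod, Polynomial.map_prod]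

theorem A1_tendsto_range {F : Finset ℕ → ℂ → ℂ} {f : ℂ → ℂ} {U : Set ℂ}
    (h : TendstoLocallyUniformlyOn F f atTop U) :
    TendstoLocallyUniformlyOn (fun N : ℕ => F (Finset.range N)) f atTop U := by
  intro u hu x hx
  obtain ⟨t, ht, h'⟩ := h u hu x hx
  exact ⟨t, ht, tendsto_finset_range.eventually h'⟩

theorem A1_tendsto_eta :
    TendstoLocallyUniformlyOn (fun (N : ℕ) (q : ℂ) => ∏ i ∈ Finset.range N, (1 - q ^ (i + 1)))
      (fun q => ∏' n : ℕ, (1 - q ^ (n + 1))) atTop (Metric.ball (0 : ℂ) 1) := by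
  have h := multipliableLocallyUniformlyOn_one_sub_pow.hasProdLocallyUniformlyOn
  rw [hasProdLocallyUniformlyOn_iff_tendstoLocallyUniformlyOn] at h
  exact A1_tendsto_range h

theorem A1_tendsto_eta_pow (k : ℕ) :
    TendstoLocallyUniformlyOn
      (fun (N : ℕ) (q : ℂ) => (∏ i ∈ Finset.range N, (1 - q ^ (i + 1))) ^ k)
      (fun q => (∏' n : ℕ, (1 - q ^ (n + 1))) ^ k) atTop (Metric.ball (0 : ℂ) 1) := by
  have hc : ContinuousOn (fun q : ℂ => ∏' n : ℕ, (1 - q ^ (n + 1))) (Metric.ball (0 : ℂ) 1) :=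
    differentiableOn_tprod_one_sub_pow.continuousOn
  induction k with
  | zero =>
    simp only [pow_zero]
    intro u hu x hx
    exact ⟨Set.univ, univ_mem, Eventually.of_forall fun _ _ _ => refl_mem_uniformity hu⟩
  | succ k ih =>
    have := ih.mul₀ A1_tendsto_eta (hc.pow k) hc
    simp only [pow_succ]
    exact this

theorem A1_tendsto_delta :
    TendstoLocallyUniformlyOn
      (fun (N : ℕ) (q : ℂ) => q * (∏ i ∈ Finset.range N, (1 - q ^ (i + 1))) ^ 24)
      (fun q => q * ∏' n : ℕ, (1 - q ^ (n + 1)) ^ 24) atTop (Metric.ball (0 : ℂ) 1) := by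
  have hc : ContinuousOn (fun q : ℂ => ∏' n : ℕ, (1 - q ^ (n + 1))) (Metric.ball (0 : ℂ) 1) :=
    differentiableOn_tprod_one_sub_pow.continuousOn
  have hid : TendstoLocallyUniformlyOn (fun (_ : ℕ) (q : ℂ) => q) (fun q => q) atTop
      (Metric.ball (0 : ℂ) 1) := by
    intro u hu x hx
    exact ⟨Set.univ, univ_mem, Eventually.of_forall fun _ _ _ => refl_mem_uniformity hu⟩
  have := hid.mul₀ (A1_tendsto_eta_pow 24) continuousOn_id (hc.pow 24)
  refine TendstoLocallyUniformlyOn.congr_right this ?_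
  intro q hq
  have hq' : ‖q‖ < 1 := by simpa using hq
  simp only [Pi.mul_apply]
  rw [(multipliable_one_sub_pow hq').tprod_pow 24]

theorem A1_tendsto_coeff_analytic (m : ℕ) :
    Tendsto (fun N => (((A1_deltaPoly N).coeff m : ℤ) : ℂ)) atTop
      (𝓝 ((qExpansion 1 ModularForm.discriminant).coeff m)) := by
  have hU : IsOpen (Metric.ball (0 : ℂ) 1) := Metric.isOpen_ball
  have h0 : (0 : ℂ) ∈ Metric.ball (0 : ℂ) 1 := Metric.mem_ball_self one_pos
  have hlim := (A1_tendsto_iteratedDeriv hU A1_tendsto_delta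
    (fun N => by fun_prop) m).1.tendsto_at h0
  have hcusp : iteratedDeriv m (cuspFunction 1 ModularForm.discriminant) 0 =
      iteratedDeriv m (fun q => q * ∏' n : ℕ, (1 - q ^ (n + 1)) ^ 24) 0 := by
    apply Filter.EventuallyEq.iteratedDeriv_eq
    exact discriminant_cuspFunction_eqOn.eventuallyEq_of_mem (hU.mem_nhds h0)
  rw [qExpansion_coeff, hcusp]
  have hfac : (m.factorial : ℂ) ≠ 0 := Nat.cast_ne_zero.mpr m.factorial_ne_zero
  have hN : ∀ N, iteratedDeriv m
      (fun q : ℂ => q * (∏ i ∈ Finset.range N, (1 - q ^ (i + 1))) ^ 24) 0 =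
      (m.factorial : ℂ) * (((A1_deltaPoly N).coeff m : ℤ) : ℂ) := by
    intro N
    have := A1_iteratedDeriv_eval_zero ((A1_deltaPoly N).map (Int.castRingHom ℂ)) m
    simp only [A1_eval_deltaPoly, Polynomial.coeff_map, eq_intCast] at this
    exact this
  simp only [hN] at hlim
  have := hlim.const_mul ((m.factorial : ℂ)⁻¹)
  simpa [← mul_assoc, inv_mul_cancel₀ hfac] using this

open scoped PowerSeries.WithPiTopology in
theorem A1_tendsto_coeff_formal (m : ℕ) :
    Tendsto (fun N => (A1_deltaPoly N).coeff m) atTop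
      (𝓝 ((PowerSeries.X * dedekindEtaUnit : PowerSeries ℤ).coeff m)) := by
  have h1 : Tendsto (fun N => ∏ i ∈ Finset.range N, ((1 : PowerSeries ℤ) - PowerSeries.X ^ (i + 1)))
      atTop (𝓝 etaProd) :=
    (PowerSeries.WithPiTopology.multipliable_one_sub_X_pow ℤ).hasProd.tendsto_prod_nat
  have h2 : Tendsto (fun N => PowerSeries.X *
      (∏ i ∈ Finset.range N, ((1 : PowerSeries ℤ) - PowerSeries.X ^ (i + 1))) ^ 24)
      atTop (𝓝 (PowerSeries.X * dedekindEtaUnit)) :=
    (h1.pow 24).const_mul _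
  have h3 := ((PowerSeries.WithPiTopology.continuous_coeff ℤ m).tendsto _).comp h2
  refine h3.congr fun N => ?_
  simp only [Function.comp_apply]
  rw [← Polynomial.coeff_coe]
  congr 1
  have hprod : ((∏ i ∈ Finset.range N, (1 - Polynomial.X ^ (i + 1)) : Polynomial ℤ) :
      PowerSeries ℤ) = ∏ i ∈ Finset.range N, ((1 : PowerSeries ℤ) - PowerSeries.X ^ (i + 1)) := by
    rw [← Polynomial.coeToPowerSeries.ringHom_apply, map_prod]
    refine Finset.prod_congr rfl fun i _ => ?_
    simp
  simp [A1_deltaPoly, A1_etaPoly, Polynomial.coe_mul, Polynomial.coe_pow, hprod]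

/-- A1b. -/
theorem qExpansion_discriminant_eq_A1 :
    qExpansion 1 ModularForm.discriminant =
      (PowerSeries.X * dedekindEtaUnit).map (Int.castRingHom ℂ) := by
  ext m
  rw [PowerSeries.coeff_map]
  have h1 := A1_tendsto_coeff_analytic m
  have h2 : Tendsto (fun N => (((A1_deltaPoly N).coeff m : ℤ) : ℂ)) atTop
      (𝓝 (Int.castRingHom ℂ ((PowerSeries.X * dedekindEtaUnit : PowerSeries ℤ).coeff m))) :=
    ((continuous_of_discreteTopology (f := fun n : ℤ => (n : ℂ))).tendsto _).comp
      (A1_tendsto_coeff_formal m)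
  exact tendsto_nhds_unique h1 h2

end Fermat.Agent.S28
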