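import Fermat.Agent.S28.Defs
import Fermat.Agent.S28.A1
import Fermat.Prelude.Def_ModularForm_HeckeOperatorForms
import Fermat.Prelude.Thm_ModularFormClass_qCoeff_heckeT
import Fermat.Prelude.Thm_ModularForm_levelOne_eq_zero_of_lt_order_qExpansion

/-!
# S28 work packages A1, A2: from analytic level one modular forms to formal `q`-series
-/

set_option autoImplicit false
noncomputable section

namespace Fermat.Agent.S28

open UpperHalfPlane ModularForm ModularFormClass MatrixGroups EisensteinSeries ModularCurve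

/-- A1a.  (`EisensteinSeries.E_qExpansion_coeff`, `bernoulli 4 = -1/30`.) -/
theorem qExpansion_E4_eq :
    qExpansion 1 E₄ = eisenstein4.map (Int.castRingHom ℂ) :=
  qExpansion_E4_eq_A1

/-- A1b.  The `q`-expansion of the analytic `Δ` is the formal product.
(`ModularForm.discriminant_cuspFunction_eqOn`; compare coefficients of `q^m` using the finite
partial products: both sides are congruent mod `q^(m+1)` to `q ∏_{n<m} (1-q^(n+1))^24`.) -/
theorem qExpansion_discriminant_eq :
    qExpansion 1 ModularForm.discriminant =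
      (PowerSeries.X * dedekindEtaUnit).map (Int.castRingHom ℂ) :=
  qExpansion_discriminant_eq_A1

/-- `E₄` as a formal power series over `ℚ`. -/
def E4Q : PowerSeries ℚ := eisenstein4.map (Int.castRingHom ℚ)

/-- `Δ` as a formal power series over `ℚ`. -/
def DQ : PowerSeries ℚ := (PowerSeries.X * dedekindEtaUnit).map (Int.castRingHom ℚ)

/-- the `q`-expansions of the level one forms of weight `12 n` with rational coefficients. -/
def M12 (n : ℕ) : Submodule ℚ (PowerSeries ℚ) :=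
  Submodule.span ℚ (Set.range fun i : Fin (n + 1) => E4Q ^ (3 * (i : ℕ)) * DQ ^ (n - (i : ℕ)))

/-- the formal Hecke operator `T_p` in weight `k`. -/
def heckeTps (k p : ℕ) (f : PowerSeries ℚ) : PowerSeries ℚ :=
  PowerSeries.mk fun m =>
    PowerSeries.coeff (m * p) f +
      if p ∣ m then (p : ℚ) ^ (k - 1) * PowerSeries.coeff (m / p) f else 0

namespace A2

/-- `f` is the `q`-expansion of a level one form of weight `12 n`. -/
def IsQExp (n : ℕ) (f : PowerSeries ℚ) : Prop :=
  ∃ G : ModularForm 𝒮ℒ (12 * (n : ℤ)), qExpansion 1 G = f.map (algebraMap ℚ ℂ)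

theorem map_E4Q : E4Q.map (algebraMap ℚ ℂ) = qExpansion 1 E₄ := by
  rw [qExpansion_E4_eq, E4Q]
  ext m
  simp

theorem map_DQ : DQ.map (algebraMap ℚ ℂ) = qExpansion 1 ModularForm.discriminant := by
  rw [qExpansion_discriminant_eq, DQ]
  ext m
  simp only [PowerSeries.coeff_map]
  simp

theorem isQExp_basis (n i : ℕ) (hi : i ≤ n) : IsQExp n (E4Q ^ (3 * i) * DQ ^ (n - i)) := by
  refine ⟨ModularForm.mcast (by push_cast [Nat.cast_sub hi]; ring)
    ((E₄.pow (3 * i)).mul ((CuspForm.discriminant : ModularForm 𝒮ℒ 12).pow (n - i))), ?_⟩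
  rw [ModularForm.qExpansion_mcast, ModularForm.qExpansion_mul one_pos one_mem_strictPeriods_SL,
    ModularForm.qExpansion_pow one_pos one_mem_strictPeriods_SL,
    ModularForm.qExpansion_pow one_pos one_mem_strictPeriods_SL, map_mul, map_pow, map_pow,
    map_E4Q, map_DQ]
  rfl

theorem IsQExp.zero (n : ℕ) : IsQExp n 0 :=
  ⟨0, by rw [map_zero]; exact qExpansion_zero 1⟩

theorem IsQExp.add {n : ℕ} {f g : PowerSeries ℚ} (hf : IsQExp n f) (hg : IsQExp n g) :
    IsQExp n (f + g) := by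
  obtain ⟨F, hF⟩ := hf
  obtain ⟨G, hG⟩ := hg
  refine ⟨F + G, ?_⟩
  rw [FunLike.coe_add, ModularForm.qExpansion_add one_pos one_mem_strictPeriods_SL, hF, hG,
    map_add]

theorem IsQExp.smul {n : ℕ} {f : PowerSeries ℚ} (c : ℚ) (hf : IsQExp n f) :
    IsQExp n (c • f) := by
  obtain ⟨F, hF⟩ := hf
  refine ⟨(c : ℂ) • F, ?_⟩
  rw [FunLike.coe_smul, ModularForm.qExpansion_smul one_pos one_mem_strictPeriods_SL,
    hF]
  ext m
  simp

theorem IsQExp.sub {n : ℕ} {f g : PowerSeries ℚ} (hf : IsQExp n f) (hg : IsQExp n g) :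
    IsQExp n (f - g) := by
  have := hf.add (hg.smul (-1))
  simpa [sub_eq_add_neg] using this

theorem isQExp_of_mem {n : ℕ} {f : PowerSeries ℚ} (hf : f ∈ M12 n) : IsQExp n f := by
  unfold M12 at hf
  induction hf using Submodule.span_induction with
  | mem x hx =>
    obtain ⟨i, rfl⟩ := hx
    exact isQExp_basis n i (Nat.lt_succ_iff.mp i.2)
  | zero => exact IsQExp.zero n
  | add x y _ _ hx hy => exact hx.add hy
  | smul c x _ hx => exact hx.smul c

theorem map_Gamma0_one :
    Subgroup.map (Matrix.SpecialLinearGroup.mapGL ℝ) (CongruenceSubgroup.Gamma0 1) = 𝒮ℒ := by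
  have : CongruenceSubgroup.Gamma0 1 = ⊤ := by
    ext A
    simp only [CongruenceSubgroup.Gamma0_mem, Subgroup.mem_top, iff_true]
    exact Subsingleton.elim _ _
  rw [this, MonoidHom.range_eq_map]

theorem IsQExp.hecke {n : ℕ} (hn : 0 < n) {p : ℕ} (hp : p.Prime) {f : PowerSeries ℚ}
    (hf : IsQExp n f) : IsQExp n (heckeTps (12 * n) p f) := by
  obtain ⟨F, hF⟩ := hf
  have hp1 : ¬ p ∣ 1 := fun h => hp.one_lt.ne' (Nat.dvd_one.mp h)
  let F' : ModularForm (CongruenceSubgroup.Gamma0 1) (12 * (n : ℤ)) :=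
    ModularForm.mcast rfl F map_Gamma0_one
  refine ⟨ModularForm.mcast rfl (heckeTLin (12 * (n : ℤ)) hp hp1 F') map_Gamma0_one.symm, ?_⟩
  rw [ModularForm.qExpansion_mcast]
  ext m
  have h1 := ModularFormClass.qCoeff_heckeT F one_mem_strictPeriods_SL hp.ne_zero m
  have h2 : (⇑(heckeTLin (12 * (n : ℤ)) hp hp1 F') : ℍ → ℂ) = heckeT (12 * (n : ℤ)) p ⇑F := rfl
  rw [h2]
  unfold ModularFormClass.qCoeff at h1
  rw [h1, coeffHeckeT_apply, hF]
  have h3 : (12 * (n : ℤ) - 1) = ((12 * n - 1 : ℕ) : ℤ) := by omega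
  rw [h3, zpow_natCast]
  simp only [heckeTps, PowerSeries.coeff_map, PowerSeries.coeff_mk]
  split_ifs <;> simp

theorem basis_eq (a j : ℕ) :
    E4Q ^ a * DQ ^ j =
      PowerSeries.X ^ j * (E4Q ^ a * (dedekindEtaUnit.map (Int.castRingHom ℚ)) ^ j) := by
  rw [DQ, map_mul, PowerSeries.map_X, mul_pow]
  ring

theorem coeff_basis_lt (a j m : ℕ) (hm : m < j) :
    PowerSeries.coeff m (E4Q ^ a * DQ ^ j) = 0 := by
  rw [basis_eq, PowerSeries.coeff_X_pow_mul', if_neg (by omega)]

theorem coeff_basis_eq (a j : ℕ) : PowerSeries.coeff j (E4Q ^ a * DQ ^ j) = 1 := by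
  rw [basis_eq, PowerSeries.coeff_X_pow_mul', if_pos le_rfl, Nat.sub_self,
    PowerSeries.coeff_zero_eq_constantCoeff, map_mul, map_pow, map_pow, E4Q,
    ← PowerSeries.coeff_zero_eq_constantCoeff,
    PowerSeries.coeff_map, PowerSeries.coeff_map, PowerSeries.coeff_zero_eq_constantCoeff,
    constantCoeff_eisenstein4, constantCoeff_dedekindEtaUnit]
  simp

theorem exists_approx (n : ℕ) (g : PowerSeries ℚ) (j : ℕ) (hj : j ≤ n + 1) :
    ∃ h ∈ M12 n, ∀ m < j, PowerSeries.coeff m (g - h) = 0 := by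
  induction j with
  | zero => exact ⟨0, zero_mem _, by simp⟩
  | succ j ih =>
    obtain ⟨h, hh, hc⟩ := ih (by omega)
    have hjn : j ≤ n := by omega
    have hb : E4Q ^ (3 * (n - j)) * DQ ^ j ∈ M12 n :=
      Submodule.subset_span ⟨⟨n - j, by omega⟩, by simp [Nat.sub_sub_self hjn]⟩
    refine ⟨h + (PowerSeries.coeff j (g - h)) • (E4Q ^ (3 * (n - j)) * DQ ^ j),
      add_mem hh (Submodule.smul_mem _ _ hb), ?_⟩
    intro m hm
    rw [← sub_sub, map_sub, PowerSeries.coeff_smul]
    rcases Nat.lt_succ_iff_lt_or_eq.mp hm with hm | rfl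
    · rw [coeff_basis_lt _ _ _ hm, hc m hm]; simp
    · rw [coeff_basis_eq]; simp

theorem mem_of_isQExp {n : ℕ} {g : PowerSeries ℚ} (hg : IsQExp n g) : g ∈ M12 n := by
  obtain ⟨h, hh, hc⟩ := exists_approx n g (n + 1) le_rfl
  obtain ⟨G, hG⟩ := hg.sub (isQExp_of_mem hh)
  have hG0 : G = 0 := by
    apply ModularForm.levelOne_eq_zero_of_lt_order_qExpansion 1 one_pos
    rw [Nat.cast_one, hG]
    have h12 : (12 * (n : ℤ)).toNat / 12 = n := by omega
    rw [h12, one_mul]
    refine lt_of_lt_of_le (b := ((n + 1 : ℕ) : ℕ∞)) (by exact_mod_cast Nat.lt_succ_self n) ?_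
    apply PowerSeries.nat_le_order
    intro m hm
    rw [PowerSeries.coeff_map, hc m hm, map_zero]
  have h0 : (g - h).map (algebraMap ℚ ℂ) = 0 := by
    rw [← hG, hG0]; exact qExpansion_zero 1
  have h1 : g - h = 0 := by
    ext m
    have := congrArg (PowerSeries.coeff m) h0
    rw [PowerSeries.coeff_map, map_zero] at this
    rw [map_zero]
    exact (map_eq_zero (algebraMap ℚ ℂ)).mp this
  rw [sub_eq_zero.mp h1]; exact hh

end A2

/-- A2.  `T_p` preserves level one forms of weight `12 n` with rational `q`-expansion.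
PROOF: `f = ∑ a_i E₄^{3i} Δ^{n-i}` is the `q`-expansion of a form `F ∈ M_{12n}(SL₂ℤ) = M_{12n}(Γ₀(1))`;
`heckeTLin (12 n) hp (p ∤ 1) F` is again such a form, with `q`-expansion `heckeTps (12 n) p f`
(`ModularFormClass.qCoeff_heckeT`).  Any `G ∈ M_{12n}(SL₂ℤ)` with rational `q`-expansion `g` is in
`M12 n`: subtract successively `c_i E₄^{3i} Δ^{n-i}` (`i = n, n-1, …, 0`; it is `q^{n-i} + …`) with
`c_i ∈ ℚ` to kill the coefficients of `q^0, …, q^n`, then use the Sturm bound
`ModularForm.levelOne_eq_zero_of_lt_order_qExpansion 1`. -/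
theorem heckeTps_mem_M12 (p : ℕ) (hp : p.Prime) (n : ℕ) (hn : 0 < n) (f : PowerSeries ℚ)
    (hf : f ∈ M12 n) : heckeTps (12 * n) p f ∈ M12 n :=
  A2.mem_of_isQExp ((A2.isQExp_of_mem hf).hecke hn hp)

end Fermat.Agent.S28
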