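import Mathlib

/-!
# S28, Part C: the "S2 lemma" for integral closures over an integrally closed domain

Proof sketch.  `z := (p*b) • y = b • (p • y) = p • (b • y)`.  By `IsIntegrallyClosed.minpoly_smul`
`minpoly A₀ z = (minpoly A₀ (p • y)).scaleRoots b = (minpoly A₀ (b • y)).scaleRoots p`.
Comparing coefficients (`Polynomial.coeff_scaleRoots`), with `m` the common degree:
`c_i(p•y) * b^(m-i) = c_i(b•y) * p^(m-i)`, so `p^(m-i) ∣ c_i(p•y)` as `p` is prime and `p ∤ b`.
Write `c_i(p•y) = p^(m-i) * e_i` (`e_m = 1`).  Then `∑ e_i y^i = p^(-m) ∑ c_i(p•y) (p y)^i = 0`, monic.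
-/

set_option autoImplicit false

namespace Fermat.Agent.S28

open Polynomial in
/-- A monic polynomial whose `i`-th coefficient is divisible by `p ^ (deg - i)` is of the form
`Q.scaleRoots p`. -/
theorem s2_exists_scaleRoots_eq {A : Type*} [CommRing A] [Nontrivial A] (P : A[X]) (hP : P.Monic)
    (p : A) (h : ∀ i, p ^ (P.natDegree - i) ∣ P.coeff i) : ∃ Q : A[X], Q.scaleRoots p = P := by
  classical
  choose e he using h
  set m := P.natDegree with hm
  have hem : e m = 1 := by
    have h1 := he m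
    rw [Nat.sub_self, pow_zero, one_mul] at h1
    rw [← h1]
    exact hP.coeff_natDegree
  set Q : A[X] := ∑ i ∈ Finset.range (m + 1), monomial i (e i) with hQ
  have hcoeff : ∀ i, Q.coeff i = if i ≤ m then e i else 0 := by
    intro i
    rw [hQ, finsetSum_coeff]
    simp only [coeff_monomial]
    rw [Finset.sum_ite_eq' (Finset.range (m + 1)) i]
    simp
  have hdeg : Q.natDegree = m := by
    apply le_antisymm
    · rw [natDegree_le_iff_coeff_eq_zero]
      intro N hN
      rw [hcoeff, if_neg (not_le.mpr hN)]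
    · apply le_natDegree_of_ne_zero
      rw [hcoeff, if_pos le_rfl, hem]
      exact one_ne_zero
  refine ⟨Q, ?_⟩
  ext i
  rw [coeff_scaleRoots, hdeg, hcoeff]
  split_ifs with hi
  · rw [he i, mul_comm]
  · rw [zero_mul, coeff_eq_zero_of_natDegree_lt (not_le.mp hi)]

open Polynomial in
theorem isIntegral_of_smul_of_smul {A₀ F : Type*} [CommRing A₀] [IsDomain A₀]
    [IsIntegrallyClosed A₀] [Field F] [Algebra A₀ F] [FaithfulSMul A₀ F]
    {p b : A₀} (hp : Prime p) (hb : ¬ p ∣ b) {y : F}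
    (h1 : IsIntegral A₀ (p • y)) (h2 : IsIntegral A₀ (b • y)) : IsIntegral A₀ y := by
  have hp0 : p ≠ 0 := hp.ne_zero
  have hb0 : b ≠ 0 := fun h => hb (h ▸ dvd_zero p)
  have e1 : minpoly A₀ (b • p • y) = (minpoly A₀ (p • y)).scaleRoots b :=
    IsIntegrallyClosed.minpoly_smul hb0 h1
  have e2 : minpoly A₀ (p • b • y) = (minpoly A₀ (b • y)).scaleRoots p :=
    IsIntegrallyClosed.minpoly_smul hp0 h2
  rw [smul_comm] at e1
  have e3 : (minpoly A₀ (p • y)).scaleRoots b = (minpoly A₀ (b • y)).scaleRoots p :=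
    e1.symm.trans e2
  have hdeg : (minpoly A₀ (p • y)).natDegree = (minpoly A₀ (b • y)).natDegree := by
    have := congrArg natDegree e3
    rwa [natDegree_scaleRoots, natDegree_scaleRoots] at this
  have hdvd : ∀ i, p ^ ((minpoly A₀ (p • y)).natDegree - i) ∣ (minpoly A₀ (p • y)).coeff i := by
    intro i
    have h3 := congrArg (fun P => coeff P i) e3
    simp only [coeff_scaleRoots] at h3
    rw [← hdeg] at h3
    refine hp.pow_dvd_of_dvd_mul_right _ (b := b ^ ((minpoly A₀ (p • y)).natDegree - i))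
      (fun h => hb (hp.dvd_of_dvd_pow h)) ?_
    rw [h3]
    exact Dvd.intro_left _ rfl
  obtain ⟨Q, hQ⟩ := s2_exists_scaleRoots_eq _ (minpoly.monic h1) p hdvd
  have hQm : Q.Monic := by
    rw [← monic_scaleRoots_iff p, hQ]
    exact minpoly.monic h1
  refine ⟨Q, hQm, ?_⟩
  have h4 := scaleRoots_eval₂_mul (p := Q) (algebraMap A₀ F) y p
  rw [hQ, ← Algebra.smul_def] at h4
  have h5 : eval₂ (algebraMap A₀ F) (p • y) (minpoly A₀ (p • y)) = 0 := minpoly.aeval A₀ (p • y)
  rw [h5] at h4
  have h6 : algebraMap A₀ F p ≠ 0 := by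
    rw [Ne, FaithfulSMul.algebraMap_eq_zero_iff]
    exact hp0
  exact (mul_eq_zero.mp h4.symm).resolve_left (pow_ne_zero _ h6)

end Fermat.Agent.S28
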