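import Fermat.Prelude.Def_GaloisRep_Flat
import Fermat.Prelude.Def_ModularCurve_LaurentCoeff
import Mathlib

set_option autoImplicit false
noncomputable section

namespace Fermat.Agent.S28

open TensorProduct

/-- TASK M8a.  Any two ring homs out of `ℤ_(ℓ) = ratLocalizedAt ℓ` agree. -/
theorem tensor_ratLocalizedAt_ringHom_ext (ℓ : ℕ) {S : Type*} [Semiring S]
    (f g : ↥(GaloisRep.ratLocalizedAt ℓ) →+* S) : f = g := by
  have hneg : f (-1) = g (-1) := by
    calc f (-1) = f (-1) + (g 1 + g (-1)) := by rw [← map_add]; simp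
      _ = (f (-1) + f 1) + g (-1) := by rw [map_one, map_one, add_assoc]
      _ = g (-1) := by rw [← map_add]; simp
  have hnat : ∀ n : ℕ, f n = g n := fun n => by rw [map_natCast, map_natCast]
  have hint : ∀ n : ℤ, f n = g n := by
    intro n
    obtain ⟨m, rfl | rfl⟩ := n.eq_nat_or_neg
    · simp
    · have : ((-(m : ℤ) : ℤ) : GaloisRep.ratLocalizedAt ℓ)
          = (-1) * (m : GaloisRep.ratLocalizedAt ℓ) := by push_cast; ring
      rw [this, map_mul, map_mul, hneg, hnat]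
  ext x
  obtain ⟨x, hx⟩ := x
  have hden : ((x.den : ℚ)⁻¹) ∈ GaloisRep.ratLocalizedAt ℓ := by
    show ((x.den : ℚ)⁻¹).den.Coprime ℓ
    rw [Rat.inv_natCast_den_of_pos x.den_pos]
    exact hx
  set i : GaloisRep.ratLocalizedAt ℓ := ⟨(x.den : ℚ)⁻¹, hden⟩ with hi
  have hd0 : (x.den : ℚ) ≠ 0 := by exact_mod_cast x.den_nz
  have h1 : (x.den : GaloisRep.ratLocalizedAt ℓ) * i = 1 := by
    apply Subtype.ext
    show (x.den : ℚ) * (x.den : ℚ)⁻¹ = 1
    exact mul_inv_cancel₀ hd0
  have h2 : i * (x.den : GaloisRep.ratLocalizedAt ℓ) = 1 := by rw [mul_comm, h1]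
  have hfi : f i = g i := by
    calc f i = f i * (g (x.den : GaloisRep.ratLocalizedAt ℓ) * g i) := by
          rw [← map_mul, h1, map_one, mul_one]
      _ = (f i * f (x.den : GaloisRep.ratLocalizedAt ℓ)) * g i := by rw [hnat, mul_assoc]
      _ = g i := by rw [← map_mul, h2, map_one, one_mul]
  have hx' : (⟨x, hx⟩ : GaloisRep.ratLocalizedAt ℓ) = (x.num : GaloisRep.ratLocalizedAt ℓ) * i := by
    apply Subtype.ext
    show x = (x.num : ℚ) * (x.den : ℚ)⁻¹
    rw [← div_eq_mul_inv, Rat.num_div_den]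
  rw [hx', map_mul, map_mul, hint, hfi]

section tensor

variable (ℓ : ℕ) [Fact ℓ.Prime]
    (A : Type) [CommRing A] [Algebra ↥(GaloisRep.ratLocalizedAt ℓ) A]
    (K : Type) [Field K] [CharP K ℓ] [Algebra ↥(GaloisRep.ratLocalizedAt ℓ) K]
    (red : A →+* LaurentSeries (ZMod ℓ))

/-- `a ↦ red a`, with coefficients pushed to `K`, as an algebra hom. -/
def tensorRedK : A →ₐ[↥(GaloisRep.ratLocalizedAt ℓ)] LaurentSeries K :=
  { (ModularCurve.coeffMap (ZMod.castHom (dvd_refl ℓ) K)).comp red with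
    commutes' := fun r => congrFun (congrArg DFunLike.coe (tensor_ratLocalizedAt_ringHom_ext ℓ
      (((ModularCurve.coeffMap (ZMod.castHom (dvd_refl ℓ) K)).comp red).comp
        (algebraMap ↥(GaloisRep.ratLocalizedAt ℓ) A))
      (algebraMap ↥(GaloisRep.ratLocalizedAt ℓ) (LaurentSeries K)))) r }

theorem tensorRedK_coeff (a : A) (n : ℤ) :
    (tensorRedK ℓ A K red a).coeff n = ZMod.castHom (dvd_refl ℓ) K ((red a).coeff n) := rfl

/-- constants, as an algebra hom. -/
def tensorConstK : K →ₐ[↥(GaloisRep.ratLocalizedAt ℓ)] LaurentSeries K :=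
  { (HahnSeries.C : K →+* LaurentSeries K) with
    commutes' := fun r => congrFun (congrArg DFunLike.coe (tensor_ratLocalizedAt_ringHom_ext ℓ
      ((HahnSeries.C : K →+* LaurentSeries K).comp (algebraMap ↥(GaloisRep.ratLocalizedAt ℓ) K))
      (algebraMap ↥(GaloisRep.ratLocalizedAt ℓ) (LaurentSeries K)))) r }

/-- the comparison map `A ⊗ K → K((q))`. -/
def tensorPsi : A ⊗[↥(GaloisRep.ratLocalizedAt ℓ)] K →ₐ[↥(GaloisRep.ratLocalizedAt ℓ)]
    LaurentSeries K :=
  Algebra.TensorProduct.productMap (tensorRedK ℓ A K red) (tensorConstK ℓ K)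

theorem tensorPsi_tmul_coeff (a : A) (c : K) (n : ℤ) :
    (tensorPsi ℓ A K red (a ⊗ₜ c)).coeff n
      = ZMod.castHom (dvd_refl ℓ) K ((red a).coeff n) * c := by
  rw [tensorPsi, Algebra.TensorProduct.productMap_apply_tmul]
  show (tensorRedK ℓ A K red a * HahnSeries.single 0 c).coeff n = _
  rw [HahnSeries.coeff_mul_single_zero, tensorRedK_coeff]

omit [Fact (Nat.Prime ℓ)] [CharP K ℓ] in
theorem tensor_natCast_smul_tmul (a : A) (m : ℕ) (e : K) :
    a ⊗ₜ[↥(GaloisRep.ratLocalizedAt ℓ)] ((m : K) * e)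
      = ((m : A) * a) ⊗ₜ[↥(GaloisRep.ratLocalizedAt ℓ)] e := by
  have h1 : (m : K) * e = (m : ↥(GaloisRep.ratLocalizedAt ℓ)) • e := by
    rw [Algebra.smul_def, map_natCast]
  have h2 : (m : A) * a = (m : ↥(GaloisRep.ratLocalizedAt ℓ)) • a := by
    rw [Algebra.smul_def, map_natCast]
  rw [h1, h2, TensorProduct.smul_tmul]

/-- Every element of `A ⊗ K` is a finite sum `∑ a_β ⊗ e_β` over a given `𝔽_ℓ`-basis of `K`. -/
theorem tensor_exists_finsupp {ι : Type*}
    (b : @Module.Basis ι (ZMod ℓ) K _ _ (ZMod.algebra K ℓ).toModule)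
    (t : A ⊗[↥(GaloisRep.ratLocalizedAt ℓ)] K) :
    ∃ s : ι →₀ A, t = s.sum (fun β a => a ⊗ₜ[↥(GaloisRep.ratLocalizedAt ℓ)] b β) := by
  let _ := ZMod.algebra K ℓ
  induction t using TensorProduct.induction_on with
  | zero => exact ⟨0, by simp⟩
  | add x y hx hy =>
    obtain ⟨s₁, rfl⟩ := hx
    obtain ⟨s₂, rfl⟩ := hy
    refine ⟨s₁ + s₂, ?_⟩
    rw [Finsupp.sum_add_index']
    · intro β; exact TensorProduct.zero_tmul _ _
    · intro β a₁ a₂; exact TensorProduct.add_tmul _ _ _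
  | tmul a c =>
    refine ⟨(b.repr c).mapRange (fun x : ZMod ℓ => ((x.val : ℕ) : A) * a) (by simp), ?_⟩
    rw [Finsupp.sum_mapRange_index
      (h := fun β a => a ⊗ₜ[↥(GaloisRep.ratLocalizedAt ℓ)] b β)
      (fun β => TensorProduct.zero_tmul _ _)]
    conv_lhs => rw [← b.linearCombination_repr c, Finsupp.linearCombination_apply]
    rw [Finsupp.sum, Finsupp.sum, TensorProduct.tmul_sum]
    refine Finset.sum_congr rfl fun β _ => ?_
    rw [← tensor_natCast_smul_tmul, Algebra.smul_def]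
    congr 2
    show ZMod.castHom (dvd_refl ℓ) K (b.repr c β) = _
    rw [ZMod.castHom_apply, ZMod.natCast_val]

theorem tensorPsi_injective (hker : ∀ a, red a = 0 → ∃ b, a = (ℓ : A) * b) :
    Function.Injective (tensorPsi ℓ A K red) := by
  let _ := ZMod.algebra K ℓ
  rw [injective_iff_map_eq_zero]
  intro t ht
  set b := Module.Basis.ofVectorSpace (ZMod ℓ) K with hb
  obtain ⟨s, rfl⟩ := tensor_exists_finsupp ℓ A K b t
  have hred : ∀ β, red (s β) = 0 := by
    intro β
    ext n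
    have hn := congrArg (fun x => HahnSeries.coeff x n) ht
    simp only [Finsupp.sum, map_sum, HahnSeries.coeff_sum, tensorPsi_tmul_coeff,
      HahnSeries.coeff_zero] at hn
    set c : _ →₀ ZMod ℓ := s.mapRange (fun a => (red a).coeff n) (by simp) with hc
    have hlin : Finsupp.linearCombination (ZMod ℓ) b c = 0 := by
      rw [Finsupp.linearCombination_apply, hc,
        Finsupp.sum_mapRange_index (h := fun i (a : ZMod ℓ) => a • b i)
          (fun β => zero_smul _ _), Finsupp.sum, ← hn]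
      refine Finset.sum_congr rfl fun β _ => ?_
      rw [Algebra.smul_def]
      rfl
    have hc0 := (linearIndependent_iff.mp b.linearIndependent) c hlin
    have := DFunLike.congr_fun hc0 β
    simpa [hc] using this
  rw [Finsupp.sum]
  refine Finset.sum_eq_zero fun β _ => ?_
  obtain ⟨a', ha'⟩ := hker _ (hred β)
  rw [ha', ← tensor_natCast_smul_tmul, CharP.cast_eq_zero, zero_mul, TensorProduct.tmul_zero]

end tensor

/-- TASK M8b.  If an `ℤ_(ℓ)`-algebra `A` has a ring hom `red` to `𝔽_ℓ((q))` whose kernel is `ℓ A`,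
then `A ⊗ K` is a domain for every field `K` of characteristic `ℓ`
(it embeds into `K((q))` by `a ⊗ c ↦ c • red a`; use a basis of `K` over `ZMod ℓ`). -/
theorem isDomain_tensor_of_red (ℓ : ℕ) [Fact ℓ.Prime]
    (A : Type) [CommRing A] [Algebra ↥(GaloisRep.ratLocalizedAt ℓ) A]
    (K : Type) [Field K] [CharP K ℓ] [Algebra ↥(GaloisRep.ratLocalizedAt ℓ) K]
    (red : A →+* LaurentSeries (ZMod ℓ))
    (hker : ∀ a, red a = 0 → ∃ b, a = (ℓ : A) * b) :
    IsDomain (TensorProduct ↥(GaloisRep.ratLocalizedAt ℓ) A K) :=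
  Function.Injective.isDomain (tensorPsi ℓ A K red).toRingHom (tensorPsi_injective ℓ A K red hker)

/-- TASK M8c. -/
theorem nontrivial_tensor_of_red (ℓ : ℕ) [Fact ℓ.Prime]
    (A : Type) [CommRing A] [Algebra ↥(GaloisRep.ratLocalizedAt ℓ) A]
    (K : Type) [Field K] [CharP K ℓ] [Algebra ↥(GaloisRep.ratLocalizedAt ℓ) K]
    (red : A →+* LaurentSeries (ZMod ℓ)) :
    Nontrivial (TensorProduct ↥(GaloisRep.ratLocalizedAt ℓ) A K) :=
  RingHom.domain_nontrivial (tensorPsi ℓ A K red).toRingHom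

end Fermat.Agent.S28
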