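import Fermat.Agent.S28.Toolkit
import Fermat.Agent.S28.ModEq

/-!
# S28 work package D: classification of the embeddings of `F'` over `ℚ(j)`
-/

set_option autoImplicit false
noncomputable section

namespace Fermat.Agent.S28

open ModularCurve

section Abstract

/-- pigeonhole: an affine family meeting finitely many affine families for every `c`. -/
theorem D_pigeon {K ι : Type*} [Field K] [CharZero K] [Finite ι] (α β : ι → K) (A B : K)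
    (h : ∀ c : ℕ, ∃ i, A + c * B = α i + c * β i) : ∃ i, A = α i ∧ B = β i := by
  choose f hf using h
  obtain ⟨c₁, c₂, hne, heq⟩ := Finite.exists_ne_map_eq_of_infinite f
  refine ⟨f c₁, ?_⟩
  have h1 := hf c₁
  have h2 := hf c₂
  rw [← heq] at h2
  have hc : ((c₁ : K) - c₂) ≠ 0 := sub_ne_zero.mpr (by exact_mod_cast hne)
  have hB : B = β (f c₁) := by
    have : ((c₁ : K) - c₂) * (B - β (f c₁)) = 0 := by linear_combination h1 - h2
    rcases mul_eq_zero.mp this with h | h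
    · exact absurd h hc
    · exact sub_eq_zero.mp h
  refine ⟨?_, hB⟩
  rw [hB] at h1
  exact add_right_cancel h1

/-- ring homs out of `ℚ[Y]` are determined by the image of `Y`. -/
theorem D_ringHom_ext {R : Type*} [Semiring R] (f g : Polynomial ℚ →+* R)
    (h : f Polynomial.X = g Polynomial.X) : f = g :=
  Polynomial.ringHom_ext (fun a => by
    have := RingHom.ext_rat (f.comp Polynomial.C) (g.comp Polynomial.C)
    exact RingHom.congr_fun this a) h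

/-- the final computation in a field. -/
theorem D_finish {K : Type*} [Field K] (sj su2 su1 D0 Dd D2 E2 J2 κ t : K)
    (hsu1 : su1 ≠ 0) (hDd : Dd ≠ 0) (hD2 : D2 ≠ 0) (hκ : κ ≠ 0)
    (hJ : J2 * D2 = E2)
    (hA : sj * su2 / su1 = κ * E2 / Dd) (hB : su2 / su1 = κ * D2 / Dd)
    (hu : su1 * D0 = t * Dd) :
    sj = J2 ∧ su2 * D0 = (κ * t) * D2 := by
  have hB' : su2 = κ * D2 / Dd * su1 := by
    rw [← hB]; field_simp
  constructor
  · have h1 : sj * (κ * D2 / Dd) = J2 * (κ * D2 / Dd) := by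
      rw [← hB, ← mul_div_assoc, hA, ← hJ, hB]; ring
    exact mul_right_cancel₀ (div_ne_zero (mul_ne_zero hκ hD2) hDd) h1
  · rw [hB', mul_assoc, hu]; field_simp

end Abstract

variable (N ℓ : ℕ) [Fact ℓ.Prime]

theorem D_tau_injective : Function.Injective (tau ℓ) := by
  intro a b h
  have ha := resO_tau ℓ a
  have hb := resO_tau ℓ b
  rw [← ha, ← hb]
  congr 1
  exact Subtype.ext h

theorem D_tauU_injective : Function.Injective (tauU ℓ) :=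
  Units.map_injective (D_tau_injective ℓ)

instance D_charZero_Omb : CharZero (Omb ℓ) :=
  charZero_of_injective_ringHom
    (f := (algebraMap (Om ℓ) (Omb ℓ)).comp (HahnSeries.C : EE ℓ →+* Om ℓ)) (RingHom.injective _)

/-- uniqueness of the parameters. -/
theorem D_ev_jq_unique {a a' : (kk ℓ)ˣ} {r r' : ℚ} (hr : 0 < r) (hr' : 0 < r')
    (h : ev ℓ (tauU ℓ a) r (jqModC (EE ℓ)) = ev ℓ (tauU ℓ a') r' (jqModC (EE ℓ))) :
    a = a' ∧ r = r' := by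
  have h1 : phi (tauU ℓ a) r (jqModC (EE ℓ)) = phi (tauU ℓ a') r' (jqModC (EE ℓ)) :=
    (algebraMap (Om ℓ) (Omb ℓ)).injective h
  have ho := congrArg HahnSeries.order h1
  rw [order_phi _ hr, order_phi _ hr', order_jqModC] at ho
  have hl := congrArg HahnSeries.leadingCoeff h1
  rw [leadingCoeff_phi _ hr, leadingCoeff_phi _ hr', order_jqModC, leadingCoeff_jqModC] at hl
  constructor
  · have h2 : (tauU ℓ a) ^ (-1 : ℤ) = (tauU ℓ a') ^ (-1 : ℤ) := by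
      apply Units.ext
      simpa using hl
    have h3 : tauU ℓ a = tauU ℓ a' := by
      simpa using h2
    exact D_tauU_injective ℓ h3
  · push_cast at ho
    linarith

theorem D_coe_jdF {d : ℕ} (hd : d ∣ N) : ((jdF N d : Fp N) : LQ) = jd d := by
  simp [jdF, hd]

theorem D_coe_udF {d : ℕ} (hd : d ∣ N) : ((udF N d : Fp N) : LQ) = ud d := by
  simp [udF, hd]

theorem D_qE_DqC_ne_zero (K : Type*) [Field K] (d : ℕ) : qE K d (DqC K) ≠ 0 := by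
  intro h
  exact DqC_ne_zero K (qE_injective d (by rw [h, map_zero]))

theorem D_ud_ne_zero (d : ℕ) : ud d ≠ 0 :=
  div_ne_zero (D_qE_DqC_ne_zero ℚ d) (DqC_ne_zero ℚ)

theorem D_udF_ne_zero {d : ℕ} (hd : d ∣ N) : udF N d ≠ 0 := by
  intro h
  apply D_ud_ne_zero d
  rw [← D_coe_udF N hd, h]; rfl

/-- `ℚ[Y] → F'`, `Y ↦ x`. -/
def D_evF (x : Fp N) : Polynomial ℚ →+* Fp N := Polynomial.eval₂RingHom (algebraMap ℚ (Fp N)) x

/-- `ℚ[Y] → ℚ((q))`, `Y ↦ x`. -/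
def D_evQ (x : LQ) : Polynomial ℚ →+* LQ := Polynomial.eval₂RingHom (algebraMap ℚ LQ) x

theorem D_root_LQ (p c : ℕ) (hp : p.Prime) (P : Polynomial (Polynomial ℚ))
    (h0 : P.eval₂ (evalJp (EE ℓ) p) (rootInf (EE ℓ) p 1 c) = 0) :
    P.eval₂ (D_evQ jq) (qE ℚ p (gqC ℚ 1 c) / DqC ℚ) = 0 := by
  set θ : LQ →+* LaurentSeries (EE ℓ) := (qE (EE ℓ) p).comp (iota0 ℓ) with hθ
  apply θ.injective
  rw [map_zero, Polynomial.hom_eval₂]
  have h1 : θ.comp (D_evQ jq) = evalJp (EE ℓ) p := by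
    apply D_ringHom_ext
    simp only [hθ, D_evQ, evalJp, RingHom.comp_apply, Polynomial.coe_eval₂RingHom,
      Polynomial.eval₂_X, iota0]
    rw [← jqModC_rat_eq, coeffMap_jqModC]
  have h2 : θ (qE ℚ p (gqC ℚ 1 c) / DqC ℚ) = rootInf (EE ℓ) p 1 c := by
    rw [map_div₀]
    simp only [hθ, RingHom.comp_apply, iota0, rootInf]
    rw [coeffMap_qE, coeffMap_gqC, coeffMap_DqC, qE_qE p p hp.ne_zero hp.ne_zero]
  rw [h1, h2, h0]

theorem D_root_Fp (hN : N ≠ 0) (p d c : ℕ) (hp : p.Prime) (hpd : p * d ∣ N)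
    (P : Polynomial (Polynomial ℚ))
    (h0 : P.eval₂ (evalJp (EE ℓ) p) (rootInf (EE ℓ) p 1 c) = 0) :
    P.eval₂ (D_evF N (jdF N d)) ((jdF N (p * d) + c) * udF N (p * d) / udF N d) = 0 := by
  have hd : d ∣ N := (Dvd.intro_left p rfl).trans hpd
  have hd0 : d ≠ 0 := by rintro rfl; exact hN (by simpa using hd)
  have h1 := D_root_LQ ℓ p c hp P h0
  have h2 := congrArg (qE ℚ d) h1
  rw [map_zero, Polynomial.hom_eval₂] at h2
  apply (algebraMap (Fp N) LQ).injective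
  rw [map_zero, Polynomial.hom_eval₂]
  have h3 : (algebraMap (Fp N) LQ).comp (D_evF N (jdF N d)) = (qE ℚ d).comp (D_evQ jq) := by
    apply D_ringHom_ext
    simp only [D_evQ, D_evF, RingHom.comp_apply, Polynomial.coe_eval₂RingHom,
      Polynomial.eval₂_X]
    exact D_coe_jdF N hd
  have h4 : algebraMap (Fp N) LQ ((jdF N (p * d) + c) * udF N (p * d) / udF N d) =
      qE ℚ d (qE ℚ p (gqC ℚ 1 c) / DqC ℚ) := by
    rw [map_div₀, map_div₀, map_mul, map_add, map_natCast]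
    have e1 : algebraMap (Fp N) LQ (jdF N (p * d)) = jd (p * d) := D_coe_jdF N hpd
    have e2 : algebraMap (Fp N) LQ (udF N (p * d)) = ud (p * d) := D_coe_udF N hpd
    have e3 : algebraMap (Fp N) LQ (udF N d) = ud d := D_coe_udF N hd
    rw [e1, e2, e3, qE_qE d p hd0 hp.ne_zero, gqC_eq, map_mul, map_add, map_mul, map_natCast,
      map_natCast, mul_comm d p]
    have hD := DqC_ne_zero ℚ
    have hD1 := D_qE_DqC_ne_zero ℚ d
    simp only [ud, jd, jqModC_rat_eq]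
    field_simp
    simp [mul_comm]
  rw [h3, h4, h2]

/-- the roots of the modular equation, transported by `σ`. -/
theorem D_sigma_root (hN : N ≠ 0) (σ : Fp N →+* Omb ℓ) (p d c : ℕ) (hp : p.Prime)
    (hpd : p * d ∣ N) (ζ : (EE ℓ)ˣ) (hζ : IsPrimitiveRoot ζ p)
    (φ' : LaurentSeries (EE ℓ) →+* Omb ℓ)
    (hj : σ (jdF N d) = φ' (qE (EE ℓ) p (jqModC (EE ℓ)))) :
    σ ((jdF N (p * d) + c) * udF N (p * d) / udF N d) = φ' (rootInf (EE ℓ) p 1 c) ∨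
      ∃ b ∈ Finset.range p,
        σ ((jdF N (p * d) + c) * udF N (p * d) / udF N d) = φ' (rootFin (EE ℓ) p 1 c ζ b) := by
  obtain ⟨P, -, hP⟩ := modEq (EE ℓ) p hp ζ hζ 1 c
  have h0 : P.eval₂ (evalJp (EE ℓ) p) (rootInf (EE ℓ) p 1 c) = 0 := by
    rw [← Polynomial.eval_map, hP]
    simp
  have h5 := congrArg σ (D_root_Fp N ℓ hN p d c hp hpd P h0)
  rw [map_zero, Polynomial.hom_eval₂] at h5
  have h6 : σ.comp (D_evF N (jdF N d)) = φ'.comp (evalJp (EE ℓ) p) := by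
    apply D_ringHom_ext
    simp only [D_evF, evalJp, RingHom.comp_apply, Polynomial.coe_eval₂RingHom,
      Polynomial.eval₂_X]
    exact hj
  rw [h6, ← Polynomial.eval_map, ← Polynomial.map_map, hP] at h5
  simp only [Polynomial.map_mul, Polynomial.map_sub, Polynomial.map_X, Polynomial.map_C,
    Polynomial.map_prod, Polynomial.eval_mul, Polynomial.eval_sub, Polynomial.eval_X,
    Polynomial.eval_C, Polynomial.eval_prod] at h5
  rcases mul_eq_zero.mp h5 with h | h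
  · exact Or.inl (sub_eq_zero.mp h)
  · obtain ⟨b, hb, hb'⟩ := Finset.prod_eq_zero_iff.mp h
    exact Or.inr ⟨b, hb, sub_eq_zero.mp hb'⟩

theorem D_ev_DqC_ne_zero (ξ : (EE ℓ)ˣ) (r : ℚ) : ev ℓ ξ r (DqC (EE ℓ)) ≠ 0 := by
  intro h
  exact DqC_ne_zero (EE ℓ) ((ev ℓ ξ r).injective (by rw [h, map_zero]))

/-- the induction step `d → p d`. -/
theorem D_step (hN : N ≠ 0) (hℓN : ¬ ℓ ∣ N) (σ : Fp N →+* Omb ℓ) (p d : ℕ) (hp : p.Prime)
    (hpd : p * d ∣ N) (a : (kk ℓ)ˣ) (r : ℚ) (s : ℕ) (hs : s ∣ d) (hr : r * (s : ℚ) ^ 2 = d)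
    (hj : σ (jdF N d) = ev ℓ (tauU ℓ a) r (jqModC (EE ℓ)))
    (hu : σ (udF N d) * ev ℓ 1 1 (DqC (EE ℓ)) =
      ((((s : ℚ)⁻¹) ^ 12 : ℚ) : Omb ℓ) * ev ℓ (tauU ℓ a) r (DqC (EE ℓ))) :
    ∃ (a₂ : (kk ℓ)ˣ) (r₂ : ℚ) (s₂ : ℕ), s₂ ∣ p * d ∧ r₂ * (s₂ : ℚ) ^ 2 = ((p * d : ℕ) : ℚ) ∧
      σ (jdF N (p * d)) = ev ℓ (tauU ℓ a₂) r₂ (jqModC (EE ℓ)) ∧
      σ (udF N (p * d)) * ev ℓ 1 1 (DqC (EE ℓ)) =
        ((((s₂ : ℚ)⁻¹) ^ 12 : ℚ) : Omb ℓ) * ev ℓ (tauU ℓ a₂) r₂ (DqC (EE ℓ)) ∧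
      ((r₂ = p * r ∧ a₂ = a ^ p) ∨ (r₂ = r / p ∧ a₂ ^ p = a)) := by
  classical
  have hd : d ∣ N := (Dvd.intro_left p rfl).trans hpd
  have hd0 : d ≠ 0 := by rintro rfl; exact hN (by simpa using hd)
  have hpℓ : p ≠ ℓ := by rintro rfl; exact hℓN ((Dvd.intro _ rfl).trans hpd)
  have hp0 : (p : ℚ) ≠ 0 := by exact_mod_cast hp.ne_zero
  have hppos : (0 : ℚ) < p := by exact_mod_cast hp.pos
  have hr0 : 0 < r := by
    have h1 : (0 : ℚ) < d := by exact_mod_cast Nat.pos_of_ne_zero hd0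
    rw [← hr] at h1
    by_contra hneg
    have : r * (s : ℚ) ^ 2 ≤ 0 := mul_nonpos_of_nonpos_of_nonneg (not_lt.mp hneg) (sq_nonneg _)
    linarith
  have : NeZero ((p : ℕ) : kk ℓ) := ⟨by
    intro h
    rw [CharP.cast_eq_zero_iff (kk ℓ) ℓ] at h
    exact hpℓ ((Nat.prime_dvd_prime_iff_eq Fact.out hp).mp h).symm⟩
  obtain ⟨ζ0, hζ0⟩ := HasEnoughRootsOfUnity.exists_primitiveRoot (kk ℓ) p
  obtain ⟨ζb, rfl⟩ := hζ0.isUnit hp.ne_zero
  have hζb : IsPrimitiveRoot ζb p := IsPrimitiveRoot.coe_units_iff.mp hζ0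
  have hζ : IsPrimitiveRoot (tauU ℓ ζb) p := hζb.map_of_injective (D_tauU_injective ℓ)
  obtain ⟨a0, ha0⟩ := IsAlgClosed.exists_pow_nat_eq (a : kk ℓ) hp.pos
  have ha0u : IsUnit a0 := by
    have : IsUnit (a0 ^ p) := ha0 ▸ a.isUnit
    exact (isUnit_pow_iff hp.ne_zero).mp this
  obtain ⟨a', rfl⟩ := ha0u
  have ha' : a' ^ p = a := Units.ext (by simpa using ha0)
  have hrp : 0 < r / p := div_pos hr0 hppos
  set φ' := ev ℓ (tauU ℓ a') (r / p) with hφ'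
  have hφqE : ∀ x, φ' (qE (EE ℓ) p x) = ev ℓ (tauU ℓ a) r x := by
    intro x
    simp only [hφ', ev, RingHom.comp_apply]
    rw [phi_qE _ hrp hp.ne_zero, ← map_pow, ha']
    have : (p : ℚ) * (r / p) = r := by field_simp
    rw [this]
  have hφqE2 : ∀ x, φ' (qE (EE ℓ) (p * p) x) = ev ℓ (tauU ℓ (a ^ p)) (p * r) x := by
    intro x
    simp only [hφ', ev, RingHom.comp_apply]
    rw [phi_qE _ hrp (mul_ne_zero hp.ne_zero hp.ne_zero), ← map_pow, pow_mul, ha']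
    have : ((p * p : ℕ) : ℚ) * (r / p) = p * r := by push_cast; field_simp
    rw [this]
  have hφtw : ∀ (b : ℕ) x,
      φ' (twist (tauU ℓ ζb ^ b) x) = ev ℓ (tauU ℓ (ζb ^ b * a')) (r / p) x := by
    intro b x
    simp only [hφ', ev, RingHom.comp_apply]
    rw [phi_twist, ← map_pow, ← map_mul]
  set Dd := ev ℓ (tauU ℓ a) r (DqC (EE ℓ)) with hDd
  -- parameters
  let a₂ : Option (Fin p) → (kk ℓ)ˣ := fun i => i.elim (a ^ p) (fun b => ζb ^ (b : ℕ) * a')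
  let r₂ : Option (Fin p) → ℚ := fun i => i.elim (p * r) (fun _ => r / p)
  let κ : Option (Fin p) → Omb ℓ := fun i => i.elim 1 (fun _ => ((p : Omb ℓ)⁻¹) ^ 12)
  have key : ∀ c : ℕ, ∃ i : Option (Fin p),
      σ (jdF N (p * d) * udF N (p * d) / udF N d) + c * σ (udF N (p * d) / udF N d) =
        κ i * ev ℓ (tauU ℓ (a₂ i)) (r₂ i) (E4cC (EE ℓ)) / Dd +
          c * (κ i * ev ℓ (tauU ℓ (a₂ i)) (r₂ i) (DqC (EE ℓ)) / Dd) := by
    intro c
    have hW : σ (jdF N (p * d) * udF N (p * d) / udF N d) + c * σ (udF N (p * d) / udF N d) =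
        σ ((jdF N (p * d) + c) * udF N (p * d) / udF N d) := by
      rw [← map_natCast σ c, ← map_mul, ← map_add]
      congr 1
      ring
    rw [hW]
    rcases D_sigma_root N ℓ hN σ p d c hp hpd (tauU ℓ ζb) hζ φ' (by rw [hj, hφqE]) with h | h
    · refine ⟨none, ?_⟩
      rw [h]
      simp only [rootInf, gqC, map_div₀, map_add, map_mul, map_natCast, hφqE, hφqE2, a₂, r₂, κ,
        Option.elim_none]
      rw [← hDd]
      ring
    · obtain ⟨b, hb, hb'⟩ := h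
      refine ⟨some ⟨b, Finset.mem_range.mp hb⟩, ?_⟩
      rw [hb']
      simp only [rootFin, gqC, map_div₀, map_add, map_mul, map_natCast, map_pow, map_inv₀,
        hφqE, hφtw, a₂, r₂, κ, Option.elim_some]
      rw [← hDd]
      ring
  obtain ⟨i, hA, hB⟩ := D_pigeon _ _ _ _ key
  rw [map_div₀, map_mul] at hA
  rw [map_div₀] at hB
  have hpO : (p : Omb ℓ) ≠ 0 := by exact_mod_cast hp.ne_zero
  have hκ : κ i ≠ 0 := by
    cases i with
    | none => exact one_ne_zero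
    | some b => exact pow_ne_zero _ (inv_ne_zero hpO)
  have hJ : ev ℓ (tauU ℓ (a₂ i)) (r₂ i) (jqModC (EE ℓ)) * ev ℓ (tauU ℓ (a₂ i)) (r₂ i) (DqC (EE ℓ)) =
      ev ℓ (tauU ℓ (a₂ i)) (r₂ i) (E4cC (EE ℓ)) := by
    rw [← map_mul, jqModC_mul_DqC]
  have hsu1 : σ (udF N d) ≠ 0 := by
    intro h
    exact D_udF_ne_zero N hd (σ.injective (by rw [h, map_zero]))
  obtain ⟨h1, h2⟩ := D_finish _ _ _ (ev ℓ 1 1 (DqC (EE ℓ))) Dd _ _ _ (κ i)
    ((((s : ℚ)⁻¹) ^ 12 : ℚ) : Omb ℓ) hsu1 (D_ev_DqC_ne_zero ℓ _ _) (D_ev_DqC_ne_zero ℓ _ _) hκ hJ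
    hA hB hu
  cases i with
  | none =>
    refine ⟨a ^ p, p * r, s, hs.mul_left p, ?_, h1, ?_, Or.inl ⟨rfl, rfl⟩⟩
    · push_cast; rw [← hr]; ring
    · rw [h2]; simp [κ, a₂, r₂]
  | some b =>
    refine ⟨ζb ^ (b : ℕ) * a', r / p, p * s, mul_dvd_mul_left p hs, ?_, h1, ?_, Or.inr ⟨rfl, ?_⟩⟩
    · push_cast; rw [← hr]; field_simp
    · rw [h2]
      simp only [κ, a₂, r₂, Option.elim_some]
      congr 1
      push_cast
      rw [mul_inv, mul_pow]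
    · rw [mul_pow, ← pow_mul, mul_comm (b : ℕ) p, pow_mul, hζb.pow_eq_one, one_pow, one_mul, ha']

/-- the property of the parameters at `d`. -/
def D_Good (σ : Fp N →+* Omb ℓ) (d : ℕ) (a : (kk ℓ)ˣ) (r : ℚ) (s : ℕ) : Prop :=
  s ∣ d ∧ r * (s : ℚ) ^ 2 = d ∧
    σ (jdF N d) = ev ℓ (tauU ℓ a) r (jqModC (EE ℓ)) ∧
    σ (udF N d) * ev ℓ 1 1 (DqC (EE ℓ)) =
      ((((s : ℚ)⁻¹) ^ 12 : ℚ) : Omb ℓ) * ev ℓ (tauU ℓ a) r (DqC (EE ℓ))

theorem D_Good_pos {σ : Fp N →+* Omb ℓ} {d : ℕ} {a : (kk ℓ)ˣ} {r : ℚ} {s : ℕ} (hd0 : d ≠ 0)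
    (h : D_Good N ℓ σ d a r s) : 0 < r := by
  have h1 : (0 : ℚ) < d := by exact_mod_cast Nat.pos_of_ne_zero hd0
  rw [← h.2.1] at h1
  by_contra hneg
  have : r * (s : ℚ) ^ 2 ≤ 0 := mul_nonpos_of_nonpos_of_nonneg (not_lt.mp hneg) (sq_nonneg _)
  linarith

theorem D_Good_one (σ : Fp N →+* Omb ℓ) (hσ : σ (jF N) = iotaB ℓ jq) :
    D_Good N ℓ σ 1 1 1 1 := by
  refine ⟨dvd_rfl, by norm_num, ?_, ?_⟩
  · have h1 : jdF N 1 = jF N := Subtype.ext (by rw [D_coe_jdF N (one_dvd N), jd_one]; rfl)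
    rw [h1, hσ, tauU_one]
    simp only [iotaB, RingHom.comp_apply, iota0]
    rw [← jqModC_rat_eq, coeffMap_jqModC]
  · have h1 : udF N 1 = 1 := Subtype.ext (by
      rw [D_coe_udF N (one_dvd N)]
      simp only [ud]
      rw [qE_eq, qExpand_one_apply, div_self (DqC_ne_zero ℚ)]; rfl)
    rw [h1, tauU_one]
    simp

theorem D_exists_Good (hN : N ≠ 0) (hℓN : ¬ ℓ ∣ N) (σ : Fp N →+* Omb ℓ)
    (hσ : σ (jF N) = iotaB ℓ jq) (d : ℕ) :
    d ∣ N → ∃ (a : (kk ℓ)ˣ) (r : ℚ) (s : ℕ), D_Good N ℓ σ d a r s := by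
  induction d using induction_on_primes with
  | zero => intro h; exact absurd (zero_dvd_iff.mp h) hN
  | one => intro _; exact ⟨1, 1, 1, D_Good_one N ℓ σ hσ⟩
  | prime_mul p d hp ih =>
    intro hpd
    obtain ⟨a, r, s, h1, h2, h3, h4⟩ := ih ((Dvd.intro_left p rfl).trans hpd)
    obtain ⟨a₂, r₂, s₂, g1, g2, g3, g4, -⟩ := D_step N ℓ hN hℓN σ p d hp hpd a r s h1 h2 h3 h4
    exact ⟨a₂, r₂, s₂, g1, g2, g3, g4⟩

/-- D.  Every embedding `σ` of `F' = ℚ(j(q^d), Δ(q^d)/Δ(q))` into `Ω̄` fixing `j` is given on the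
generators by substitutions `q ↦ τ(a_d) q^{r_d}`.

PROOF.  *Uniqueness*: `ev (τ a) r j` has leading term `τ(a)⁻¹ q^{-r}`, so it determines `(a, r)`
(`τ` is injective as `res ∘ τ = id`).
*Step* `d → p d` (`p` prime, `p d ∣ N`, so `p ≠ ℓ`): let `ζ = τ(ζ̄)`, `ζ̄ ∈ 𝔽̄_ℓ` a primitive `p`-th
root of unity, `a' ∈ 𝔽̄_ℓ` with `a'^p = a_d`, `φ' = ev (τ a') (r_d / p)`.  For `c ∈ ℕ` take `P` from
`modEq (EE ℓ) p _ ζ _ 1 c`.  In `ℚ((q))`, `w_c := g_c(q^p)/Δ(q)` (`g_c = E₄³ + cΔ = (j + c) Δ`) is a root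
of `P(·; j)` (apply the injective map `x ↦ qE p (iota0 x)`, under which `w_c ↦ rootInf`).  Apply
`qE ℚ d`: `(j(q^{pd}) + c) u_{pd} / u_d` is a root of `P(·; j(q^d))`.  Apply `σ` and use
`σ(j(q^d)) = ev (τ a_d) r_d j = φ'(j(T^p))`: so `σ((j_{pd} + c) u_{pd}/u_d)` is a root of
`(P.map (evalJp ..)).map φ' = (X - φ' rootInf) ∏ (X - φ' rootFin_b)`.  By the pigeonhole principle two
different `c` give the same factor `α`; subtracting, `σ(u_{pd}/u_d)` and `σ(j_{pd} u_{pd}/u_d)` are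
the corresponding expressions, whence the claim with
`(a, r, s)_{pd} = (a_d^p, p r_d, s_d)` or `(ζ̄^b a', r_d / p, p s_d)` (`phi_qE_twist`). -/
theorem exists_param (hN : N ≠ 0) (hℓN : ¬ ℓ ∣ N) (σ : Fp N →+* Omb ℓ)
    (hσ : σ (jF N) = iotaB ℓ jq) :
    ∃ (a : ℕ → (kk ℓ)ˣ) (r : ℕ → ℚ) (s : ℕ → ℕ),
      a 1 = 1 ∧ r 1 = 1 ∧
      (∀ d, d ∣ N → s d ∣ d ∧ r d * (s d : ℚ) ^ 2 = d ∧
        σ (jdF N d) = ev ℓ (tauU ℓ (a d)) (r d) (jqModC (EE ℓ)) ∧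
        σ (udF N d) * ev ℓ 1 1 (DqC (EE ℓ)) =
          ((((s d : ℚ)⁻¹) ^ 12 : ℚ) : Omb ℓ) * ev ℓ (tauU ℓ (a d)) (r d) (DqC (EE ℓ))) ∧
      (∀ p d : ℕ, p.Prime → p * d ∣ N →
        (r (p * d) = p * r d ∧ a (p * d) = a d ^ p) ∨
        (r (p * d) = r d / p ∧ a (p * d) ^ p = a d)) := by
  classical
  have H := D_exists_Good N ℓ hN hℓN σ hσ
  have H' : ∀ d : ℕ, ∃ (a : (kk ℓ)ˣ) (r : ℚ) (s : ℕ), d ∣ N → D_Good N ℓ σ d a r s := by
    intro d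
    by_cases hd : d ∣ N
    · obtain ⟨a, r, s, h⟩ := H d hd
      exact ⟨a, r, s, fun _ => h⟩
    · exact ⟨1, 1, 1, fun h => absurd h hd⟩
  choose a r s hG using H'
  have hne : ∀ d, d ∣ N → d ≠ 0 := by
    rintro d hd rfl
    exact hN (zero_dvd_iff.mp hd)
  have huniq : ∀ d, d ∣ N → ∀ (a' : (kk ℓ)ˣ) (r' : ℚ) (s' : ℕ), D_Good N ℓ σ d a' r' s' →
      a d = a' ∧ r d = r' := by
    intro d hd a' r' s' h'
    have h := hG d hd
    exact D_ev_jq_unique ℓ (D_Good_pos N ℓ (hne d hd) h) (D_Good_pos N ℓ (hne d hd) h')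
      (h.2.2.1.symm.trans h'.2.2.1)
  obtain ⟨ha1, hr1⟩ := huniq 1 (one_dvd N) 1 1 1 (D_Good_one N ℓ σ hσ)
  refine ⟨a, r, s, ha1, hr1, fun d hd => hG d hd, ?_⟩
  intro p d hp hpd
  obtain ⟨h1, h2, h3, h4⟩ := hG d ((Dvd.intro_left p rfl).trans hpd)
  obtain ⟨a₂, r₂, s₂, g1, g2, g3, g4, g5⟩ :=
    D_step N ℓ hN hℓN σ p d hp hpd (a d) (r d) (s d) h1 h2 h3 h4
  obtain ⟨e1, e2⟩ := huniq (p * d) hpd a₂ r₂ s₂ ⟨g1, g2, g3, g4⟩
  rw [e1, e2]
  exact g5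

end Fermat.Agent.S28
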