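import Fermat.Agent.S28.Concrete
import Fermat.Agent.S28.AI
import Fermat.Agent.S28.ToolkitGF

/-!
# S28 work package C: toolkit for the substitutions `T ↦ ξ q^r` and the formal modular forms
-/

set_option autoImplicit false
noncomputable section

namespace Fermat.Agent.S28

open ModularCurve

/-! Sections General and Field (package C1) live in `Fermat/Agent/S28/ToolkitGF.lean`. -/

section Concrete

variable (ℓ : ℕ) [Fact ℓ.Prime]

theorem inclV_injective : Function.Injective (inclV ℓ) := by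
  intro x y h
  exact Subtype.ext ((algebraMap (Om ℓ) (Omb ℓ)).injective h)

/-- the value of `coeffEquiv`. -/
theorem c2_coeffEquiv_val {Γ : Type*} [AddCommMonoid Γ] [PartialOrder Γ]
    [IsOrderedCancelAddMonoid Γ] {E : Type*} [CommRing E] (S : Subring E) (x : HahnSeries Γ S) :
    ((coeffEquiv (Γ := Γ) S x : coeffSubring (Γ := Γ) S) : HahnSeries Γ E) = hmap S.subtype x := rfl

theorem c2_redH_coeffEquiv {Γ : Type*} [AddCommMonoid Γ] [PartialOrder Γ]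
    [IsOrderedCancelAddMonoid Γ] {E k : Type*} [CommRing E] [CommRing k] (S : Subring E)
    (res : S →+* k) (x : HahnSeries Γ S) :
    redH (Γ := Γ) S res (coeffEquiv (Γ := Γ) S x) = hmap res x := by
  show hmap res ((coeffEquiv S).symm (coeffEquiv S x)) = _
  rw [RingEquiv.symm_apply_apply]

theorem c2_natCast_coeff {Γ : Type*} [AddCommMonoid Γ] [PartialOrder Γ]
    [IsOrderedCancelAddMonoid Γ] {R : Type*} [CommRing R] (n : ℕ) (x : HahnSeries Γ R) (γ : Γ) :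
    ((n : HahnSeries Γ R) * x).coeff γ = (n : R) * x.coeff γ := by
  rw [← HahnSeries.single_zero_natCast, HahnSeries.coeff_single_zero_mul]

theorem c2_hmap_C {Γ : Type*} [AddCommMonoid Γ] [PartialOrder Γ]
    [IsOrderedCancelAddMonoid Γ] {R S : Type*} [CommRing R] [CommRing S] (f : R →+* S) (c : R) :
    hmap (Γ := Γ) f (HahnSeries.C c) = HahnSeries.C (f c) := by
  ext γ
  rw [hmap_coeff, HahnSeries.C_apply, HahnSeries.C_apply, HahnSeries.coeff_single,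
    HahnSeries.coeff_single, apply_ite f, map_zero]

/-- kernel of the reduction. -/
theorem redV_eq_zero_iff (v : VV ℓ) : redV ℓ v = 0 ↔ ∃ w : VV ℓ, v = (ℓ : VV ℓ) * w := by
  classical
  constructor
  · intro h
    obtain ⟨x, rfl⟩ := (coeffEquiv (Γ := ℚ) (SO ℓ)).surjective v
    have h' : hmap (Γ := ℚ) (resO ℓ) x = 0 := by
      rw [← c2_redH_coeffEquiv]; exact h
    have hc : ∀ γ : ℚ, ∃ y : SO ℓ, x.coeff γ = (ℓ : SO ℓ) * y := by
      intro γ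
      rw [← resO_eq_zero_iff, ← hmap_coeff, h', HahnSeries.coeff_zero]
    choose y hy using hc
    let w : HahnSeries ℚ (SO ℓ) :=
      HahnSeries.mk (fun γ => if x.coeff γ = 0 then 0 else y γ) (x.isPWO_support.mono (by
        intro γ hγ
        simp only [Function.mem_support, ne_eq, ite_eq_left_iff, not_forall] at hγ
        exact hγ.1))
    refine ⟨coeffEquiv (Γ := ℚ) (SO ℓ) w, ?_⟩
    rw [← map_natCast (coeffEquiv (Γ := ℚ) (SO ℓ)), ← map_mul]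
    congr 1
    refine HahnSeries.ext (funext fun γ => ?_)
    rw [c2_natCast_coeff]
    show _ = ((ℓ : SO ℓ) * (if x.coeff γ = 0 then 0 else y γ) : SO ℓ)
    split_ifs with h0
    · rw [h0, mul_zero]
    · rw [hy γ]
  · rintro ⟨w, rfl⟩
    rw [map_mul, map_natCast]
    have : ((ℓ : ℕ) : HahnSeries ℚ (kk ℓ)) = 0 := by
      rw [← map_natCast (HahnSeries.C (Γ := ℚ) (R := kk ℓ)), CharP.cast_eq_zero, map_zero]
    rw [this, zero_mul]

/-- the Teichmüller unit of `W`. -/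
def c2TauS (a : (kk ℓ)ˣ) : (SO ℓ)ˣ where
  val := ⟨tau ℓ a, tau_mem ℓ a⟩
  inv := ⟨tau ℓ (a⁻¹ : (kk ℓ)ˣ), tau_mem ℓ _⟩
  val_inv := Subtype.ext (by
    show tau ℓ a * tau ℓ (a⁻¹ : (kk ℓ)ˣ) = 1
    rw [← map_mul, Units.mul_inv, map_one])
  inv_val := Subtype.ext (by
    show tau ℓ (a⁻¹ : (kk ℓ)ˣ) * tau ℓ a = 1
    rw [← map_mul, Units.inv_mul, map_one])

/-- KEY: substitutions of integral series lift to `V`, and reduce to the same substitution over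
`𝔽̄_ℓ`. -/
theorem exists_lift_ev (a : (kk ℓ)ˣ) {r : ℚ} (hr : 0 < r) (x₀ : LaurentSeries ℤ) :
    ∃ v : VV ℓ, inclV ℓ v = ev ℓ (tauU ℓ a) r (coeffMap (Int.castRingHom (EE ℓ)) x₀) ∧
      redV ℓ v = phi a r (coeffMap (Int.castRingHom (kk ℓ)) x₀) := by
  refine ⟨coeffEquiv (Γ := ℚ) (SO ℓ)
    (phi (c2TauS ℓ a) r (coeffMap (Int.castRingHom (SO ℓ)) x₀)), ?_, ?_⟩
  · show algebraMap (Om ℓ) (Omb ℓ) (hmap (SO ℓ).subtype _) = algebraMap (Om ℓ) (Omb ℓ) _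
    congr 1
    rw [hmap_phi, coeffMap_coeffMap]
    have h1 : Units.map ((SO ℓ).subtype : SO ℓ →* EE ℓ) (c2TauS ℓ a) = tauU ℓ a :=
      Units.ext rfl
    have h2 : (SO ℓ).subtype.comp (Int.castRingHom (SO ℓ)) = Int.castRingHom (EE ℓ) :=
      RingHom.ext_int _ _
    rw [h1, h2]
  · show redH (SO ℓ) (resO ℓ) _ = _
    rw [c2_redH_coeffEquiv, hmap_phi, coeffMap_coeffMap]
    have h1 : Units.map ((resO ℓ : SO ℓ →+* kk ℓ) : SO ℓ →* kk ℓ) (c2TauS ℓ a) = a :=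
      Units.ext (resO_tau ℓ a)
    have h2 : (resO ℓ).comp (Int.castRingHom (SO ℓ)) = Int.castRingHom (kk ℓ) :=
      RingHom.ext_int _ _
    rw [h1, h2]

/-- `ℤ_(ℓ) → W`. -/
def c2Incl : Zl ℓ →+* SO ℓ :=
  ((Rat.castHom (EE ℓ)).comp (GaloisRep.ratLocalizedAt ℓ).subtype).codRestrict (SO ℓ)
    (fun c => (ratCast_mem_iff ℓ (SO ℓ) (isDVRIn_SO ℓ) (inv_l_notMem_SO ℓ) (c : ℚ)).2 c.2)

theorem c2Incl_val (c : Zl ℓ) : ((c2Incl ℓ c : SO ℓ) : EE ℓ) = ((c : ℚ) : EE ℓ) := rfl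

/-- there is a ring hom `ρ : ℤ_(ℓ) → 𝔽̄_ℓ` with kernel `(ℓ)` compatible with everything. -/
theorem exists_rho : ∃ ρ : Zl ℓ →+* kk ℓ, (∀ c, ρ c = 0 ↔ ∃ y : Zl ℓ, c = (ℓ : Zl ℓ) * y) ∧
    ∀ c : Zl ℓ, ∃ v : VV ℓ, inclV ℓ v = (((c : ℚ) : ℚ) : Omb ℓ) ∧ redV ℓ v = HahnSeries.C (ρ c) := by
  refine ⟨(resO ℓ).comp (c2Incl ℓ), ?_, ?_⟩
  · intro c
    have h : (resO ℓ).comp (c2Incl ℓ) = (ZMod.castHom (dvd_refl ℓ) (kk ℓ)).comp (resZ ℓ) :=
      ratLocalizedAt_ringHom_ext ℓ _ _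
    rw [h, RingHom.comp_apply, map_eq_zero, resZ_eq_zero_iff]
  · intro c
    refine ⟨coeffEquiv (Γ := ℚ) (SO ℓ) (HahnSeries.C (c2Incl ℓ c)), ?_, ?_⟩
    · show algebraMap (Om ℓ) (Omb ℓ) (hmap (SO ℓ).subtype _) = _
      rw [c2_hmap_C]
      show algebraMap (Om ℓ) (Omb ℓ) (HahnSeries.C (((c : ℚ) : EE ℓ))) = _
      rw [map_ratCast, map_ratCast]
    · show redH (SO ℓ) (resO ℓ) _ = _
      rw [c2_redH_coeffEquiv, c2_hmap_C]
      rfl

/-- constants from `ℤ_(ℓ)` lift to `V`; the reduction is a constant, which vanishes iff `ℓ ∣ c`. -/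
theorem exists_lift_const (c : Zl ℓ) :
    ∃ (v : VV ℓ) (c' : kk ℓ), inclV ℓ v = (((c : ℚ) : ℚ) : Omb ℓ) ∧ redV ℓ v = HahnSeries.C c' ∧
      (c' = 0 ↔ ∃ y : Zl ℓ, c = (ℓ : Zl ℓ) * y) := by
  obtain ⟨ρ, h1, h2⟩ := exists_rho ℓ
  obtain ⟨v, hv1, hv2⟩ := h2 c
  exact ⟨v, ρ c, hv1, hv2, h1 c⟩

/-- the standard embedding in terms of `ev`. -/
theorem iotaB_coeffMap_int (x₀ : LaurentSeries ℤ) :
    iotaB ℓ (coeffMap (Int.castRingHom ℚ) x₀) = ev ℓ 1 1 (coeffMap (Int.castRingHom (EE ℓ)) x₀) := by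
  show ev ℓ 1 1 (coeffMap (Rat.castHom (EE ℓ)) (coeffMap (Int.castRingHom ℚ) x₀)) = _
  rw [coeffMap_coeffMap]
  have h2 : (Rat.castHom (EE ℓ)).comp (Int.castRingHom ℚ) = Int.castRingHom (EE ℓ) :=
    RingHom.ext_int _ _
  rw [h2]

theorem tauU_one : tauU ℓ 1 = 1 := map_one _

/-- `V` is integrally closed in its fraction field inside `Ω̄`. -/
theorem inclV_integrally_closed (y : Omb ℓ) (hy : IsIntegral (inclV ℓ).range y)
    (hb : ∃ b ∈ (inclV ℓ).range, b ≠ 0 ∧ b * y ∈ (inclV ℓ).range) : y ∈ (inclV ℓ).range := by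
  obtain ⟨_, ⟨b, rfl⟩, hb0, ⟨c, hc⟩⟩ := hb
  have hinj := (algebraMap (Om ℓ) (Omb ℓ)).injective
  have hb0' : (b : Om ℓ) ≠ 0 := by
    intro h
    apply hb0
    show algebraMap (Om ℓ) (Omb ℓ) (b : Om ℓ) = 0
    rw [h, map_zero]
  set y' : Om ℓ := (c : Om ℓ) / (b : Om ℓ) with hy'
  have hyy' : y = algebraMap (Om ℓ) (Omb ℓ) y' := by
    rw [hy', map_div₀]
    rw [eq_div_iff (by rwa [Ne, map_eq_zero]), mul_comm]
    exact hc.symm
  have hby : (b : Om ℓ) * y' = c := by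
    rw [hy', mul_div_cancel₀ _ hb0']
  -- integrality
  have hint : IsIntegral (coeffSubring (Γ := ℚ) (SO ℓ)) y' := by
    obtain ⟨p, hp, hpy⟩ := hy
    let e : VV ℓ ≃+* (inclV ℓ).range := RingEquiv.ofBijective (inclV ℓ).rangeRestrict
      ⟨fun a b h => inclV_injective ℓ (congrArg Subtype.val h), (inclV ℓ).rangeRestrict_surjective⟩
    refine ⟨p.map (e.symm : (inclV ℓ).range →+* VV ℓ), hp.map _, hinj ?_⟩
    rw [map_zero, Polynomial.hom_eval₂, Polynomial.eval₂_map, ← hyy', ← hpy]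
    congr 1
    ext z
    obtain ⟨w, rfl⟩ := e.surjective z
    show algebraMap (Om ℓ) (Omb ℓ) ((e.symm (e w) : VV ℓ) : Om ℓ) = _
    rw [RingEquiv.symm_apply_apply]
    rfl
  have hmem := mem_coeffSubring_of_isIntegral (SO ℓ) (ℓ : EE ℓ) (isDVRIn_SO ℓ) y' b hint hb0' b.2
    (by rw [hby]; exact c.2)
  exact ⟨⟨y', hmem⟩, hyy'.symm⟩

end Concrete

end Fermat.Agent.S28
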